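/-
S56 / package LOC (local counts): DEFINITIONS.

* `adRep ρ`, `ad0Space k V`, `ad0Rep ρ`  : the adjoint representation on `End_k V` and on the
  trace-zero endomorphisms (any group, any `ρ : Representation k G V`).
* `twRep χ ρ`                            : the twist `g ↦ χ g • ρ g` by a character `χ : G →* kˣ`.
* `smH1ur 𝓛 I ρ`                         : the classes in `smH1 𝓛 ρ` whose restriction to the
  subgroup `I` is a coboundary ("unramified classes" for `I` = inertia).
* `locInertia q`, `IsFrobLift q φ`       : inertia subgroup / Frobenius lifts in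
  `lbGal q = Gal(ℚ̄_q/ℚ_q)` (`S55/LocalBridgeDefs`), in terms of the norm of `PadicAlgCl q`.
Everything here is sorry-free; the statements of the package are in `Loc/Spec.lean`.
-/
import Fermat.Agent.S55.Top.CritA
import Fermat.Agent.S55.LocalBridgeDefs

set_option autoImplicit false

namespace Fermat.Agent.S56

open Fermat.Agent.S55

section Ad

variable {k : Type*} [Field k] {G : Type*} [Group G] {V : Type*} [AddCommGroup V] [Module k V]

/-- the adjoint representation on `End_k V`: `g • X = ρ g ∘ X ∘ ρ g⁻¹` -/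
def adRep (ρ : Representation k G V) : Representation k G (Module.End k V) where
  toFun g :=
    { toFun := fun X => ρ g * X * ρ g⁻¹
      map_add' := fun X Y => by rw [mul_add, add_mul]
      map_smul' := fun c X => by
        rw [RingHom.id_apply, mul_smul_comm, smul_mul_assoc] }
  map_one' := by
    ext X : 1
    show ρ 1 * X * ρ (1 : G)⁻¹ = X
    rw [inv_one, map_one, one_mul, mul_one]
  map_mul' g h := by
    ext X : 1
    show ρ (g * h) * X * ρ (g * h)⁻¹ = ρ g * (ρ h * X * ρ h⁻¹) * ρ g⁻¹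
    rw [mul_inv_rev, map_mul, map_mul]
    simp only [mul_assoc]

@[simp] theorem adRep_apply (ρ : Representation k G V) (g : G) (X : Module.End k V) :
    adRep ρ g X = ρ g * X * ρ g⁻¹ := rfl

/-- the trace-zero endomorphisms -/
noncomputable def ad0Space (k : Type*) [Field k] (V : Type*) [AddCommGroup V] [Module k V] :
    Submodule k (Module.End k V) :=
  LinearMap.ker (LinearMap.trace k V)

theorem mem_ad0Space (X : Module.End k V) : X ∈ ad0Space k V ↔ LinearMap.trace k V X = 0 :=
  LinearMap.mem_ker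

theorem adRep_trace (ρ : Representation k G V) (g : G) (X : Module.End k V) :
    LinearMap.trace k V (adRep ρ g X) = LinearMap.trace k V X := by
  rw [adRep_apply, LinearMap.trace_mul_comm, ← mul_assoc, ← map_mul, inv_mul_cancel, map_one,
    one_mul]

theorem ad0Space_le_comap (ρ : Representation k G V) (g : G) :
    ad0Space k V ≤ (ad0Space k V).comap (adRep ρ g) := by
  intro X hX
  rw [Submodule.mem_comap, mem_ad0Space, adRep_trace]
  exact (mem_ad0Space X).1 hX

/-- the adjoint representation on the trace-zero endomorphisms -/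
noncomputable def ad0Rep (ρ : Representation k G V) : Representation k G ↥(ad0Space k V) :=
  (adRep ρ).subrepresentation (ad0Space k V) (ad0Space_le_comap ρ)

@[simp] theorem ad0Rep_apply_coe (ρ : Representation k G V) (g : G) (X : ↥(ad0Space k V)) :
    ((ad0Rep ρ g X : ↥(ad0Space k V)) : Module.End k V) = ρ g * (X : Module.End k V) * ρ g⁻¹ :=
  rfl

/-- the twist of `ρ` by a character: `g ↦ χ g • ρ g` -/
def twRep (χ : G →* kˣ) (ρ : Representation k G V) : Representation k G V where
  toFun g := ((χ g : kˣ) : k) • ρ g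
  map_one' := by rw [map_one, map_one, Units.val_one, one_smul]
  map_mul' g h := by
    rw [map_mul, map_mul, Units.val_mul, smul_mul_smul_comm]

@[simp] theorem twRep_apply (χ : G →* kˣ) (ρ : Representation k G V) (g : G) (v : V) :
    twRep χ ρ g v = ((χ g : kˣ) : k) • ρ g v := rfl

end Ad

section Ur

variable {k : Type*} [CommRing k] {G : Type*} [Group G] (𝓛 : Levels G) (I : Subgroup G)
  {V : Type*} [AddCommGroup V] [Module k V] (ρ : Representation k G V)

/-- the smooth `1`-cocycles whose restriction to `I` is a coboundary -/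
def smZ1ur : Submodule k ↥(smZ1 𝓛 ρ) where
  carrier := {c | ∃ m : V, ∀ σ ∈ I, (c : G → V) σ = ρ σ m - m}
  add_mem' := by
    rintro c c' ⟨m, hm⟩ ⟨m', hm'⟩
    refine ⟨m + m', fun σ hσ => ?_⟩
    show (c : G → V) σ + (c' : G → V) σ = _
    rw [hm σ hσ, hm' σ hσ, map_add]
    abel
  zero_mem' := ⟨0, fun σ _ => by rw [map_zero, sub_zero]; rfl⟩
  smul_mem' := by
    rintro a c ⟨m, hm⟩
    refine ⟨a • m, fun σ hσ => ?_⟩
    show a • (c : G → V) σ = _
    rw [hm σ hσ, map_smul, smul_sub]

/-- the classes in `H¹(G, V)` whose restriction to `I` is trivial -/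
def smH1ur : Submodule k (smH1 𝓛 ρ) := (smZ1ur 𝓛 I ρ).map (smH1π 𝓛 ρ)

theorem smH1π_mem_smH1ur (c : ↥(smZ1 𝓛 ρ)) (m : V) (hm : ∀ σ ∈ I, (c : G → V) σ = ρ σ m - m) :
    smH1π 𝓛 ρ c ∈ smH1ur 𝓛 I ρ :=
  ⟨c, ⟨m, hm⟩, rfl⟩

end Ur

section Local

variable (q : ℕ) [Fact q.Prime]

/-- Galois automorphisms of `ℚ̄_q` are isometries -/
theorem loc_norm_algEquiv (τ : lbGal q) (y : PadicAlgCl q) : ‖τ y‖ = ‖y‖ :=
  (spectralNorm_eq_of_equiv τ y).symm

/-- the inertia subgroup of `Gal(ℚ̄_q/ℚ_q)`: trivial action on the residue field of `ℚ̄_q` -/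
def locInertia : Subgroup (lbGal q) where
  carrier := {τ | ∀ y : PadicAlgCl q, ‖y‖ ≤ 1 → ‖τ y - y‖ < 1}
  one_mem' := fun y _ => by
    show ‖(1 : lbGal q) y - y‖ < 1
    rw [AlgEquiv.one_apply, sub_self, norm_zero]
    exact one_pos
  mul_mem' := by
    intro σ τ hσ hτ y hy
    have h1 : ‖τ y‖ ≤ 1 := by
      rw [loc_norm_algEquiv]
      exact hy
    have h2 : (σ * τ) y - y = (σ (τ y) - τ y) + (τ y - y) := by
      rw [AlgEquiv.mul_apply]
      ring
    rw [h2]
    exact lt_of_le_of_lt (PadicAlgCl.isNonarchimedean q _ _) (max_lt (hσ _ h1) (hτ y hy))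
  inv_mem' := by
    intro σ hσ y hy
    have h1 : ‖σ⁻¹ y‖ ≤ 1 := by rw [loc_norm_algEquiv]; exact hy
    have h2 : σ⁻¹ y - y = -(σ (σ⁻¹ y) - σ⁻¹ y) := by
      have : σ (σ⁻¹ y) = y := by
        rw [← AlgEquiv.mul_apply, mul_inv_cancel, AlgEquiv.one_apply]
      rw [this]
      ring
    rw [h2, norm_neg]
    exact hσ _ h1

theorem mem_locInertia (τ : lbGal q) :
    τ ∈ locInertia q ↔ ∀ y : PadicAlgCl q, ‖y‖ ≤ 1 → ‖τ y - y‖ < 1 := Iff.rfl

/-- S1: inertia is a normal subgroup -/
theorem locInertia_normal : (locInertia q).Normal := by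
  refine ⟨fun n hn g y hy => ?_⟩
  have h1 : ‖g⁻¹ y‖ ≤ 1 := by rw [loc_norm_algEquiv]; exact hy
  have h2 : (g * n * g⁻¹) y - y = g (n (g⁻¹ y) - g⁻¹ y) := by
    rw [map_sub, AlgEquiv.mul_apply, AlgEquiv.mul_apply]
    congr 1
    rw [← AlgEquiv.mul_apply, mul_inv_cancel, AlgEquiv.one_apply]
  rw [h2, loc_norm_algEquiv]
  exact hn _ h1

/-- `φ` induces `x ↦ x ^ q` on the residue field of `ℚ̄_q` -/
def IsFrobLift (φ : lbGal q) : Prop :=
  ∀ y : PadicAlgCl q, ‖y‖ ≤ 1 → ‖φ y - y ^ q‖ < 1

end Local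

end Fermat.Agent.S56
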