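/-
S56 / LOC, rows 366 (S0 + S2): the maximal unramified extension `locUr q = ℚ_q(μ_{(q')})` inside
`ℚ̄_q`, `locInertia q = Gal(ℚ̄_q / locUr q)`, and existence of Frobenius lifts.
Helper lemmas are prefixed `locur_`.
-/
import Fermat.Agent.S56.Loc.Defs
import Fermat.Agent.S55.LocalUnramSpec

set_option autoImplicit false
set_option linter.style.haveILetI false
set_option linter.unusedSectionVars false

namespace Fermat.Agent.S56

open Fermat.Agent.S55 IsLocalRing

section Norm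

variable (q : ℕ) [Fact q.Prime]

/-- the spectral norm of a finite subextension is the norm of `ℚ̄_q` -/
theorem locur_spectralNorm_eq (E : IntermediateField ℚ_[q] (PadicAlgCl q)) (y : ↥E) :
    spectralNorm ℚ_[q] ↥E y = ‖(y : PadicAlgCl q)‖ := by
  rw [spectralNorm.eq_of_tower (K := ℚ_[q]) (E := ↥E) (L := PadicAlgCl q) y,
    PadicAlgCl.spectralNorm_eq]
  rfl

theorem locur_norm_mul (x y : PadicAlgCl q) : ‖x * y‖ = ‖x‖ * ‖y‖ := norm_mul x y

theorem locur_norm_sub_le_max (x y : PadicAlgCl q) : ‖x - y‖ ≤ max ‖x‖ ‖y‖ := by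
  have := PadicAlgCl.isNonarchimedean q x (-y)
  rwa [norm_neg, ← sub_eq_add_neg] at this

/-- roots of unity of order prime to `q` are at distance `1` from each other -/
theorem locur_root_eq_of_norm_sub_lt {m : ℕ} (hm : ¬ q ∣ m) {ζ ζ' : PadicAlgCl q}
    (hζ : ζ ^ m = 1) (hζ' : ζ' ^ m = 1) (h : ‖ζ - ζ'‖ < 1) : ζ = ζ' := by
  have hm0 : m ≠ 0 := by rintro rfl; exact hm (dvd_zero q)
  have hint : ∀ z : PadicAlgCl q, z ^ m = 1 → IsIntegral ℚ_[q] z := fun z hz =>
    ⟨Polynomial.X ^ m - 1, Polynomial.monic_X_pow_sub_C 1 hm0, by simp [hz]⟩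
  set E : IntermediateField ℚ_[q] (PadicAlgCl q) := IntermediateField.adjoin ℚ_[q] {ζ, ζ'}
    with hE
  haveI : FiniteDimensional ℚ_[q] ↥E := by
    apply IntermediateField.finiteDimensional_adjoin
    intro x hx
    rcases hx with rfl | rfl
    · exact hint _ hζ
    · exact hint _ hζ'
  have hζE : ζ ∈ E := IntermediateField.subset_adjoin _ _ (Set.mem_insert _ _)
  have hζ'E : ζ' ∈ E := IntermediateField.subset_adjoin _ _ (Set.mem_insert_of_mem _ rfl)
  have key := lu_eq_of_spectralNorm_sub_lt q ↥E hm (ζ := ⟨ζ, hζE⟩) (ζ' := ⟨ζ', hζ'E⟩)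
    (Subtype.ext hζ) (Subtype.ext hζ') (by
      rw [locur_spectralNorm_eq]
      exact h)
  exact congrArg Subtype.val key

/-- a root of unity has norm one -/
theorem locur_norm_root {m : ℕ} (hm0 : m ≠ 0) {ζ : PadicAlgCl q} (hζ : ζ ^ m = 1) : ‖ζ‖ = 1 := by
  have h1 : ‖ζ‖ ^ m = 1 := by rw [← norm_pow, hζ, norm_one]
  exact (pow_eq_one_iff_of_nonneg (norm_nonneg ζ) hm0).mp h1

/-- every unit of the ring of integers of `ℚ̄_q` is congruent to a root of unity of order prime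
to `q` -/
theorem locur_exists_root_near (y : PadicAlgCl q) (hy : ‖y‖ = 1) :
    ∃ (m : ℕ) (ζ : PadicAlgCl q), 0 < m ∧ ¬ q ∣ m ∧ ζ ^ m = 1 ∧ ‖y - ζ‖ < 1 := by
  classical
  have hyint : IsIntegral ℚ_[q] y := (Algebra.IsAlgebraic.isAlgebraic y).isIntegral
  set E : IntermediateField ℚ_[q] (PadicAlgCl q) := IntermediateField.adjoin ℚ_[q] {y} with hE
  haveI : FiniteDimensional ℚ_[q] ↥E := IntermediateField.adjoin.finiteDimensional hyint
  have hyE : y ∈ E := IntermediateField.mem_adjoin_simple_self _ y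
  set y' : ↥E := ⟨y, hyE⟩ with hy'
  have hn : spectralNorm ℚ_[q] ↥E y' = 1 := by rw [locur_spectralNorm_eq]; exact hy
  have hmem : y' ∈ lfInt q ↥E := by rw [mem_lfInt_iff, hn]
  set z : lfInt q ↥E := ⟨y', hmem⟩ with hz
  set N := lfResCard q ↥E - 1 with hN
  have hN0 : N ≠ 0 := lu_lfResCard_sub_one_ne_zero q ↥E
  have hqN : ¬ q ∣ N := lu_not_dvd_lfResCard_sub_one q ↥E
  -- the residue of `z` is a unit of the finite residue field
  haveI : Finite (ResidueField (lfInt q ↥E)) := by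
    apply Nat.finite_of_card_ne_zero
    have h1 : 1 < lfResCard q ↥E := lu_one_lt_lfResCard q ↥E
    unfold lfResCard at h1
    omega
  haveI : Fintype (ResidueField (lfInt q ↥E)) := Fintype.ofFinite _
  have hres0 : residue (lfInt q ↥E) z ≠ 0 := by
    intro h0
    rw [residue_eq_zero_iff, mem_maximalIdeal_lfInt_iff] at h0
    have : spectralNorm ℚ_[q] ↥E y' < 1 := h0
    rw [hn] at this
    exact lt_irrefl _ this
  have hpow : residue (lfInt q ↥E) (z ^ N) = residue (lfInt q ↥E) 1 := by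
    rw [map_pow, map_one, hN]
    have hc : Fintype.card (ResidueField (lfInt q ↥E)) = lfResCard q ↥E := by
      unfold lfResCard
      rw [Nat.card_eq_fintype_card]
    rw [← hc]
    exact FiniteField.pow_card_sub_one_eq_one _ hres0
  rw [lu_residue_eq_iff] at hpow
  have hlt : ‖y ^ N - 1‖ < 1 := by
    have : spectralNorm ℚ_[q] ↥E (y' ^ N - 1) = ‖y ^ N - 1‖ := by
      rw [locur_spectralNorm_eq]
      rfl
    rw [← this]
    exact hpow
  -- `X^N - 1` splits in `ℚ̄_q`
  haveI : NeZero ((N : ℕ) : PadicAlgCl q) := ⟨Nat.cast_ne_zero.2 hN0⟩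
  obtain ⟨ζ₀, hζ₀⟩ := HasEnoughRootsOfUnity.exists_primitiveRoot (PadicAlgCl q) N
  have hprod := congrArg (Polynomial.eval y)
    (Polynomial.X_pow_sub_one_eq_prod (Nat.pos_of_ne_zero hN0) hζ₀)
  rw [Polynomial.eval_sub, Polynomial.eval_pow, Polynomial.eval_X, Polynomial.eval_one,
    Polynomial.eval_prod] at hprod
  simp only [Polynomial.eval_sub, Polynomial.eval_X, Polynomial.eval_C] at hprod
  by_contra hcon
  push Not at hcon
  have hall : ∀ ζ ∈ Polynomial.nthRootsFinset N (1 : PadicAlgCl q), ‖y - ζ‖ = 1 := by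
    intro ζ hζ
    have hζN : ζ ^ N = 1 := (Polynomial.mem_nthRootsFinset (Nat.pos_of_ne_zero hN0) 1).1 hζ
    refine le_antisymm ?_ (hcon N ζ (Nat.pos_of_ne_zero hN0) hqN hζN)
    refine (locur_norm_sub_le_max q y ζ).trans ?_
    rw [hy, locur_norm_root q hN0 hζN, max_self]
  have : ‖y ^ N - 1‖ = 1 := by
    rw [hprod, norm_prod]
    exact Finset.prod_eq_one hall
  rw [this] at hlt
  exact lt_irrefl _ hlt

end Norm

section Ur

variable (q : ℕ) [Fact q.Prime]

/-- the maximal unramified extension of `ℚ_q` in `ℚ̄_q`: generated by the roots of unity of order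
prime to `q` -/
noncomputable def locUr : IntermediateField ℚ_[q] (PadicAlgCl q) :=
  IntermediateField.adjoin ℚ_[q] {x | ∃ m : ℕ, 0 < m ∧ ¬ q ∣ m ∧ x ^ m = 1}

theorem locur_root_mem_locUr {m : ℕ} (hm0 : 0 < m) (hm : ¬ q ∣ m) {ζ : PadicAlgCl q}
    (hζ : ζ ^ m = 1) : ζ ∈ locUr q :=
  IntermediateField.subset_adjoin _ _ ⟨m, hm0, hm, hζ⟩

/-- `τ` fixes `locUr q` iff it fixes all roots of unity of order prime to `q` -/
theorem locur_mem_fixingSubgroup_iff (τ : lbGal q) :
    τ ∈ (locUr q).fixingSubgroup ↔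
      ∀ (m : ℕ) (ζ : PadicAlgCl q), 0 < m → ¬ q ∣ m → ζ ^ m = 1 → τ ζ = ζ := by
  rw [IntermediateField.mem_fixingSubgroup_iff]
  constructor
  · intro h m ζ hm0 hm hζ
    exact h ζ (locur_root_mem_locUr q hm0 hm hζ)
  · intro h
    have hle : locUr q ≤ IntermediateField.fixedField (Subgroup.zpowers τ) := by
      unfold locUr
      rw [IntermediateField.adjoin_le_iff]
      rintro x ⟨m, hm0, hm, hx⟩
      rw [SetLike.mem_coe, IntermediateField.mem_fixedField_iff]
      intro σ hσ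
      obtain ⟨j, rfl⟩ := Subgroup.mem_zpowers_iff.1 hσ
      clear hσ
      have h1 : ∀ z : PadicAlgCl q, z ^ m = 1 → τ⁻¹ z = z := fun z hz => by
        have := h m z hm0 hm hz
        conv_lhs => rw [← this]
        rw [← AlgEquiv.mul_apply, inv_mul_cancel, AlgEquiv.one_apply]
      induction j using Int.induction_on with
      | zero => rfl
      | succ i ih =>
        rw [zpow_add_one, AlgEquiv.mul_apply, h m x hm0 hm hx]
        exact ih
      | pred i ih =>
        rw [zpow_sub_one, AlgEquiv.mul_apply, h1 x hx]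
        exact ih
    intro x hx
    have := hle hx
    rw [IntermediateField.mem_fixedField_iff] at this
    exact this τ (Subgroup.mem_zpowers τ)

/-- **S0**: inertia is the Galois group of `ℚ̄_q` over the maximal unramified extension -/
theorem locInertia_eq_fixingSubgroup : locInertia q = (locUr q).fixingSubgroup := by
  ext τ
  rw [locur_mem_fixingSubgroup_iff, mem_locInertia]
  constructor
  · intro h m ζ hm0 hm hζ
    have hm0' : m ≠ 0 := hm0.ne'
    have h1 : ‖τ ζ - ζ‖ < 1 := h ζ (locur_norm_root q hm0' hζ).le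
    exact locur_root_eq_of_norm_sub_lt q hm (by rw [← map_pow, hζ, map_one]) hζ h1
  · intro h y hy
    rcases lt_or_eq_of_le hy with hlt | heq
    · refine lt_of_le_of_lt (locur_norm_sub_le_max q _ _) (max_lt ?_ hlt)
      rw [loc_norm_algEquiv]
      exact hlt
    · obtain ⟨m, ζ, hm0, hm, hζ, hnear⟩ := locur_exists_root_near q y heq
      have h2 : τ y - y = τ (y - ζ) - (y - ζ) := by
        rw [map_sub, h m ζ hm0 hm hζ]
        ring
      rw [h2]
      refine lt_of_le_of_lt (locur_norm_sub_le_max q _ _) (max_lt ?_ hnear)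
      rw [loc_norm_algEquiv]
      exact hnear

end Ur

section Frob

variable (q : ℕ) [Fact q.Prime]

/-- the residue field of `ℚ_q` has `q` elements -/
theorem locur_lfResCard_padic : lfResCard q ℚ_[q] = q := by
  have h := lfOrd_prime_mul_lfAbsInertiaDeg q ℚ_[q]
  rw [Module.finrank_self, Nat.cast_one] at h
  have h1 : ((lfAbsInertiaDeg q ℚ_[q] : ℕ) : ℤ) = 1 :=
    Int.eq_one_of_mul_eq_one_left (Int.natCast_nonneg _) h
  have h2 : lfAbsInertiaDeg q ℚ_[q] = 1 := by exact_mod_cast h1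
  rw [lfResCard_eq, h2, pow_one]

/-- the closed sets whose intersection consists of the Frobenius lifts -/
def locurFrobSet (n : ℕ) : Set (lbGal q) :=
  {τ | ∀ ζ : PadicAlgCl q, ζ ^ (q ^ (n + 1).factorial - 1) = 1 → τ ζ = ζ ^ q}

theorem locur_isClosed_setOf_apply_eq (ζ c : PadicAlgCl q) :
    IsClosed {τ : lbGal q | τ ζ = c} := by
  by_cases h : ∃ τ₀ : lbGal q, τ₀ ζ = c
  · obtain ⟨τ₀, hτ₀⟩ := h
    have hS : IsClosed (MulAction.stabilizer (lbGal q) ζ : Set (lbGal q)) :=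
      Subgroup.isClosed_of_isOpen _ (stabilizer_isOpen_of_isIntegral ζ)
    have hcont : Continuous (fun τ : lbGal q => τ₀⁻¹ * τ) := continuous_const_mul τ₀⁻¹
    have : {τ : lbGal q | τ ζ = c} =
        (fun τ : lbGal q => τ₀⁻¹ * τ) ⁻¹' (MulAction.stabilizer (lbGal q) ζ : Set (lbGal q)) := by
      ext τ
      rw [Set.mem_ofPred_eq, Set.mem_preimage, SetLike.mem_coe, MulAction.mem_stabilizer_iff]
      show τ ζ = c ↔ (τ₀⁻¹ * τ) ζ = ζ
      rw [AlgEquiv.mul_apply]
      constructor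
      · intro h1
        rw [h1, ← hτ₀, ← AlgEquiv.mul_apply, inv_mul_cancel, AlgEquiv.one_apply]
      · intro h1
        have := congrArg τ₀ h1
        rw [← AlgEquiv.mul_apply, mul_inv_cancel, AlgEquiv.one_apply] at this
        rw [this, hτ₀]
    rw [this]
    exact hS.preimage hcont
  · have : {τ : lbGal q | τ ζ = c} = ∅ := by
      ext τ
      simp only [Set.mem_ofPred_eq, Set.mem_empty_iff_false, iff_false]
      exact fun h1 => h ⟨τ, h1⟩
    rw [this]
    exact isClosed_empty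

theorem locurFrobSet_isClosed (n : ℕ) : IsClosed (locurFrobSet q n) := by
  have : locurFrobSet q n = ⋂ ζ : PadicAlgCl q,
      ⋂ _ : ζ ^ (q ^ (n + 1).factorial - 1) = 1, {τ : lbGal q | τ ζ = ζ ^ q} := by
    ext τ
    simp only [locurFrobSet, Set.mem_ofPred_eq, Set.mem_iInter]
  rw [this]
  exact isClosed_iInter fun ζ => isClosed_iInter fun _ => locur_isClosed_setOf_apply_eq q ζ _

theorem locurFrobSet_antitone (n : ℕ) : locurFrobSet q (n + 1) ⊆ locurFrobSet q n := by
  intro τ hτ ζ hζ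
  apply hτ ζ
  have hdvd : q ^ (n + 1).factorial - 1 ∣ q ^ (n + 1 + 1).factorial - 1 := by
    have h1 : (n + 1 + 1).factorial = (n + 1).factorial * (n + 2) := by
      rw [Nat.factorial_succ (n + 1), mul_comm]
    rw [h1, pow_mul]
    simpa only [one_pow] using Nat.sub_dvd_pow_sub_pow (q ^ (n + 1).factorial) 1 (n + 2)
  obtain ⟨d, hd⟩ := hdvd
  rw [hd, pow_mul, hζ, one_pow]

theorem locurFrobSet_nonempty (n : ℕ) : (locurFrobSet q n).Nonempty := by
  set e := (n + 1).factorial with he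
  have hepos : 0 < e := Nat.factorial_pos _
  set Ke : IntermediateField ℚ_[q] (PadicAlgCl q) := lfUnramExt q ℚ_[q] (PadicAlgCl q) e with hKe
  haveI : FiniteDimensional ℚ_[q] ↥Ke := lfUnramExt_finiteDimensional' q ℚ_[q] (PadicAlgCl q) e hepos
  have hur : LfUnramified q ℚ_[q] ↥Ke := lfUnramExt_unramified q ℚ_[q] (PadicAlgCl q) e hepos
  haveI hgal : IsGalois ℚ_[q] ↥Ke := LfUnramified.isGalois q ℚ_[q] ↥Ke hur
  have hσ : IsLfFrob q ℚ_[q] ↥Ke (lfFrob q ℚ_[q] ↥Ke) := isLfFrob_lfFrob q ℚ_[q] ↥Ke hur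
  obtain ⟨τ, hτ⟩ := AlgEquiv.restrictNormalHom_surjective (F := ℚ_[q]) (K₁ := ↥Ke)
    (PadicAlgCl q) (lfFrob q ℚ_[q] ↥Ke)
  refine ⟨τ, fun ζ hζ => ?_⟩
  have hmem : ζ ∈ Ke := by
    apply IntermediateField.subset_adjoin
    show ζ ^ (lfResCard q ℚ_[q] ^ e - 1) = 1
    rw [locur_lfResCard_padic]
    exact hζ
  have hnd : ¬ q ∣ q ^ e - 1 := by
    have := lu_not_dvd_pow_sub_one q ℚ_[q] hepos
    rwa [locur_lfResCard_padic] at this
  have h1 := lu_frob_apply_root q ℚ_[q] ↥Ke hσ hnd (ζ := ⟨ζ, hmem⟩) (Subtype.ext hζ)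
  rw [locur_lfResCard_padic] at h1
  have h2 := AlgEquiv.restrictNormal_commutes τ ↥Ke ⟨ζ, hmem⟩
  have h3 : AlgEquiv.restrictNormal τ ↥Ke = lfFrob q ℚ_[q] ↥Ke := hτ
  rw [h3, h1] at h2
  exact h2.symm

/-- every root of unity of order prime to `q` is a `(q^{(n+1)!} - 1)`-th root of unity for some `n` -/
theorem locur_exists_factorial {m : ℕ} (hm0 : 0 < m) (hm : ¬ q ∣ m) :
    ∃ n : ℕ, m ∣ q ^ (n + 1).factorial - 1 := by
  have hq : q.Prime := Fact.out
  have hcop : Nat.Coprime q m := (Nat.Prime.coprime_iff_not_dvd hq).2 hm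
  have h1 : q ^ Nat.totient m ≡ 1 [MOD m] := Nat.ModEq.pow_totient hcop
  have h2 : m ∣ q ^ Nat.totient m - 1 :=
    (Nat.modEq_iff_dvd' (Nat.one_le_pow _ _ hq.pos)).1 h1.symm
  have htpos : 0 < Nat.totient m := Nat.totient_pos.2 hm0
  refine ⟨Nat.totient m, h2.trans ?_⟩
  have h3 : Nat.totient m ∣ (Nat.totient m + 1).factorial :=
    Nat.dvd_factorial htpos (Nat.le_succ _)
  obtain ⟨d, hd⟩ := h3
  rw [hd, pow_mul]
  simpa only [one_pow] using Nat.sub_dvd_pow_sub_pow (q ^ Nat.totient m) 1 d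

/-- an automorphism acting as `ζ ↦ ζ^q` on all roots of unity of order prime to `q` is a
Frobenius lift -/
theorem locur_isFrobLift_of_roots (φ : lbGal q)
    (h : ∀ (m : ℕ) (ζ : PadicAlgCl q), 0 < m → ¬ q ∣ m → ζ ^ m = 1 → φ ζ = ζ ^ q) :
    IsFrobLift q φ := by
  have hq : q.Prime := Fact.out
  intro y hy
  rcases lt_or_eq_of_le hy with hlt | heq
  · refine lt_of_le_of_lt (locur_norm_sub_le_max q _ _) (max_lt ?_ ?_)
    · rw [loc_norm_algEquiv]; exact hlt
    · rw [norm_pow]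
      exact pow_lt_one₀ (norm_nonneg y) hlt hq.ne_zero
  · obtain ⟨m, ζ, hm0, hm, hζ, hnear⟩ := locur_exists_root_near q y heq
    have h2 : φ y - y ^ q = φ (y - ζ) - (y ^ q - ζ ^ q) := by
      rw [map_sub, h m ζ hm0 hm hζ]
      ring
    rw [h2]
    refine lt_of_le_of_lt (locur_norm_sub_le_max q _ _) (max_lt ?_ ?_)
    · rw [loc_norm_algEquiv]; exact hnear
    · have h3 : y ^ q - ζ ^ q = (y - ζ) * ∑ i ∈ Finset.range q, y ^ i * ζ ^ (q - 1 - i) :=
        ((Commute.all y ζ).mul_geom_sum₂ q).symm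
      rw [h3, norm_mul]
      have h4 : ‖∑ i ∈ Finset.range q, y ^ i * ζ ^ (q - 1 - i)‖ ≤ 1 := by
        have hna : IsNonarchimedean (fun x : PadicAlgCl q => ‖x‖) := PadicAlgCl.isNonarchimedean q
        have hne : (Finset.range q).Nonempty := ⟨0, Finset.mem_range.2 hq.pos⟩
        obtain ⟨b, -, hb⟩ := IsNonarchimedean.finset_image_add_of_nonempty hna
          (fun i => y ^ i * ζ ^ (q - 1 - i)) hne
        refine hb.trans ?_
        show ‖y ^ b * ζ ^ (q - 1 - b)‖ ≤ 1
        rw [norm_mul, norm_pow, norm_pow, heq, locur_norm_root q hm0.ne' hζ, one_pow, one_pow,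
          mul_one]
      calc ‖y - ζ‖ * ‖∑ i ∈ Finset.range q, y ^ i * ζ ^ (q - 1 - i)‖ ≤ ‖y - ζ‖ * 1 :=
            mul_le_mul_of_nonneg_left h4 (norm_nonneg _)
        _ < 1 := by rw [mul_one]; exact hnear

/-- a Frobenius lift acts as `ζ ↦ ζ^q` on the roots of unity of order prime to `q` -/
theorem locur_frobLift_apply_root {φ : lbGal q} (hφ : IsFrobLift q φ) {m : ℕ} (hm0 : 0 < m)
    (hm : ¬ q ∣ m) {ζ : PadicAlgCl q} (hζ : ζ ^ m = 1) : φ ζ = ζ ^ q :=
  locur_root_eq_of_norm_sub_lt q hm (by rw [← map_pow, hζ, map_one])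
    (by rw [← pow_mul, mul_comm, pow_mul, hζ, one_pow])
    (hφ ζ (locur_norm_root q hm0.ne' hζ).le)

/-- **S2**: Frobenius lifts exist -/
theorem loc_exists_isFrobLift : ∃ φ : lbGal q, IsFrobLift q φ := by
  obtain ⟨φ, hφ⟩ := IsCompact.nonempty_iInter_of_sequence_nonempty_isCompact_isClosed
    (locurFrobSet q) (locurFrobSet_antitone q) (locurFrobSet_nonempty q)
    (locurFrobSet_isClosed q 0).isCompact (locurFrobSet_isClosed q)
  rw [Set.mem_iInter] at hφ
  refine ⟨φ, locur_isFrobLift_of_roots q φ fun m ζ hm0 hm hζ => ?_⟩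
  obtain ⟨n, hn⟩ := locur_exists_factorial q hm0 hm
  obtain ⟨d, hd⟩ := hn
  exact hφ n ζ (by rw [hd, pow_mul, hζ, one_pow])

end Frob

end Fermat.Agent.S56
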