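/-
S56 / LOC, row 367 (S3 + S4): `Gal(ℚ̄_q/ℚ_q) = ⟨φ⟩ · I · U` for every level `U`, and the inertia group
`I = locInertia q` maps ONTO the inertia group of every finite Galois extension of `ℚ_q`.
Helper lemmas are prefixed `loclift`.
-/
import Fermat.Agent.S56.Loc.Ur

set_option autoImplicit false
set_option linter.style.haveILetI false
set_option linter.unusedSectionVars false

namespace Fermat.Agent.S56

open Fermat.Agent.S55 IsLocalRing

section Chain

variable (q : ℕ) [Fact q.Prime]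

/-- the chain `ℚ_q(μ_{q^{(n+1)!} - 1})` of finite unramified extensions exhausting `locUr q` -/
noncomputable def locliftK (n : ℕ) : IntermediateField ℚ_[q] (PadicAlgCl q) :=
  lfUnramExt q ℚ_[q] (PadicAlgCl q) (n + 1).factorial

theorem loclift_mem_locliftK {n : ℕ} {ζ : PadicAlgCl q}
    (hζ : ζ ^ (q ^ (n + 1).factorial - 1) = 1) : ζ ∈ locliftK q n := by
  apply IntermediateField.subset_adjoin
  show ζ ^ (lfResCard q ℚ_[q] ^ (n + 1).factorial - 1) = 1
  rw [locur_lfResCard_padic]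
  exact hζ

theorem locliftK_mono : Monotone (locliftK q) := by
  apply monotone_nat_of_le_succ
  intro n
  unfold locliftK lfUnramExt
  rw [IntermediateField.adjoin_le_iff]
  intro ζ hζ
  have hζ' : ζ ^ (q ^ (n + 1).factorial - 1) = 1 := by
    have := hζ
    rw [Set.mem_ofPred_eq, locur_lfResCard_padic] at this
    exact this
  apply loclift_mem_locliftK
  have hdvd : q ^ (n + 1).factorial - 1 ∣ q ^ (n + 1 + 1).factorial - 1 := by
    have h1 : (n + 1 + 1).factorial = (n + 1).factorial * (n + 2) := by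
      rw [Nat.factorial_succ (n + 1), mul_comm]
    rw [h1, pow_mul]
    simpa only [one_pow] using Nat.sub_dvd_pow_sub_pow (q ^ (n + 1).factorial) 1 (n + 2)
  obtain ⟨d, hd⟩ := hdvd
  rw [hd, pow_mul, hζ', one_pow]

/-- every element of the maximal unramified extension lies in a finite level -/
theorem loclift_exists_mem_locliftK {x : PadicAlgCl q} (hx : x ∈ locUr q) :
    ∃ n : ℕ, x ∈ locliftK q n := by
  have hle : locUr q ≤ ⨆ n, locliftK q n := by
    unfold locUr
    rw [IntermediateField.adjoin_le_iff]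
    rintro ζ ⟨m, hm0, hm, hζ⟩
    obtain ⟨n, d, hd⟩ := locur_exists_factorial q hm0 hm
    have h1 : ζ ∈ locliftK q n := loclift_mem_locliftK q (by rw [hd, pow_mul, hζ, one_pow])
    exact (le_iSup (locliftK q) n) h1
  have h2 := hle hx
  have h3 : x ∈ ((⨆ n, locliftK q n : IntermediateField ℚ_[q] (PadicAlgCl q)) :
      Set (PadicAlgCl q)) := h2
  rw [IntermediateField.coe_iSup_of_directed (locliftK_mono q).directed_le, Set.mem_iUnion] at h3
  exact h3

theorem locliftK_le_locUr (n : ℕ) : locliftK q n ≤ locUr q := by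
  unfold locliftK lfUnramExt
  rw [IntermediateField.adjoin_le_iff]
  intro ζ hζ
  have hepos : 0 < (n + 1).factorial := Nat.factorial_pos _
  have hnd : ¬ q ∣ lfResCard q ℚ_[q] ^ (n + 1).factorial - 1 := lu_not_dvd_pow_sub_one q ℚ_[q] hepos
  have hpos : 0 < lfResCard q ℚ_[q] ^ (n + 1).factorial - 1 :=
    Nat.pos_of_ne_zero (fun h0 => hnd (h0 ▸ dvd_zero q))
  exact locur_root_mem_locUr q hpos hnd hζ

end Chain

section Frob

variable (q : ℕ) [Fact q.Prime]

/-- an element of the maximal unramified extension fixed by a Frobenius lift lies in `ℚ_q` -/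
theorem loclift_mem_range_of_fixed {φ : lbGal q} (hφ : IsFrobLift q φ) {x : PadicAlgCl q}
    (hx : x ∈ locUr q) (hfix : φ x = x) : x ∈ Set.range (algebraMap ℚ_[q] (PadicAlgCl q)) := by
  obtain ⟨n, hn⟩ := loclift_exists_mem_locliftK q hx
  have hepos : 0 < (n + 1).factorial := Nat.factorial_pos _
  set K : IntermediateField ℚ_[q] (PadicAlgCl q) := locliftK q n with hK
  haveI : FiniteDimensional ℚ_[q] ↥K :=
    lfUnramExt_finiteDimensional' q ℚ_[q] (PadicAlgCl q) _ hepos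
  have hur : LfUnramified q ℚ_[q] ↥K := lfUnramExt_unramified q ℚ_[q] (PadicAlgCl q) _ hepos
  haveI hgal : IsGalois ℚ_[q] ↥K := LfUnramified.isGalois q ℚ_[q] ↥K hur
  set φK : ↥K ≃ₐ[ℚ_[q]] ↥K := AlgEquiv.restrictNormal φ ↥K with hφK
  have hcomm : ∀ y : ↥K, ((φK y : ↥K) : PadicAlgCl q) = φ (y : PadicAlgCl q) := fun y =>
    AlgEquiv.restrictNormal_commutes φ ↥K y
  have hfrob : IsLfFrob q ℚ_[q] ↥K φK := by
    intro y hy
    rw [mem_lfInt_iff, locur_spectralNorm_eq] at hy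
    rw [locur_spectralNorm_eq, locur_lfResCard_padic]
    have := hφ (y : PadicAlgCl q) hy
    rw [← hcomm y] at this
    exact this
  have heq : φK = lfFrob q ℚ_[q] ↥K := hfrob.eq_lfFrob q ℚ_[q] ↥K hur
  have hxK : φK ⟨x, hn⟩ = ⟨x, hn⟩ := Subtype.ext (by rw [hcomm]; exact hfix)
  have hall : ∀ f : ↥K ≃ₐ[ℚ_[q]] ↥K, f ⟨x, hn⟩ = ⟨x, hn⟩ := by
    intro f
    have hf : f ∈ Subgroup.zpowers φK := by
      rw [heq]
      exact mem_zpowers_lfFrob q ℚ_[q] ↥K hur f
    have hle : Subgroup.zpowers φK ≤ MulAction.stabilizer (↥K ≃ₐ[ℚ_[q]] ↥K) (⟨x, hn⟩ : ↥K) := by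
      rw [Subgroup.zpowers_le, MulAction.mem_stabilizer_iff]
      exact hxK
    exact MulAction.mem_stabilizer_iff.1 (hle hf)
  obtain ⟨a, ha⟩ := (IsGalois.mem_range_algebraMap_iff_fixed (F := ℚ_[q]) (E := ↥K) ⟨x, hn⟩).2 hall
  exact ⟨a, congrArg Subtype.val ha⟩

end Frob

section Galois

variable (q : ℕ) [Fact q.Prime]

/-- Galois correspondence: an automorphism of a finite Galois `E/ℚ_q` which fixes `E ∩ locUr q`
pointwise is the restriction of an element of the inertia group -/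
theorem loclift_exists_of_fixes (E : IntermediateField ℚ_[q] (PadicAlgCl q))
    [FiniteDimensional ℚ_[q] E] [IsGalois ℚ_[q] E] (σ : ↥E ≃ₐ[ℚ_[q]] ↥E)
    (hσ : ∀ x : ↥E, (x : PadicAlgCl q) ∈ locUr q → σ x = x) :
    ∃ τ ∈ locInertia q, ∀ x : ↥E, τ (x : PadicAlgCl q) = ((σ x : ↥E) : PadicAlgCl q) := by
  set res : lbGal q →* (↥E ≃ₐ[ℚ_[q]] ↥E) :=
    AlgEquiv.restrictNormalHom (F := ℚ_[q]) (K₁ := PadicAlgCl q) ↥E with hres
  have hcomm : ∀ (τ : lbGal q) (y : ↥E), ((res τ y : ↥E) : PadicAlgCl q) = τ (y : PadicAlgCl q) :=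
    fun τ y => AlgEquiv.restrictNormal_commutes τ ↥E y
  set H : Subgroup (↥E ≃ₐ[ℚ_[q]] ↥E) := (locInertia q).map res with hH
  have hfix : (IntermediateField.fixedField H).fixingSubgroup = H :=
    IntermediateField.fixingSubgroup_fixedField H
  have hmem : σ ∈ (IntermediateField.fixedField H).fixingSubgroup := by
    rw [IntermediateField.mem_fixingSubgroup_iff]
    intro x hx
    apply hσ x
    rw [← InfiniteGalois.fixedField_fixingSubgroup (locUr q), ← locInertia_eq_fixingSubgroup,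
      IntermediateField.mem_fixedField_iff]
    intro τ hτ
    have h1 : res τ ∈ H := Subgroup.mem_map_of_mem _ hτ
    have h2 : res τ x = x := (IntermediateField.mem_fixedField_iff _ _).1 hx (res τ) h1
    rw [← hcomm τ x, h2]
  rw [hfix] at hmem
  obtain ⟨τ, hτ, hτσ⟩ := hmem
  refine ⟨τ, hτ, fun x => ?_⟩
  rw [← hτσ]
  exact (hcomm τ x).symm

end Galois

section Residue

variable (q : ℕ) [Fact q.Prime]

/-- an automorphism of a finite extension `E/ℚ_q` acting trivially on the residue field fixes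
`E ∩ locUr q` pointwise -/
theorem loclift_fixes_of_residue (E : IntermediateField ℚ_[q] (PadicAlgCl q))
    [FiniteDimensional ℚ_[q] E] (σ : ↥E ≃ₐ[ℚ_[q]] ↥E)
    (hσ : ∀ x : ↥E, ‖(x : PadicAlgCl q)‖ ≤ 1 → ‖((σ x : ↥E) : PadicAlgCl q) - x‖ < 1)
    (x : ↥E) (hx : (x : PadicAlgCl q) ∈ locUr q) : σ x = x := by
  obtain ⟨n, hn⟩ := loclift_exists_mem_locliftK q hx
  have hepos : 0 < (n + 1).factorial := Nat.factorial_pos _
  set K : IntermediateField ℚ_[q] (PadicAlgCl q) := locliftK q n with hK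
  haveI : FiniteDimensional ℚ_[q] ↥K :=
    lfUnramExt_finiteDimensional' q ℚ_[q] (PadicAlgCl q) _ hepos
  have hurK : LfUnramified q ℚ_[q] ↥K := lfUnramExt_unramified q ℚ_[q] (PadicAlgCl q) _ hepos
  set F : IntermediateField ℚ_[q] (PadicAlgCl q) :=
    IntermediateField.adjoin ℚ_[q] {(x : PadicAlgCl q)} with hF
  have hxF : (x : PadicAlgCl q) ∈ F := IntermediateField.mem_adjoin_simple_self ℚ_[q] _
  have hFK : F ≤ K := by
    rw [hF, IntermediateField.adjoin_simple_le_iff]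
    exact hn
  have hFE : F ≤ E := by
    rw [hF, IntermediateField.adjoin_simple_le_iff]
    exact x.2
  haveI : FiniteDimensional ℚ_[q] ↥F :=
    IntermediateField.adjoin.finiteDimensional
      (Algebra.IsAlgebraic.isAlgebraic (x : PadicAlgCl q)).isIntegral
  letI := lbAlgebra hFK
  haveI := lb_isScalarTower_bot hFK
  have hurF : LfUnramified q ℚ_[q] ↥F := ((lfUnramified_tower_iff q ℚ_[q] ↥F ↥K).1 hurK).1
  obtain ⟨ζ, hζ, htop⟩ := hurF.exists_primitiveRoot q ℚ_[q] ↥F
  have hnd : ¬ q ∣ lfResCard q ↥F - 1 := lu_not_dvd_lfResCard_sub_one q ↥F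
  have hm0 : lfResCard q ↥F - 1 ≠ 0 := fun h0 => hnd (h0 ▸ dvd_zero q)
  have hζ1 : ((ζ : ↥F) : PadicAlgCl q) ^ (lfResCard q ↥F - 1) = 1 := by
    have := congrArg (fun y : ↥F => (y : PadicAlgCl q)) hζ.pow_eq_one
    simpa using this
  set ζE : ↥E := ⟨(ζ : PadicAlgCl q), hFE ζ.2⟩ with hζE
  have h1 : ((σ ζE : ↥E) : PadicAlgCl q) = (ζ : PadicAlgCl q) := by
    refine locur_root_eq_of_norm_sub_lt q hnd ?_ hζ1 (hσ ζE (locur_norm_root q hm0 hζ1).le)
    have h2 : ζE ^ (lfResCard q ↥F - 1) = 1 := Subtype.ext (by simpa using hζ1)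
    have h3 : (σ ζE) ^ (lfResCard q ↥F - 1) = 1 := by rw [← map_pow, h2, map_one]
    have := congrArg (fun y : ↥E => (y : PadicAlgCl q)) h3
    simpa using this
  have h2 : (σ : ↥E →ₐ[ℚ_[q]] ↥E).comp (IntermediateField.inclusion hFE) =
      (IntermediateField.inclusion hFE : ↥F →ₐ[ℚ_[q]] ↥E) := by
    apply AlgHom.ext_of_adjoin_eq_top htop
    intro y hy
    rw [Set.mem_singleton_iff] at hy
    rw [hy]
    apply Subtype.ext
    exact h1
  have h3 := DFunLike.congr_fun h2 ⟨(x : PadicAlgCl q), hxF⟩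
  have h4 : IntermediateField.inclusion hFE ⟨(x : PadicAlgCl q), hxF⟩ = x := Subtype.ext rfl
  rw [AlgHom.comp_apply, h4] at h3
  exact h3

/-- **S4**: inertia at infinite level maps ONTO the inertia group of a finite Galois extension -/
theorem loc_exists_inertia_lift (E : IntermediateField ℚ_[q] (PadicAlgCl q))
    [FiniteDimensional ℚ_[q] E] [IsGalois ℚ_[q] E] (σ : ↥E ≃ₐ[ℚ_[q]] ↥E)
    (hσ : ∀ x : ↥E, ‖(x : PadicAlgCl q)‖ ≤ 1 → ‖((σ x : ↥E) : PadicAlgCl q) - x‖ < 1) :
    ∃ τ ∈ locInertia q, ∀ x : ↥E, τ (x : PadicAlgCl q) = ((σ x : ↥E) : PadicAlgCl q) :=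
  loclift_exists_of_fixes q E σ (loclift_fixes_of_residue q E σ hσ)

end Residue

section Gen

variable (q : ℕ) [Fact q.Prime]

/-- **S3**: the unramified quotient is topologically generated by a Frobenius lift -/
theorem loc_exists_zpow_mul (φ : lbGal q) (hφ : IsFrobLift q φ) (U : Subgroup (lbGal q))
    (hU : (lbLevels q).IsLevel U) (g : lbGal q) :
    ∃ (n : ℤ) (i u : lbGal q), i ∈ locInertia q ∧ u ∈ U ∧ g = φ ^ n * i * u := by
  obtain ⟨E₀, hE₀, rfl⟩ := hU
  set E : IntermediateField ℚ_[q] (PadicAlgCl q) :=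
    IntermediateField.normalClosure ℚ_[q] ↥E₀ (PadicAlgCl q) with hE
  haveI : FiniteDimensional ℚ_[q] ↥E := inferInstance
  haveI hN : Normal ℚ_[q] ↥E := inferInstance
  haveI hG : IsGalois ℚ_[q] ↥E := { to_normal := hN }
  have hle : E.fixingSubgroup ≤ E₀.fixingSubgroup :=
    IntermediateField.fixingSubgroup_antitone (IntermediateField.le_normalClosure E₀)
  set res : lbGal q →* (↥E ≃ₐ[ℚ_[q]] ↥E) :=
    AlgEquiv.restrictNormalHom (F := ℚ_[q]) (K₁ := PadicAlgCl q) ↥E with hres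
  have hcomm : ∀ (τ : lbGal q) (y : ↥E), ((res τ y : ↥E) : PadicAlgCl q) = τ (y : PadicAlgCl q) :=
    fun τ y => AlgEquiv.restrictNormal_commutes τ ↥E y
  have hsurj : Function.Surjective res :=
    AlgEquiv.restrictNormalHom_surjective (F := ℚ_[q]) (K₁ := ↥E) (PadicAlgCl q)
  set H : Subgroup (↥E ≃ₐ[ℚ_[q]] ↥E) := (locInertia q).map res with hH
  haveI hHn : H.Normal := (locInertia_normal q).map res hsurj
  set P : Subgroup (↥E ≃ₐ[ℚ_[q]] ↥E) := Subgroup.zpowers (res φ) ⊔ H with hP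
  have hPtop : P = ⊤ := by
    rw [← IntermediateField.fixingSubgroup_fixedField P]
    have hbot : IntermediateField.fixedField P = ⊥ := by
      rw [eq_bot_iff]
      intro x hx
      rw [IntermediateField.mem_fixedField_iff] at hx
      have hxur : (x : PadicAlgCl q) ∈ locUr q := by
        rw [← InfiniteGalois.fixedField_fixingSubgroup (locUr q), ← locInertia_eq_fixingSubgroup,
          IntermediateField.mem_fixedField_iff]
        intro τ hτ
        have h1 : res τ ∈ P := (le_sup_right : H ≤ P) (Subgroup.mem_map_of_mem _ hτ)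
        rw [← hcomm τ x, hx (res τ) h1]
      have hxφ : φ (x : PadicAlgCl q) = x := by
        have h1 : res φ ∈ P := (le_sup_left : Subgroup.zpowers (res φ) ≤ P)
          (Subgroup.mem_zpowers _)
        rw [← hcomm φ x, hx (res φ) h1]
      obtain ⟨a, ha⟩ := loclift_mem_range_of_fixed q hφ hxur hxφ
      rw [IntermediateField.mem_bot]
      exact ⟨a, Subtype.ext ha⟩
    rw [hbot, IntermediateField.fixingSubgroup_bot]
  have hg : res g ∈ P := by rw [hPtop]; exact Subgroup.mem_top _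
  have hg' : res g ∈ ((Subgroup.zpowers (res φ) ⊔ H : Subgroup (↥E ≃ₐ[ℚ_[q]] ↥E)) :
      Set (↥E ≃ₐ[ℚ_[q]] ↥E)) := hg
  rw [Subgroup.mul_normal, Set.mem_mul] at hg'
  obtain ⟨a, ha, b, hb, hab⟩ := hg'
  obtain ⟨n, hn⟩ := Subgroup.mem_zpowers_iff.1 ha
  obtain ⟨i, hi, hib⟩ := hb
  have hker : res ((φ ^ n * i)⁻¹ * g) = 1 := by
    rw [map_mul, map_inv, map_mul, map_zpow, hn, hib, hab, inv_mul_cancel]
  refine ⟨n, i, (φ ^ n * i)⁻¹ * g, hi, hle ?_, by group⟩
  rw [IntermediateField.mem_fixingSubgroup_iff]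
  intro y hy
  have := hcomm ((φ ^ n * i)⁻¹ * g) ⟨y, hy⟩
  rw [hker] at this
  exact this.symm

end Gen

end Fermat.Agent.S56
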