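/-
S56 / package LOC, leaf S5 (row 368): tame inertia.  `loc_tame_isCyclic` (statement VERBATIM from
`Loc/Spec.lean`): the image of the inertia subgroup of `Gal(ℚ̄_q/ℚ_q)` in a finite quotient is cyclic
if it is a `p`-group, `p ≠ q`.

NO black box (S2, S3, S4 are not used).  Route (classical, written with the norm of `ℚ̄_q`):
`E/ℚ_q` finite Galois with `Gal(ℚ̄_q/E) ≤ ker f`, `π` a uniformizer of `E`.
* `Θ : I → k_Eˣ`, `τ ↦ τ π / π mod 𝔪_E` is a homomorphism into a cyclic group (`loctameTheta`);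
* if `Θ τ = 1` then `|τ x - x| < |x|` for all `x ∈ Eˣ` (`x = u π^n`; the good `x` form a subgroup of
  `ℚ̄_qˣ`, `loctameGood`);
* an automorphism with `|τ x - x| < |x|` on `Eˣ` whose restriction to `E` has order prime to `q` is
  trivial on `E` (`τ^k z - z ≡ k (τ z - z)`), so `f τ` has `q`-power order, hence `f τ = 1` in the
  `p`-group `f(I)`; so `f(I)` is a quotient of `I / ker Θ ↪ k_Eˣ`.
Helper lemmas are prefixed `loctame`.
-/
import Fermat.Agent.S56.Loc.Defs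
import Fermat.Agent.S55.LocalUnram

set_option autoImplicit false
set_option linter.unusedSectionVars false

namespace Fermat.Agent.S56

open Fermat.Agent.S55 IsLocalRing

/-! ### group theory -/

section GroupTheory

/-- a `p`-group image `f(K)` is cyclic as soon as there is a homomorphism `Θ` from `K` to a cyclic
group such that `f` has `q`-power order on `ker Θ`, `q ≠ p` -/
theorem loctame_isCyclic_map {A G C : Type*} [Group A] [Group G] [Group C] [IsCyclic C]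
    (p q : ℕ) [Fact p.Prime] [Fact q.Prime] (hqp : q ≠ p) (K : Subgroup A) (f : A →* G)
    (Θ : ↥K →* C) (hp : IsPGroup p ↥(K.map f))
    (hker : ∀ a : ↥K, Θ a = 1 → ∃ N : ℕ, f (a : A) ^ q ^ N = 1) : IsCyclic ↥(K.map f) := by
  have hp' : p.Prime := Fact.out
  have hq' : q.Prime := Fact.out
  -- `ker Θ ≤ ker (f|K)`
  have hle : Θ.ker ≤ (f.subgroupMap K).ker := by
    intro a ha
    rw [MonoidHom.mem_ker] at ha ⊢
    obtain ⟨N, hN⟩ := hker a ha
    obtain ⟨k, hk⟩ := hp (f.subgroupMap K a)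
    have hk' : f (a : A) ^ p ^ k = 1 := by
      have := congrArg Subtype.val hk
      simpa using this
    have h1 : orderOf (f (a : A)) ∣ q ^ N := orderOf_dvd_of_pow_eq_one hN
    have h2 : orderOf (f (a : A)) ∣ p ^ k := orderOf_dvd_of_pow_eq_one hk'
    have hcop : Nat.Coprime (q ^ N) (p ^ k) :=
      Nat.Coprime.pow N k ((Nat.coprime_primes hq' hp').2 hqp)
    have h3 : orderOf (f (a : A)) = 1 := Nat.eq_one_of_dvd_coprimes hcop h1 h2
    apply Subtype.ext
    exact orderOf_eq_one_iff.1 h3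
  -- `K ⧸ ker Θ` is cyclic
  have : IsCyclic (↥K ⧸ Θ.ker) :=
    isCyclic_of_surjective (QuotientGroup.quotientKerEquivRange Θ).symm
      (QuotientGroup.quotientKerEquivRange Θ).symm.surjective
  refine isCyclic_of_surjective (QuotientGroup.lift Θ.ker (f.subgroupMap K) hle) ?_
  intro y
  obtain ⟨a, rfl⟩ := f.subgroupMap_surjective K y
  exact ⟨QuotientGroup.mk a, rfl⟩

end GroupTheory

/-! ### the elements moved little by an automorphism -/

section Good

variable (q : ℕ) [Fact q.Prime]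

theorem loctame_norm_add_lt {a b : PadicAlgCl q} {c : ℝ} (ha : ‖a‖ < c) (hb : ‖b‖ < c) :
    ‖a + b‖ < c :=
  lt_of_le_of_lt (PadicAlgCl.isNonarchimedean q a b) (max_lt ha hb)

/-- the units `x` of `ℚ̄_q` with `|τ x - x| < |x|` -/
def loctameGood (τ : lbGal q) : Subgroup (PadicAlgCl q)ˣ where
  carrier := {x | ‖τ (x : PadicAlgCl q) - x‖ < ‖(x : PadicAlgCl q)‖}
  one_mem' := by
    show ‖τ ((1 : (PadicAlgCl q)ˣ) : PadicAlgCl q) - ((1 : (PadicAlgCl q)ˣ) : PadicAlgCl q)‖ <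
      ‖((1 : (PadicAlgCl q)ˣ) : PadicAlgCl q)‖
    rw [Units.val_one, map_one, sub_self, norm_zero, norm_one]
    exact one_pos
  mul_mem' := by
    intro x y hx hy
    show ‖τ ((x * y : (PadicAlgCl q)ˣ) : PadicAlgCl q) - ((x * y : (PadicAlgCl q)ˣ) : PadicAlgCl q)‖ <
      ‖((x * y : (PadicAlgCl q)ˣ) : PadicAlgCl q)‖
    have hx' : ‖τ (x : PadicAlgCl q) - x‖ < ‖(x : PadicAlgCl q)‖ := hx
    have hy' : ‖τ (y : PadicAlgCl q) - y‖ < ‖(y : PadicAlgCl q)‖ := hy
    have hy0 : 0 < ‖(y : PadicAlgCl q)‖ := norm_pos_iff.2 y.ne_zero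
    have hx0 : 0 < ‖(x : PadicAlgCl q)‖ := norm_pos_iff.2 x.ne_zero
    have h1 : τ ((x : PadicAlgCl q) * y) - (x : PadicAlgCl q) * y =
        (τ (x : PadicAlgCl q) - x) * τ (y : PadicAlgCl q) + x * (τ (y : PadicAlgCl q) - y) := by
      rw [map_mul]
      ring
    rw [Units.val_mul, h1, norm_mul]
    refine loctame_norm_add_lt q ?_ ?_
    · rw [norm_mul, loc_norm_algEquiv]
      exact mul_lt_mul_of_pos_right hx' hy0
    · rw [norm_mul]
      exact mul_lt_mul_of_pos_left hy' hx0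
  inv_mem' := by
    intro x hx
    show ‖τ ((x⁻¹ : (PadicAlgCl q)ˣ) : PadicAlgCl q) - ((x⁻¹ : (PadicAlgCl q)ˣ) : PadicAlgCl q)‖ <
      ‖((x⁻¹ : (PadicAlgCl q)ˣ) : PadicAlgCl q)‖
    have hx' : ‖τ (x : PadicAlgCl q) - x‖ < ‖(x : PadicAlgCl q)‖ := hx
    have hx0 : (x : PadicAlgCl q) ≠ 0 := x.ne_zero
    have hτx0 : τ (x : PadicAlgCl q) ≠ 0 := (map_ne_zero τ).2 hx0
    have hn0 : 0 < ‖(x : PadicAlgCl q)‖ := norm_pos_iff.2 hx0
    have h1 : τ ((x : PadicAlgCl q)⁻¹) - (x : PadicAlgCl q)⁻¹ =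
        -(τ (x : PadicAlgCl q) - x) * ((τ (x : PadicAlgCl q))⁻¹ * (x : PadicAlgCl q)⁻¹) := by
      rw [map_inv₀]
      field_simp
      ring
    rw [Units.val_inv_eq_inv_val, h1, norm_mul, norm_neg, norm_mul, norm_inv, norm_inv,
      loc_norm_algEquiv]
    have h2 : ‖τ (x : PadicAlgCl q) - x‖ * (‖(x : PadicAlgCl q)‖⁻¹ * ‖(x : PadicAlgCl q)‖⁻¹) <
        ‖(x : PadicAlgCl q)‖ * (‖(x : PadicAlgCl q)‖⁻¹ * ‖(x : PadicAlgCl q)‖⁻¹) :=
      mul_lt_mul_of_pos_right hx' (mul_pos (inv_pos.2 hn0) (inv_pos.2 hn0))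
    have h3 : ‖(x : PadicAlgCl q)‖ * (‖(x : PadicAlgCl q)‖⁻¹ * ‖(x : PadicAlgCl q)‖⁻¹) =
        ‖(x : PadicAlgCl q)‖⁻¹ := by
      rw [← mul_assoc, mul_inv_cancel₀ hn0.ne', one_mul]
    rwa [h3] at h2

theorem mem_loctameGood (τ : lbGal q) (x : (PadicAlgCl q)ˣ) :
    x ∈ loctameGood q τ ↔ ‖τ (x : PadicAlgCl q) - x‖ < ‖(x : PadicAlgCl q)‖ := Iff.rfl

end Good

/-! ### automorphisms moving `Eˣ` little -/

section Field

variable (q : ℕ) [Fact q.Prime] (E : IntermediateField ℚ_[q] (PadicAlgCl q))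

/-- `|τ x - x| < |x|` for all `x ∈ Eˣ` -/
def LoctameP (τ : lbGal q) : Prop :=
  ∀ x : (PadicAlgCl q)ˣ, (x : PadicAlgCl q) ∈ E → x ∈ loctameGood q τ

theorem loctameP_one : LoctameP q E 1 := fun x _ => by
  rw [mem_loctameGood, AlgEquiv.one_apply, sub_self, norm_zero]
  exact norm_pos_iff.2 x.ne_zero

variable [Normal ℚ_[q] E]

theorem loctame_apply_mem (τ : lbGal q) {x : PadicAlgCl q} (hx : x ∈ E) : τ x ∈ E := by
  have h := AlgEquiv.restrictNormal_commutes τ E ⟨x, hx⟩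
  have h' : τ x = ((τ.restrictNormal E ⟨x, hx⟩ : ↥E) : PadicAlgCl q) := h.symm
  rw [h']
  exact (τ.restrictNormal E ⟨x, hx⟩).2

theorem LoctameP.mul {σ τ : lbGal q} (hσ : LoctameP q E σ) (hτ : LoctameP q E τ) :
    LoctameP q E (σ * τ) := by
  intro x hx
  rw [mem_loctameGood]
  have h1 : (σ * τ) (x : PadicAlgCl q) - x =
      (σ (τ (x : PadicAlgCl q)) - τ (x : PadicAlgCl q)) + (τ (x : PadicAlgCl q) - x) := by
    rw [AlgEquiv.mul_apply]
    ring
  rw [h1]
  have hτx0 : τ (x : PadicAlgCl q) ≠ 0 := (map_ne_zero τ).2 x.ne_zero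
  have h2 := hσ (Units.mk0 _ hτx0) (loctame_apply_mem q E τ hx)
  rw [mem_loctameGood, Units.val_mk0, loc_norm_algEquiv] at h2
  exact loctame_norm_add_lt q h2 (hτ x hx)

theorem LoctameP.pow {τ : lbGal q} (hτ : LoctameP q E τ) (k : ℕ) : LoctameP q E (τ ^ k) := by
  induction k with
  | zero => rw [pow_zero]; exact loctameP_one q E
  | succ k ih => rw [pow_succ]; exact ih.mul q E hτ

theorem loctame_norm_natCast {d : ℕ} (hd : ¬ q ∣ d) : ‖((d : ℕ) : PadicAlgCl q)‖ = 1 := by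
  have h1 : ((d : ℕ) : PadicAlgCl q) = algebraMap ℚ_[q] (PadicAlgCl q) ((d : ℕ) : ℚ_[q]) :=
    (map_natCast _ _).symm
  rw [h1]
  have h2 : ‖algebraMap ℚ_[q] (PadicAlgCl q) ((d : ℕ) : ℚ_[q])‖ = ‖((d : ℕ) : ℚ_[q])‖ :=
    PadicAlgCl.norm_extends q ((d : ℕ) : ℚ_[q])
  rw [h2, Padic.norm_natCast_eq_one_iff]
  exact ((Fact.out : q.Prime).coprime_iff_not_dvd).2 hd

/-- an automorphism moving `Eˣ` little whose restriction to `E` has order prime to `q` is trivial
on `E` -/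
theorem loctame_eq_of_pow {τ : lbGal q} (hτ : LoctameP q E τ) {d : ℕ} (hd : ¬ q ∣ d)
    (hpow : ∀ x ∈ E, (τ ^ d) x = x) : ∀ x ∈ E, τ x = x := by
  intro z hz
  by_contra hne
  have hw0 : τ z - z ≠ 0 := sub_ne_zero.2 hne
  have hwE : τ z - z ∈ E := E.sub_mem (loctame_apply_mem q E τ hz) hz
  have key : ∀ k : ℕ, ‖(τ ^ k) z - z - ((k : ℕ) : PadicAlgCl q) * (τ z - z)‖ < ‖τ z - z‖ := by
    intro k
    induction k with
    | zero =>
      rw [pow_zero, AlgEquiv.one_apply, sub_self, Nat.cast_zero, zero_mul, sub_zero, norm_zero]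
      exact norm_pos_iff.2 hw0
    | succ k ih =>
      have h1 : (τ ^ (k + 1)) z - z - ((k + 1 : ℕ) : PadicAlgCl q) * (τ z - z) =
          ((τ ^ k) z - z - ((k : ℕ) : PadicAlgCl q) * (τ z - z)) +
            ((τ ^ k) (τ z - z) - (τ z - z)) := by
        rw [pow_succ, AlgEquiv.mul_apply, map_sub, Nat.cast_succ]
        ring
      rw [h1]
      have h2 := (hτ.pow q E k) (Units.mk0 _ hw0) hwE
      rw [mem_loctameGood, Units.val_mk0] at h2
      exact loctame_norm_add_lt q ih h2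
  have h3 := key d
  rw [hpow z hz, sub_self, zero_sub, norm_neg, norm_mul, loctame_norm_natCast q hd, one_mul] at h3
  exact lt_irrefl _ h3

end Field

/-! ### the tame character `τ ↦ τ π / π mod 𝔪` -/

section Theta

variable (q : ℕ) [Fact q.Prime] (E : IntermediateField ℚ_[q] (PadicAlgCl q))
  [FiniteDimensional ℚ_[q] E]

theorem loctame_spectralNorm (y : ↥E) :
    spectralNorm ℚ_[q] ↥E y = ‖(y : PadicAlgCl q)‖ := by
  rw [spectralNorm.eq_of_tower (K := ℚ_[q]) (E := ↥E) (L := PadicAlgCl q) y,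
    PadicAlgCl.spectralNorm_eq]
  rfl

theorem loctame_mem_lfInt {y : ↥E} (hy : ‖(y : PadicAlgCl q)‖ ≤ 1) : y ∈ lfInt q ↥E := by
  rw [mem_lfInt_iff, loctame_spectralNorm]
  exact hy

variable [Normal ℚ_[q] E]

/-- `τ π / π` as an element of `E` -/
noncomputable def loctameU (π : ↥E) (τ : lbGal q) : ↥E :=
  ⟨τ (π : PadicAlgCl q), loctame_apply_mem q E τ π.2⟩ / π

theorem loctameU_coe (π : ↥E) (τ : lbGal q) :
    ((loctameU q E π τ : ↥E) : PadicAlgCl q) = τ (π : PadicAlgCl q) / (π : PadicAlgCl q) := rfl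

theorem loctameU_norm {π : ↥E} (hπ : π ≠ 0) (τ : lbGal q) :
    ‖((loctameU q E π τ : ↥E) : PadicAlgCl q)‖ = 1 := by
  have hπ' : (π : PadicAlgCl q) ≠ 0 := fun h => hπ (Subtype.ext h)
  rw [loctameU_coe, norm_div, loc_norm_algEquiv, div_self (norm_ne_zero_iff.2 hπ')]

theorem loctameU_mul {π : ↥E} (hπ : π ≠ 0) (σ τ : lbGal q) :
    ((loctameU q E π (σ * τ) : ↥E) : PadicAlgCl q) =
      σ ((loctameU q E π τ : ↥E) : PadicAlgCl q) * ((loctameU q E π σ : ↥E) : PadicAlgCl q) := by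
  have hπ' : (π : PadicAlgCl q) ≠ 0 := fun h => hπ (Subtype.ext h)
  have hσπ : σ (π : PadicAlgCl q) ≠ 0 := (map_ne_zero σ).2 hπ'
  rw [loctameU_coe, loctameU_coe, loctameU_coe, AlgEquiv.mul_apply, map_div₀]
  field_simp

/-- the value of the tame character in the residue field -/
noncomputable def loctameThetaFun (π : ↥E) (hπ : π ≠ 0) (τ : lbGal q) :
    ResidueField ↥(lfInt q ↥E) :=
  residue ↥(lfInt q ↥E) ⟨loctameU q E π τ, loctame_mem_lfInt q E (loctameU_norm q E hπ τ).le⟩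

theorem loctameThetaFun_ne_zero (π : ↥E) (hπ : π ≠ 0) (τ : lbGal q) :
    loctameThetaFun q E π hπ τ ≠ 0 := by
  unfold loctameThetaFun
  rw [Ne, residue_eq_zero_iff, mem_maximalIdeal_lfInt_iff, loctame_spectralNorm,
    loctameU_norm q E hπ τ]
  exact lt_irrefl 1

theorem loctameThetaFun_mul (π : ↥E) (hπ : π ≠ 0) {σ : lbGal q} (hσ : σ ∈ locInertia q)
    (τ : lbGal q) :
    loctameThetaFun q E π hπ (σ * τ) =
      loctameThetaFun q E π hπ σ * loctameThetaFun q E π hπ τ := by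
  unfold loctameThetaFun
  rw [← map_mul, lu_residue_eq_iff, loctame_spectralNorm]
  have h1 : (((⟨loctameU q E π (σ * τ), loctame_mem_lfInt q E (loctameU_norm q E hπ (σ * τ)).le⟩ :
        ↥(lfInt q ↥E)) : ↥E) -
      ((⟨loctameU q E π σ, loctame_mem_lfInt q E (loctameU_norm q E hπ σ).le⟩ *
        ⟨loctameU q E π τ, loctame_mem_lfInt q E (loctameU_norm q E hπ τ).le⟩ :
        ↥(lfInt q ↥E)) : ↥E) : ↥E) =
      loctameU q E π (σ * τ) - loctameU q E π σ * loctameU q E π τ := rfl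
  rw [h1]
  have h2 : ((loctameU q E π (σ * τ) - loctameU q E π σ * loctameU q E π τ : ↥E) : PadicAlgCl q) =
      (σ ((loctameU q E π τ : ↥E) : PadicAlgCl q) - ((loctameU q E π τ : ↥E) : PadicAlgCl q)) *
        ((loctameU q E π σ : ↥E) : PadicAlgCl q) := by
    rw [AddSubgroupClass.coe_sub, IntermediateField.coe_mul, loctameU_mul q E hπ σ τ]
    ring
  rw [h2, norm_mul, loctameU_norm q E hπ σ, mul_one]
  exact hσ _ (loctameU_norm q E hπ τ).le

/-- **the tame character** of the inertia group -/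
noncomputable def loctameTheta (π : ↥E) (hπ : π ≠ 0) :
    ↥(locInertia q) →* (ResidueField ↥(lfInt q ↥E))ˣ :=
  MonoidHom.mk' (fun τ => Units.mk0 (loctameThetaFun q E π hπ (τ : lbGal q))
      (loctameThetaFun_ne_zero q E π hπ τ))
    (fun σ τ => Units.ext (loctameThetaFun_mul q E π hπ σ.2 (τ : lbGal q)))

/-- the kernel of the tame character moves `π` little -/
theorem loctame_good_of_theta_eq_one (π : ↥E) (hπ : π ≠ 0) (τ : ↥(locInertia q))
    (h : loctameTheta q E π hπ τ = 1) :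
    ‖(τ : lbGal q) (π : PadicAlgCl q) - π‖ < ‖(π : PadicAlgCl q)‖ := by
  have hπ' : (π : PadicAlgCl q) ≠ 0 := fun h => hπ (Subtype.ext h)
  have h1 : loctameThetaFun q E π hπ (τ : lbGal q) = 1 := congrArg Units.val h
  unfold loctameThetaFun at h1
  rw [← map_one (residue ↥(lfInt q ↥E)), lu_residue_eq_iff, loctame_spectralNorm] at h1
  have h2 : (((⟨loctameU q E π (τ : lbGal q),
        loctame_mem_lfInt q E (loctameU_norm q E hπ (τ : lbGal q)).le⟩ : ↥(lfInt q ↥E)) : ↥E) -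
      ((1 : ↥(lfInt q ↥E)) : ↥E) : ↥E) = loctameU q E π (τ : lbGal q) - 1 := rfl
  rw [h2, AddSubgroupClass.coe_sub, loctameU_coe, IntermediateField.coe_one] at h1
  have h3 : (τ : lbGal q) (π : PadicAlgCl q) - π =
      ((τ : lbGal q) (π : PadicAlgCl q) / π - 1) * π := by
    field_simp
  rw [h3, norm_mul]
  have hn0 : 0 < ‖(π : PadicAlgCl q)‖ := norm_pos_iff.2 hπ'
  calc ‖(τ : lbGal q) (π : PadicAlgCl q) / π - 1‖ * ‖(π : PadicAlgCl q)‖
      < 1 * ‖(π : PadicAlgCl q)‖ := mul_lt_mul_of_pos_right h1 hn0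
    _ = ‖(π : PadicAlgCl q)‖ := one_mul _

end Theta

/-! ### the main theorem -/

section Main

variable (q : ℕ) [Fact q.Prime]

/-- the kernel of the tame character moves `Eˣ` little -/
theorem loctameP_of_theta_eq_one (E : IntermediateField ℚ_[q] (PadicAlgCl q))
    [FiniteDimensional ℚ_[q] E] [Normal ℚ_[q] E] (π : ↥E) (hπ : IsLfUniformizer q ↥E π)
    (τ : ↥(locInertia q))
    (h : loctameTheta q E π (IsLfUniformizer.ne_zero q ↥E hπ) τ = 1) :
    LoctameP q E (τ : lbGal q) := by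
  have hπ0 : π ≠ 0 := IsLfUniformizer.ne_zero q ↥E hπ
  have hπ' : (π : PadicAlgCl q) ≠ 0 := fun h => hπ0 (Subtype.ext h)
  have hπgood : Units.mk0 (π : PadicAlgCl q) hπ' ∈ loctameGood q (τ : lbGal q) := by
    rw [mem_loctameGood, Units.val_mk0]
    exact loctame_good_of_theta_eq_one q E π hπ0 τ h
  intro x hx
  have hx0 : (⟨(x : PadicAlgCl q), hx⟩ : ↥E) ≠ 0 := fun h0 => x.ne_zero (congrArg Subtype.val h0)
  obtain ⟨u, hu, hxu⟩ := exists_unit_mul_zpow q ↥E hπ hx0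
  have hu0 : ((u : ↥E) : PadicAlgCl q) ≠ 0 := fun h0 => u.ne_zero (Subtype.ext h0)
  -- `|u| = 1`
  have hun : ‖((u : ↥E) : PadicAlgCl q)‖ = 1 := by
    rw [← loctame_spectralNorm, spectralNorm_eq_zpow_lfOrd q ↥E hπ u.ne_zero,
      (mem_lfUnits_iff q ↥E u).1 hu, zpow_zero]
  have hugood : Units.mk0 ((u : ↥E) : PadicAlgCl q) hu0 ∈ loctameGood q (τ : lbGal q) := by
    rw [mem_loctameGood, Units.val_mk0, hun]
    exact τ.2 _ hun.le
  have hx' : x = Units.mk0 ((u : ↥E) : PadicAlgCl q) hu0 *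
      Units.mk0 (π : PadicAlgCl q) hπ' ^ lfOrd q ↥E ⟨(x : PadicAlgCl q), hx⟩ := by
    apply Units.ext
    rw [Units.val_mul, Units.val_zpow_eq_zpow_val, Units.val_mk0, Units.val_mk0]
    have h1 := congrArg (fun y : ↥E => (y : PadicAlgCl q)) hxu
    simp only [IntermediateField.coe_mul] at h1
    refine h1.trans ?_
    congr 1
  rw [hx']
  exact Subgroup.mul_mem _ hugood (Subgroup.zpow_mem _ hπgood _)

/-- S5: tame inertia: a `p`-group image of inertia, `p ≠ q`, is cyclic -/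
theorem loc_tame_isCyclic (p : ℕ) [Fact p.Prime] (hqp : q ≠ p) {G : Type*} [Group G]
    (f : lbGal q →* G) (hf : ∃ U, (lbLevels q).IsLevel U ∧ U ≤ f.ker)
    (hp : IsPGroup p ↥((locInertia q).map f)) : IsCyclic ↥((locInertia q).map f) := by
  obtain ⟨U, ⟨E₀, hE₀, rfl⟩, hU⟩ := hf
  have := hE₀
  have hfin : FiniteDimensional ℚ_[q] ↥(IntermediateField.normalClosure ℚ_[q] E₀ (PadicAlgCl q)) :=
    inferInstance
  have hnorm : Normal ℚ_[q] ↥(IntermediateField.normalClosure ℚ_[q] E₀ (PadicAlgCl q)) :=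
    inferInstance
  generalize IntermediateField.normalClosure ℚ_[q] E₀ (PadicAlgCl q) = E,
    (IntermediateField.fixingSubgroup_antitone (IntermediateField.le_normalClosure E₀)).trans hU = hEle
    at hfin hnorm
  obtain ⟨π, hπ⟩ := exists_isLfUniformizer q ↥E
  refine loctame_isCyclic_map p q hqp (locInertia q) f
    (loctameTheta q E π (IsLfUniformizer.ne_zero q ↥E hπ)) hp ?_
  intro τ hτ
  have hP := loctameP_of_theta_eq_one q E π hπ τ hτ
  have hG : IsGalois ℚ_[q] ↥E := { to_normal := hnorm }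
  have hN : E.fixingSubgroup.Normal := inferInstance
  have hD : E.fixingSubgroup.index ≠ 0 :=
    ((lbLevels q).finiteIndex _ ⟨E, hfin, rfl⟩).index_ne_zero
  obtain ⟨a, d, hd, hDeq⟩ := Nat.exists_eq_pow_mul_and_not_dvd hD q (Fact.out : q.Prime).ne_one
  refine ⟨a, ?_⟩
  have h1 : ∀ x ∈ E, ((τ : lbGal q) ^ q ^ a) x = x := by
    refine loctame_eq_of_pow q E (hP.pow q E (q ^ a)) hd fun x hx => ?_
    rw [← pow_mul, ← hDeq]
    exact (IntermediateField.mem_fixingSubgroup_iff E _).1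
      (Subgroup.pow_index_mem E.fixingSubgroup (τ : lbGal q)) x hx
  have h2 : (τ : lbGal q) ^ q ^ a ∈ f.ker :=
    hEle ((IntermediateField.mem_fixingSubgroup_iff E _).2 h1)
  rw [← map_pow]
  exact h2

end Main

end Fermat.Agent.S56
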