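/-
S56 / package LOC, row 372 (C4, minimal primes): the CORE of `loc_unip_exists_cobound`, for an
abstract group `Γ` with levels `𝓛` and a subgroup `I` ("inertia"), with the tame-inertia black box
S5 (`loc_tame_isCyclic`) as an explicit hypothesis `hS5`.

Route: `f σ := (ρ σ, c σ ρ σ)` is a homomorphism to the units of the dual numbers of `End V`
(`unipHom`), trivial on a level.  For `σ ∈ I`, `x = f σ - 1` has `x³ = (0, N c N) = (0, tr(cN) N) = 0`
(`N = ρ σ - 1`, plane), so `f(I)` is a group of exponent `p`; cyclic by S5, hence of order `p`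
and generated by `f τ` for any `τ ∈ I` with `ρ τ ≠ 1` (`loc_unip_exists_zpow`).  Explicit `m` with
`c τ = Ad(ρ τ) m - m` from a basis `(N e, e)` (`loc_unip_exists_m`); then `c - ∂m` vanishes at
`τ`, hence on all powers of `τ`, hence on `I`.
-/
import Fermat.Agent.S56.Loc.Defs
import Fermat.Agent.S55.Top.Smooth

set_option autoImplicit false

namespace Fermat.Agent.S56

open Fermat.Agent.S55 TrivSqZeroExt

section LinAlg

variable {k : Type} [Field k] {V : Type} [AddCommGroup V] [Module k V]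

/-- a non-zero endomorphism of square zero of a plane has a basis `(N e, e)` -/
theorem loc_unip_exists_basis (hV : Module.finrank k V = 2) (N : Module.End k V) (hN0 : N ≠ 0)
    (hN2 : N * N = 0) :
    ∃ b : Module.Basis (Fin 2) k V, LinearMap.toMatrix b b N = !![0, 1; 0, 0] := by
  classical
  have h1 : ∃ e : V, N e ≠ 0 := by
    by_contra h
    exact hN0 (LinearMap.ext fun v => by
      rw [LinearMap.zero_apply]
      by_contra hv
      exact h ⟨v, hv⟩)
  obtain ⟨e, he⟩ := h1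
  have hNN : N (N e) = 0 := by
    have := LinearMap.congr_fun hN2 e
    rwa [Module.End.mul_apply, LinearMap.zero_apply] at this
  have hli : LinearIndependent k ![N e, e] := by
    rw [LinearIndependent.pair_iff]
    intro s t hst
    have h2 : t • N e = 0 := by
      have := congrArg N hst
      rwa [map_add, map_smul, map_smul, hNN, smul_zero, zero_add, map_zero] at this
    have ht : t = 0 := (smul_eq_zero.1 h2).resolve_right he
    rw [ht, zero_smul, add_zero] at hst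
    exact ⟨(smul_eq_zero.1 hst).resolve_right he, ht⟩
  let b : Module.Basis (Fin 2) k V :=
    basisOfLinearIndependentOfCardEqFinrank hli (by rw [hV, Fintype.card_fin])
  have hb : (b : Fin 2 → V) = ![N e, e] := coe_basisOfLinearIndependentOfCardEqFinrank hli _
  have hb0 : b 0 = N e := by rw [hb]; rfl
  have hb1 : b 1 = e := by rw [hb]; rfl
  refine ⟨b, ?_⟩
  ext i j
  rw [LinearMap.toMatrix_apply]
  fin_cases j
  · show b.repr (N (b 0)) i = _
    rw [hb0, hNN, map_zero]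
    fin_cases i <;> rfl
  · show b.repr (N (b 1)) i = _
    rw [hb1, ← hb0, Module.Basis.repr_self]
    fin_cases i
    · show (Finsupp.single (0 : Fin 2) (1 : k)) 0 = 1
      rw [Finsupp.single_eq_same]
    · show (Finsupp.single (0 : Fin 2) (1 : k)) 1 = 0
      rw [Finsupp.single_eq_of_ne (by decide)]

/-- `N X N = tr(X N) N` for a square-zero endomorphism `N` of a plane -/
theorem loc_unip_mul_mul (hV : Module.finrank k V = 2) (N : Module.End k V) (hN2 : N * N = 0)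
    (X : Module.End k V) : N * X * N = LinearMap.trace k V (X * N) • N := by
  classical
  by_cases hN0 : N = 0
  · rw [hN0, mul_zero, smul_zero]
  obtain ⟨b, hb⟩ := loc_unip_exists_basis hV N hN0 hN2
  apply (LinearMap.toMatrix b b).injective
  rw [LinearMap.trace_eq_matrix_trace k b, map_smul, LinearMap.toMatrix_mul, LinearMap.toMatrix_mul,
    LinearMap.toMatrix_mul, hb]
  generalize LinearMap.toMatrix b b X = A
  ext i j
  fin_cases i <;> fin_cases j <;>
    simp [Matrix.mul_apply, Fin.sum_univ_two, Matrix.trace_fin_two, Matrix.vecMul, dotProduct]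

/-- the image of `Ad u - 1` on trace-zero matrices, `u = 1 + N` -/
theorem loc_unip_exists_m (hV : Module.finrank k V = 2) (h2 : (2 : k) ≠ 0) (N : Module.End k V)
    (hN0 : N ≠ 0) (hN2 : N * N = 0) (X : Module.End k V) (hX0 : LinearMap.trace k V X = 0)
    (hXN : LinearMap.trace k V (X * N) = 0) :
    ∃ m : Module.End k V, LinearMap.trace k V m = 0 ∧ X = (1 + N) * m * (1 - N) - m := by
  classical
  obtain ⟨b, hb⟩ := loc_unip_exists_basis hV N hN0 hN2
  rw [LinearMap.trace_eq_matrix_trace k b] at hX0 hXN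
  rw [LinearMap.toMatrix_mul, hb] at hXN
  set A := LinearMap.toMatrix b b X with hA
  have hA10 : A 1 0 = 0 := by
    simpa [Matrix.mul_apply, Fin.sum_univ_two, Matrix.trace_fin_two] using hXN
  have hA11 : A 1 1 = - A 0 0 := by
    rw [Matrix.trace_fin_two] at hX0
    exact eq_neg_of_add_eq_zero_right hX0
  refine ⟨(LinearMap.toMatrix b b).symm !![-(A 0 0 + A 0 1) / 2, 0; A 0 0, (A 0 0 + A 0 1) / 2],
    ?_, ?_⟩
  · rw [LinearMap.trace_eq_matrix_trace k b, LinearEquiv.apply_symm_apply, Matrix.trace_fin_two]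
    simp only [Matrix.of_apply, Matrix.cons_val', Matrix.cons_val_zero, Matrix.cons_val_one,
      Matrix.cons_val_fin_one]
    ring
  · apply (LinearMap.toMatrix b b).injective
    rw [map_sub, LinearMap.toMatrix_mul, LinearMap.toMatrix_mul, map_add, map_sub,
      LinearMap.toMatrix_one, hb, LinearEquiv.apply_symm_apply, ← hA]
    ext i j
    fin_cases i <;> fin_cases j <;>
      (simp [Matrix.mul_apply, Fin.sum_univ_two, hA10, hA11]; try (field_simp; ring))

end LinAlg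
section Group

variable {k : Type} [Field k] {V : Type} [AddCommGroup V] [Module k V]
  {Γ : Type*} [Group Γ]

theorem loc_unip_charP (p : ℕ) [CharP k p] (hV : Module.finrank k V = 2) :
    CharP (DualNumber (Module.End k V)) p := by
  have : Nontrivial V := Module.nontrivial_of_finrank_pos (R := k) (by rw [hV]; norm_num)
  exact charP_of_injective_algebraMap (algebraMap k (DualNumber (Module.End k V))).injective p

/-- an element `1 + x` with `x ^ 3 = 0` has order dividing `p` in odd characteristic `p` -/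
theorem loc_unip_pow_char {R : Type*} [Ring R] (p : ℕ) [Fact p.Prime] [CharP R p] (hp2 : p ≠ 2)
    (x : R) (hx : x * x * x = 0) : (1 + x) ^ p = 1 := by
  have hp3 : 3 ≤ p := by
    have := (Fact.out : p.Prime).two_le
    omega
  rw [add_pow_char_of_commute p (Commute.one_left x), one_pow]
  have : x ^ p = 0 := by
    obtain ⟨d, rfl⟩ := Nat.exists_eq_add_of_le hp3
    rw [pow_add, pow_succ, pow_two, hx, zero_mul]
  rw [this, add_zero]

theorem loc_unip_cube (N Y : Module.End k V) (hN2 : N * N = 0) (u : Module.End k V)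
    (hu : u = 1 + N) (hNYN : N * Y * N = 0) :
    (inl N + inr (Y * u) : DualNumber (Module.End k V)) * (inl N + inr (Y * u)) *
      (inl N + inr (Y * u)) = 0 := by
  have huN : u * N = N := by rw [hu, add_mul, one_mul, hN2, add_zero]
  refine TrivSqZeroExt.ext ?_ ?_
  · simp only [fst_add, fst_inl, fst_inr, add_zero, fst_mul, fst_zero]
    rw [hN2, zero_mul]
  · simp only [snd_add, snd_inl, snd_inr, zero_add, snd_mul, fst_add, fst_inl, fst_inr, add_zero,
      smul_eq_mul, MulOpposite.smul_eq_mul_unop, MulOpposite.unop_op, fst_mul, snd_zero]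
    rw [hN2, zero_mul, zero_add, add_mul, mul_assoc (Y * u), hN2, mul_zero, add_zero,
      mul_assoc N, mul_assoc Y, huN, ← mul_assoc, hNYN]

/-- a conjugation cocycle vanishes at `1` -/
theorem loc_unip_coc_one (ρ : Representation k Γ V) (c : Γ → Module.End k V)
    (hcoc : ∀ σ τ, c (σ * τ) = c σ + ρ σ * c τ * ρ σ⁻¹) : c 1 = 0 := by
  have h := hcoc 1 1
  rw [mul_one, inv_one, map_one, one_mul, mul_one] at h
  exact left_eq_add.1 h

theorem loc_unip_rho_mul_inv (ρ : Representation k Γ V) (σ : Γ) : ρ σ * ρ σ⁻¹ = 1 := by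
  rw [← map_mul, mul_inv_cancel, map_one]

theorem loc_unip_rho_inv_mul (ρ : Representation k Γ V) (σ : Γ) : ρ σ⁻¹ * ρ σ = 1 := by
  rw [← map_mul, inv_mul_cancel, map_one]

/-- the deformation `(1 + ε c) ρ` to the dual numbers -/
noncomputable def unipHom (ρ : Representation k Γ V) (c : Γ → Module.End k V)
    (hcoc : ∀ σ τ, c (σ * τ) = c σ + ρ σ * c τ * ρ σ⁻¹) :
    Γ →* DualNumber (Module.End k V) where
  toFun σ := inl (ρ σ) + inr (c σ * ρ σ)
  map_one' := by
    rw [loc_unip_coc_one ρ c hcoc, zero_mul, inr_zero, add_zero, map_one, inl_one]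
  map_mul' σ τ := by
    refine TrivSqZeroExt.ext ?_ ?_
    · simp only [fst_add, fst_inl, fst_inr, add_zero, fst_mul, map_mul]
    · simp only [snd_add, snd_inl, snd_inr, zero_add, snd_mul, fst_add, fst_inl, fst_inr, add_zero,
        smul_eq_mul, MulOpposite.smul_eq_mul_unop, MulOpposite.unop_op]
      rw [hcoc, map_mul, add_mul, add_comm]
      congr 1
      rw [mul_assoc (ρ σ * c τ), ← mul_assoc (ρ σ⁻¹), loc_unip_rho_inv_mul, one_mul, mul_assoc]

theorem unipHom_apply (ρ : Representation k Γ V) (c : Γ → Module.End k V)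
    (hcoc : ∀ σ τ, c (σ * τ) = c σ + ρ σ * c τ * ρ σ⁻¹) (σ : Γ) :
    unipHom ρ c hcoc σ = inl (ρ σ) + inr (c σ * ρ σ) := rfl

theorem unipHom_fst (ρ : Representation k Γ V) (c : Γ → Module.End k V)
    (hcoc : ∀ σ τ, c (σ * τ) = c σ + ρ σ * c τ * ρ σ⁻¹) (σ : Γ) :
    (unipHom ρ c hcoc σ).fst = ρ σ := by
  rw [unipHom_apply, fst_add, fst_inl, fst_inr, add_zero]

theorem unipHom_snd (ρ : Representation k Γ V) (c : Γ → Module.End k V)
    (hcoc : ∀ σ τ, c (σ * τ) = c σ + ρ σ * c τ * ρ σ⁻¹) (σ : Γ) :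
    (unipHom ρ c hcoc σ).snd = c σ * ρ σ := by
  rw [unipHom_apply, snd_add, snd_inl, snd_inr, zero_add]

/-- `unipHom` determines `ρ` and `c` -/
theorem unipHom_eq_iff (ρ : Representation k Γ V) (c : Γ → Module.End k V)
    (hcoc : ∀ σ τ, c (σ * τ) = c σ + ρ σ * c τ * ρ σ⁻¹) (σ τ : Γ) :
    unipHom ρ c hcoc σ = unipHom ρ c hcoc τ ↔ ρ σ = ρ τ ∧ c σ = c τ := by
  constructor
  · intro h
    have h1 : ρ σ = ρ τ := by rw [← unipHom_fst ρ c hcoc, h, unipHom_fst]
    have h2 : c σ * ρ σ = c τ * ρ τ := by rw [← unipHom_snd ρ c hcoc, h, unipHom_snd]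
    refine ⟨h1, ?_⟩
    have h3 : c σ * ρ σ * ρ σ⁻¹ = c τ * ρ τ * ρ σ⁻¹ := by rw [h2]
    rwa [mul_assoc, loc_unip_rho_mul_inv, mul_one, ← h1, mul_assoc, loc_unip_rho_mul_inv,
      mul_one] at h3
  · rintro ⟨h1, h2⟩
    rw [unipHom_apply, unipHom_apply, h1, h2]

/-- on a unipotent element satisfying the trace condition `unipHom` has order dividing `p` -/
theorem unipHom_pow_char (p : ℕ) [Fact p.Prime] [CharP k p] (hp2 : p ≠ 2)
    (hV : Module.finrank k V = 2) (ρ : Representation k Γ V) (c : Γ → Module.End k V)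
    (hcoc : ∀ σ τ, c (σ * τ) = c σ + ρ σ * c τ * ρ σ⁻¹) (σ : Γ)
    (hN2 : (ρ σ - 1) * (ρ σ - 1) = 0) (hNYN : (ρ σ - 1) * c σ * (ρ σ - 1) = 0) :
    unipHom ρ c hcoc σ ^ p = 1 := by
  have := loc_unip_charP (k := k) (V := V) p hV
  have h1 : unipHom ρ c hcoc σ = 1 + (inl (ρ σ - 1) + inr (c σ * ρ σ)) := by
    rw [unipHom_apply, ← add_assoc, ← inl_one, ← inl_add, add_sub_cancel]
  rw [h1]
  exact loc_unip_pow_char p hp2 _
    (loc_unip_cube (ρ σ - 1) (c σ) hN2 (ρ σ) (by rw [add_sub_cancel]) hNYN)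


/-- a cocycle vanishing at `τ` vanishes at the natural powers of `τ` -/
theorem loc_unip_coc_npow (ρ : Representation k Γ V) (c : Γ → Module.End k V)
    (hcoc : ∀ σ τ, c (σ * τ) = c σ + ρ σ * c τ * ρ σ⁻¹) (τ : Γ) (hτ : c τ = 0) (n : ℕ) :
    c (τ ^ n) = 0 := by
  induction n with
  | zero => rw [pow_zero]; exact loc_unip_coc_one ρ c hcoc
  | succ n ih => rw [pow_succ, hcoc, ih, hτ, mul_zero, zero_mul, add_zero]

/-- a cocycle vanishing at `τ` vanishes at `τ⁻¹` -/
theorem loc_unip_coc_inv (ρ : Representation k Γ V) (c : Γ → Module.End k V)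
    (hcoc : ∀ σ τ, c (σ * τ) = c σ + ρ σ * c τ * ρ σ⁻¹) (τ : Γ) (hτ : c τ = 0) :
    c τ⁻¹ = 0 := by
  have h := hcoc τ⁻¹ τ
  rw [inv_mul_cancel, loc_unip_coc_one ρ c hcoc, hτ, mul_zero, zero_mul, add_zero] at h
  exact h.symm

/-- a cocycle vanishing at `τ` vanishes at all powers of `τ` -/
theorem loc_unip_coc_zpow (ρ : Representation k Γ V) (c : Γ → Module.End k V)
    (hcoc : ∀ σ τ, c (σ * τ) = c σ + ρ σ * c τ * ρ σ⁻¹) (τ : Γ) (hτ : c τ = 0) (n : ℤ) :
    c (τ ^ n) = 0 := by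
  obtain ⟨m, rfl | rfl⟩ := Int.eq_nat_or_neg n
  · rw [zpow_natCast]
    exact loc_unip_coc_npow ρ c hcoc τ hτ m
  · rw [zpow_neg, zpow_natCast, ← inv_pow]
    exact loc_unip_coc_npow ρ c hcoc τ⁻¹ (loc_unip_coc_inv ρ c hcoc τ hτ) m

variable [FiniteDimensional k V] (p : ℕ) [Fact p.Prime] [CharP k p]
  (𝓛 : Levels Γ) (I : Subgroup Γ)

/-- the image of `I` under `unipHom` is generated by the image of any `τ ∈ I` with `ρ τ ≠ 1` -/
theorem loc_unip_exists_zpow
    (hS5 : ∀ {G : Type} [Group G] (f : Γ →* G), (∃ U, 𝓛.IsLevel U ∧ U ≤ f.ker) →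
      IsPGroup p ↥(I.map f) → IsCyclic ↥(I.map f))
    (hp2 : p ≠ 2) (hV : Module.finrank k V = 2)
    (ρ : Representation k Γ V) (hρ : IsSmoothRep 𝓛 ρ)
    (hunip : ∀ σ ∈ I, (ρ σ - 1) * (ρ σ - 1) = 0)
    (c : Γ → Module.End k V)
    (hcoc : ∀ σ τ, c (σ * τ) = c σ + ρ σ * c τ * ρ σ⁻¹) (hsm : IsLC₁ 𝓛 c)
    (hc : ∀ σ ∈ I, LinearMap.trace k V (c σ * (ρ σ - 1)) = 0)
    (τ : Γ) (hτ : τ ∈ I) (hτ1 : ρ τ ≠ 1) (σ : Γ) (hσ : σ ∈ I) :
    ∃ n : ℤ, ρ (τ ^ n) = ρ σ ∧ c (τ ^ n) = c σ := by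
  classical
  -- the homomorphism to the units of the dual numbers
  set f : Γ →* (DualNumber (Module.End k V))ˣ := (unipHom ρ c hcoc).toHomUnits with hf
  have hfval : ∀ g, ((f g : (DualNumber (Module.End k V))ˣ) : DualNumber (Module.End k V)) =
      unipHom ρ c hcoc g := fun g => MonoidHom.coe_toHomUnits _ g
  -- its kernel contains a level
  have hker : ∃ U, 𝓛.IsLevel U ∧ U ≤ f.ker := by
    obtain ⟨U₁, hU₁, -, h₁⟩ := hρ.exists_level_trivial
    obtain ⟨U₂, hU₂, h₂⟩ := hsm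
    obtain ⟨W, hW, hle⟩ := 𝓛.exists_le_inf U₁ U₂ hU₁ hU₂
    refine ⟨W, hW, fun s hs => ?_⟩
    rw [MonoidHom.mem_ker]
    apply Units.ext
    rw [hfval, Units.val_one, unipHom_apply, h₁ s (hle hs).1]
    have : c s = 0 := by
      have := h₂ 1 s (hle hs).2
      rwa [one_mul, loc_unip_coc_one ρ c hcoc] at this
    rw [this, zero_mul, inr_zero, add_zero, inl_one]
  -- the image of `I` has exponent `p`
  have hpow : ∀ g : ↥(I.map f), g ^ p = 1 := by
    rintro ⟨g, s, hs, rfl⟩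
    apply Subtype.ext
    apply Units.ext
    show ((f s ^ p : (DualNumber (Module.End k V))ˣ) : DualNumber (Module.End k V)) = 1
    rw [Units.val_pow_eq_pow_val, hfval]
    refine unipHom_pow_char p hp2 hV ρ c hcoc s (hunip s hs) ?_
    rw [loc_unip_mul_mul hV _ (hunip s hs), hc s hs, zero_smul]
  have hpG : IsPGroup p ↥(I.map f) := fun g => ⟨1, by rw [pow_one]; exact hpow g⟩
  have hcyc : IsCyclic ↥(I.map f) := hS5 f hker hpG
  have hcard : Nat.card ↥(I.map f) ∣ p := by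
    rw [← IsCyclic.exponent_eq_card]
    exact Monoid.exponent_dvd_of_forall_pow_eq_one hpow
  -- `f τ` is a non-trivial element
  have hτmem : f τ ∈ I.map f := Subgroup.mem_map_of_mem f hτ
  have hτne : (⟨f τ, hτmem⟩ : ↥(I.map f)) ≠ 1 := by
    intro h
    have h1 : f τ = 1 := congrArg Subtype.val h
    have h2 : unipHom ρ c hcoc τ = 1 := by rw [← hfval, h1, Units.val_one]
    apply hτ1
    rw [← unipHom_fst ρ c hcoc, h2, fst_one]
  have hcardp : Nat.card ↥(I.map f) = p := by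
    rcases (Nat.dvd_prime (Fact.out : p.Prime)).1 hcard with h | h
    · exfalso
      have := (Nat.card_eq_one_iff_unique.1 h).1
      exact hτne (Subsingleton.elim _ _)
    · exact h
  have htop := zpowers_eq_top_of_prime_card hcardp hτne
  have hσmem : (⟨f σ, Subgroup.mem_map_of_mem f hσ⟩ : ↥(I.map f)) ∈
      Subgroup.zpowers (⟨f τ, hτmem⟩ : ↥(I.map f)) := by
    rw [htop]
    exact Subgroup.mem_top _
  obtain ⟨n, hn⟩ := Subgroup.mem_zpowers_iff.1 hσmem
  refine ⟨n, ?_⟩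
  have h1 : f τ ^ n = f σ := by
    have := congrArg Subtype.val hn
    rwa [Subgroup.coe_zpow] at this
  have h2 : unipHom ρ c hcoc (τ ^ n) = unipHom ρ c hcoc σ := by
    rw [← hfval, ← hfval, map_zpow, h1]
  exact (unipHom_eq_iff ρ c hcoc _ _).1 h2

/-- C4 (abstract form): `(1 + εc) ρ` unipotent on `I` ⟹ `c` restricted to `I` is a coboundary,
given that `p`-group images of `I` in quotients by levels are cyclic. -/
theorem loc_unip_exists_cobound_of_tame
    (hS5 : ∀ {G : Type} [Group G] (f : Γ →* G), (∃ U, 𝓛.IsLevel U ∧ U ≤ f.ker) →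
      IsPGroup p ↥(I.map f) → IsCyclic ↥(I.map f))
    (hp2 : p ≠ 2) (hV : Module.finrank k V = 2)
    (ρ : Representation k Γ V) (hρ : IsSmoothRep 𝓛 ρ)
    (hunip : ∀ σ ∈ I, (ρ σ - 1) * (ρ σ - 1) = 0)
    (hram : ∃ σ ∈ I, ρ σ ≠ 1)
    (c : Γ → Module.End k V) (hc0 : ∀ σ, LinearMap.trace k V (c σ) = 0)
    (hcoc : ∀ σ τ, c (σ * τ) = c σ + ρ σ * c τ * ρ σ⁻¹) (hsm : IsLC₁ 𝓛 c)
    (hc : ∀ σ ∈ I, LinearMap.trace k V (c σ * (ρ σ - 1)) = 0) :
    ∃ m : Module.End k V, LinearMap.trace k V m = 0 ∧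
      ∀ σ ∈ I, c σ = ρ σ * m * ρ σ⁻¹ - m := by
  classical
  obtain ⟨τ, hτ, hτ1⟩ := hram
  have h2 : (2 : k) ≠ 0 := by
    intro h
    have h' : ((2 : ℕ) : k) = 0 := by exact_mod_cast h
    have hdvd := (CharP.cast_eq_zero_iff k p 2).1 h'
    exact hp2 ((Nat.prime_dvd_prime_iff_eq (Fact.out : p.Prime) Nat.prime_two).1 hdvd)
  have hN0 : ρ τ - 1 ≠ 0 := sub_ne_zero.2 hτ1
  obtain ⟨m, hm0, hm⟩ := loc_unip_exists_m hV h2 (ρ τ - 1) hN0 (hunip τ hτ) (c τ) (hc0 τ) (hc τ hτ)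
  have hinv : ρ τ⁻¹ = 1 - (ρ τ - 1) := by
    have h1 : (1 - (ρ τ - 1)) * ρ τ = 1 := by
      have := hunip τ hτ
      calc (1 - (ρ τ - 1)) * ρ τ = 1 - (ρ τ - 1) * (ρ τ - 1) := by noncomm_ring
        _ = 1 := by rw [this, sub_zero]
    calc ρ τ⁻¹ = (1 - (ρ τ - 1)) * ρ τ * ρ τ⁻¹ := by rw [h1, one_mul]
      _ = 1 - (ρ τ - 1) := by rw [mul_assoc, loc_unip_rho_mul_inv, mul_one]
  rw [add_sub_cancel, ← hinv] at hm
  refine ⟨m, hm0, ?_⟩
  -- the modified cocycle
  set c' : Γ → Module.End k V := fun σ => c σ - (ρ σ * m * ρ σ⁻¹ - m) with hc'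
  have hcoc' : ∀ σ τ, c' (σ * τ) = c' σ + ρ σ * c' τ * ρ σ⁻¹ := by
    intro σ τ
    simp only [hc']
    rw [hcoc, map_mul, mul_inv_rev, map_mul]
    noncomm_ring
  have hsm' : IsLC₁ 𝓛 c' := by
    obtain ⟨U₁, hU₁, -, h₁⟩ := hρ.exists_level_trivial
    obtain ⟨U₂, hU₂, h₂⟩ := hsm
    obtain ⟨W, hW, hle⟩ := 𝓛.exists_le_inf U₁ U₂ hU₁ hU₂
    refine ⟨W, hW, fun g s hs => ?_⟩
    simp only [hc']
    rw [h₂ g s (hle hs).2, map_mul, mul_inv_rev, map_mul, h₁ s (hle hs).1,
      h₁ s⁻¹ (U₁.inv_mem (hle hs).1), mul_one, one_mul]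
  have htr' : ∀ σ ∈ I, LinearMap.trace k V (c' σ * (ρ σ - 1)) = 0 := by
    intro σ hσ
    simp only [hc']
    have e : (c σ - (ρ σ * m * ρ σ⁻¹ - m)) * (ρ σ - 1) =
        c σ * (ρ σ - 1) - (ρ σ * m * (ρ σ⁻¹ * ρ σ) - ρ σ * m * ρ σ⁻¹ - m * ρ σ + m) := by
      noncomm_ring
    rw [e, loc_unip_rho_inv_mul, mul_one, map_sub, hc σ hσ, map_add, map_sub, map_sub,
      LinearMap.trace_mul_comm k (ρ σ * m), ← mul_assoc, loc_unip_rho_inv_mul, one_mul,
      LinearMap.trace_mul_comm k (ρ σ) m]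
    ring
  have hτ0 : c' τ = 0 := by
    simp only [hc']
    rw [← hm, sub_self]
  intro σ hσ
  obtain ⟨n, -, hn⟩ := loc_unip_exists_zpow p 𝓛 I hS5 hp2 hV ρ hρ hunip c' hcoc' hsm' htr' τ hτ hτ1
    σ hσ
  rw [loc_unip_coc_zpow ρ c' hcoc' τ hτ0 n] at hn
  exact sub_eq_zero.1 hn.symm

end Group

end Fermat.Agent.S56
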