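/-
S56 / package LOC, row 372 (C4): `loc_unip_exists_cobound`, VERBATIM from `Loc/Spec.lean`
(origin/helper22 ee164b5).  Proof: `Loc/UnipCore.lean` (`loc_unip_exists_cobound_of_tame`, sorry-free,
abstract group with levels and an "inertia" subgroup, S5 as a hypothesis) applied to
`Γ = lbGal q`, `𝓛 = lbLevels q`, `I = locInertia q` and the black box S5 `loc_tame_isCyclic`
(`Loc/TameSpec.lean`, row 368).
-/
import Fermat.Agent.S56.Loc.UnipCore
import Fermat.Agent.S56.Loc.Tame

set_option autoImplicit false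

namespace Fermat.Agent.S56

open Fermat.Agent.S55 Polynomial

section Counts

variable (q : ℕ) [Fact q.Prime] {k : Type} [Field k]
  {V : Type} [AddCommGroup V] [Module k V] [FiniteDimensional k V]

variable (p : ℕ) [Fact p.Prime] [CharP k p] [Finite k]

/-- C4: minimal primes: `(1 + εc) ρ̄` unipotent on inertia ⟹ `c` restricted to inertia is a
coboundary.  PORTABLE FORM (no cohomology functor, no choice of the scalar field of `ad⁰`):
`c : Γ_q → End_k V` any smooth trace-zero `1`-cocycle for conjugation by `ρ`. -/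
theorem loc_unip_exists_cobound (hp2 : p ≠ 2) (hqp : q ≠ p) (hV : Module.finrank k V = 2)
    (ρ : Representation k (lbGal q) V) (hρ : IsSmoothRep (lbLevels q) ρ)
    (hunip : ∀ σ ∈ locInertia q, (ρ σ - 1) * (ρ σ - 1) = 0)
    (hram : ∃ σ ∈ locInertia q, ρ σ ≠ 1)
    (c : lbGal q → Module.End k V) (hc0 : ∀ σ, LinearMap.trace k V (c σ) = 0)
    (hcoc : ∀ σ τ, c (σ * τ) = c σ + ρ σ * c τ * ρ σ⁻¹) (hsm : IsLC₁ (lbLevels q) c)
    (hc : ∀ σ ∈ locInertia q, LinearMap.trace k V (c σ * (ρ σ - 1)) = 0) :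
    ∃ m : Module.End k V, LinearMap.trace k V m = 0 ∧
      ∀ σ ∈ locInertia q, c σ = ρ σ * m * ρ σ⁻¹ - m :=
  loc_unip_exists_cobound_of_tame p (lbLevels q) (locInertia q)
    (fun f hf hp => loc_tame_isCyclic q p hqp f hf hp) hp2 hV ρ hρ hunip hram c hc0 hcoc hsm hc

end Counts

end Fermat.Agent.S56
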