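/-
S56 / LOC, leaf C1 (row 369, helper17): `loc_finrank_smH1ur_le` VERBATIM from `Loc/Spec.lean`
(origin/helper22 ee164b5): `dim H¹_ur(Γ_q, V) ≤ dim H⁰(Γ_q, V)`.

Black boxes: S2 `loc_exists_isFrobLift`, S3 `loc_exists_zpow_mul` (structure of `Gal(ℚ̄_q/ℚ_q)`),
`locInertia_normal` (proved in `Loc/Defs.lean`).  The count itself (`locur_count`) is proved for
an arbitrary group `G` with levels, a normal subgroup `I` and an element `φ` such that
`G = ⟨φ⟩ · I · U` for every level `U`.  Helper names are prefixed `locur`.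
-/
import Fermat.Agent.S56.Loc.Lift

set_option autoImplicit false
set_option linter.unusedSectionVars false
set_option linter.unusedVariables false

namespace Fermat.Agent.S56

open Fermat.Agent.S55

section Generic

set_option maxSynthPendingDepth 3

variable {k : Type*} [Field k] {G : Type*} [Group G] (𝓛 : Levels G) (I : Subgroup G)
  {V : Type*} [AddCommGroup V] [Module k V] (ρ : Representation k G V)

/-- cocycle identity -/
theorem locur_cocycle {c : G → V} (hc : c ∈ smZ1 𝓛 ρ) (σ τ : G) :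
    c (σ * τ) = c σ + ρ σ (c τ) := by
  have h := congrFun ((mem_smZ1 𝓛 ρ c).1 hc).1 (σ, τ)
  rw [dd1_apply] at h
  have h0 : (0 : G × G → V) (σ, τ) = 0 := rfl
  rw [h0] at h
  have h2 : c (σ * τ) = ρ σ (c τ) + c σ := by
    rw [← sub_eq_zero, ← neg_eq_zero, ← h]
    abel
  rw [h2, add_comm]

/-- the zero set of a cocycle is a subgroup -/
def locurKer {c : G → V} (hc : c ∈ smZ1 𝓛 ρ) : Subgroup G where
  carrier := {g | c g = 0}
  one_mem' := by
    have h := locur_cocycle 𝓛 ρ hc 1 1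
    rw [mul_one, map_one, Module.End.one_apply] at h
    show c 1 = 0
    have h2 : c 1 + c 1 = c 1 + 0 := by rw [add_zero]; exact h.symm
    exact add_left_cancel h2
  mul_mem' := by
    intro a b ha hb
    show c (a * b) = 0
    rw [locur_cocycle 𝓛 ρ hc, show c a = 0 from ha, show c b = 0 from hb, map_zero, add_zero]
  inv_mem' := by
    intro a ha
    have h1 : c (1 : G) = 0 := by
      have h := locur_cocycle 𝓛 ρ hc 1 1
      rw [mul_one, map_one, Module.End.one_apply] at h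
      have h2 : c 1 + c 1 = c 1 + 0 := by rw [add_zero]; exact h.symm
      exact add_left_cancel h2
    have h := locur_cocycle 𝓛 ρ hc a a⁻¹
    rw [mul_inv_cancel, h1, show c a = 0 from ha, zero_add] at h
    show c a⁻¹ = 0
    have h3 : ρ a⁻¹ (ρ a (c a⁻¹)) = 0 := by rw [← h, map_zero]
    rwa [← Module.End.mul_apply, ← map_mul, inv_mul_cancel, map_one, Module.End.one_apply] at h3

theorem mem_locurKer {c : G → V} (hc : c ∈ smZ1 𝓛 ρ) (g : G) :
    g ∈ locurKer 𝓛 ρ hc ↔ c g = 0 := Iff.rfl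

/-- the stabiliser of a vector -/
def locurStab (m : V) : Subgroup G where
  carrier := {g | ρ g m = m}
  one_mem' := by show ρ 1 m = m; rw [map_one, Module.End.one_apply]
  mul_mem' := by
    intro a b ha hb
    show ρ (a * b) m = m
    rw [map_mul, Module.End.mul_apply, show ρ b m = m from hb, show ρ a m = m from ha]
  inv_mem' := by
    intro a ha
    show ρ a⁻¹ m = m
    have h : ρ a⁻¹ (ρ a m) = m := by
      rw [← Module.End.mul_apply, ← map_mul, inv_mul_cancel, map_one, Module.End.one_apply]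
    rwa [show ρ a m = m from ha] at h

theorem mem_locurStab (m : V) (g : G) : g ∈ locurStab ρ m ↔ ρ g m = m := Iff.rfl

/-- a subgroup containing `φ`, `I` and a level `U` is everything -/
theorem locur_eq_top (φ : G)
    (hgen : ∀ U, 𝓛.IsLevel U → ∀ g : G, ∃ (n : ℤ) (i u : G), i ∈ I ∧ u ∈ U ∧ g = φ ^ n * i * u)
    (K : Subgroup G) (hφ : φ ∈ K) (hI : I ≤ K) (U : Subgroup G) (hU : 𝓛.IsLevel U) (hUK : U ≤ K)
    (g : G) : g ∈ K := by
  obtain ⟨n, i, u, hi, hu, rfl⟩ := hgen U hU g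
  exact K.mul_mem (K.mul_mem (K.zpow_mem hφ n) (hI hi)) (hUK hu)

/-- the `I`-invariants -/
def locurInv : Submodule k V where
  carrier := {m | ∀ i ∈ I, ρ i m = m}
  add_mem' := by
    intro a b ha hb i hi
    rw [map_add, ha i hi, hb i hi]
  zero_mem' := fun i _ => map_zero _
  smul_mem' := by
    intro a m hm i hi
    rw [map_smul, hm i hi]

theorem mem_locurInv (m : V) : m ∈ locurInv I ρ ↔ ∀ i ∈ I, ρ i m = m := Iff.rfl

/-- the smooth cocycles vanishing on `I` -/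
def locurZ0 : Submodule k ↥(smZ1 𝓛 ρ) where
  carrier := {c | ∀ σ ∈ I, (c : G → V) σ = 0}
  add_mem' := by
    intro a b ha hb σ hσ
    show (a : G → V) σ + (b : G → V) σ = 0
    rw [ha σ hσ, hb σ hσ, add_zero]
  zero_mem' := fun _ _ => rfl
  smul_mem' := by
    intro a c hc σ hσ
    show a • (c : G → V) σ = 0
    rw [hc σ hσ, smul_zero]

theorem mem_locurZ0 (c : ↥(smZ1 𝓛 ρ)) : c ∈ locurZ0 𝓛 I ρ ↔ ∀ σ ∈ I, (c : G → V) σ = 0 := Iff.rfl

/-- evaluation at `φ` -/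
def locurEv (φ : G) : ↥(locurZ0 𝓛 I ρ) →ₗ[k] V where
  toFun c := ((c : ↥(smZ1 𝓛 ρ)) : G → V) φ
  map_add' _ _ := rfl
  map_smul' _ _ := rfl

theorem locurEv_apply (φ : G) (c : ↥(locurZ0 𝓛 I ρ)) :
    locurEv 𝓛 I ρ φ c = ((c : ↥(smZ1 𝓛 ρ)) : G → V) φ := rfl

variable {𝓛 I ρ}

theorem locurEv_mem (hI : I.Normal) (φ : G) (c : ↥(locurZ0 𝓛 I ρ)) :
    locurEv 𝓛 I ρ φ c ∈ locurInv I ρ := by
  intro i hi
  have hc := (c : ↥(smZ1 𝓛 ρ)).2
  have h1 := locur_cocycle 𝓛 ρ hc i φ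
  have h2 := locur_cocycle 𝓛 ρ hc φ (φ⁻¹ * i * φ)
  have hconj : φ⁻¹ * i * φ ∈ I := by
    have := hI.conj_mem i hi φ⁻¹
    rwa [inv_inv] at this
  rw [c.2 i hi, zero_add] at h1
  rw [c.2 _ hconj, map_zero, add_zero] at h2
  have h3 : φ * (φ⁻¹ * i * φ) = i * φ := by group
  rw [h3] at h2
  rw [locurEv_apply, ← h1, h2]

theorem locurEv_injective (φ : G)
    (hgen : ∀ U, 𝓛.IsLevel U → ∀ g : G, ∃ (n : ℤ) (i u : G), i ∈ I ∧ u ∈ U ∧ g = φ ^ n * i * u) :
    Function.Injective (locurEv 𝓛 I ρ φ) := by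
  refine (injective_iff_map_eq_zero (locurEv 𝓛 I ρ φ)).2 ?_
  intro c hc0
  have hc := (c : ↥(smZ1 𝓛 ρ)).2
  obtain ⟨U, hU, hlc⟩ := ((mem_smZ1 𝓛 ρ _).1 hc).2
  have hone : ((c : ↥(smZ1 𝓛 ρ)) : G → V) 1 = 0 := (locurKer 𝓛 ρ hc).one_mem
  have hall : ∀ g : G, g ∈ locurKer 𝓛 ρ hc := by
    refine locur_eq_top 𝓛 I φ hgen _ hc0 (fun i hi => c.2 i hi) U hU ?_
    intro u hu
    show ((c : ↥(smZ1 𝓛 ρ)) : G → V) u = 0
    have := hlc 1 u hu
    rwa [one_mul, hone] at this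
  apply Subtype.ext
  apply Subtype.ext
  funext g
  exact hall g

end Generic

section Count

set_option maxSynthPendingDepth 3

variable {k : Type*} [Field k] {G : Type*} [Group G] {𝓛 : Levels G} {I : Subgroup G}
  {V : Type*} [AddCommGroup V] [Module k V] {ρ : Representation k G V}

/-- the coboundary map on the `I`-invariants, with values in the cocycles vanishing on `I` -/
def locurD (hρ : IsSmoothRep 𝓛 ρ) : ↥(locurInv I ρ) →ₗ[k] ↥(locurZ0 𝓛 I ρ) where
  toFun m := ⟨⟨dd0 ρ (m : V), smB1_le_smZ1 hρ ⟨(m : V), rfl⟩⟩, fun σ hσ => by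
    show ρ σ (m : V) - (m : V) = 0
    rw [m.2 σ hσ, sub_self]⟩
  map_add' a b := by
    apply Subtype.ext
    apply Subtype.ext
    exact map_add (dd0 ρ) (a : V) (b : V)
  map_smul' a b := by
    apply Subtype.ext
    apply Subtype.ext
    exact map_smul (dd0 ρ) a (b : V)

theorem locurD_apply (hρ : IsSmoothRep 𝓛 ρ) (m : ↥(locurInv I ρ)) (g : G) :
    (((locurD (I := I) hρ m : ↥(locurZ0 𝓛 I ρ)) : ↥(smZ1 𝓛 ρ)) : G → V) g = ρ g (m : V) - m := rfl

/-- the class map on `Z0` -/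
def locurPi : ↥(locurZ0 𝓛 I ρ) →ₗ[k] smH1 𝓛 ρ :=
  (smH1π 𝓛 ρ).comp (locurZ0 𝓛 I ρ).subtype

theorem locurPi_D (hρ : IsSmoothRep 𝓛 ρ) (m : ↥(locurInv I ρ)) :
    locurPi (𝓛 := 𝓛) (I := I) (ρ := ρ) (locurD hρ m) = 0 := by
  show smH1π 𝓛 ρ _ = 0
  rw [Submodule.mkQ_apply, Submodule.Quotient.mk_eq_zero, Submodule.mem_comap]
  exact ⟨(m : V), rfl⟩

theorem locur_range_pi (hρ : IsSmoothRep 𝓛 ρ) :
    LinearMap.range (locurPi (𝓛 := 𝓛) (I := I) (ρ := ρ)) = smH1ur 𝓛 I ρ := by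
  apply le_antisymm
  · rintro _ ⟨c, rfl⟩
    exact smH1π_mem_smH1ur 𝓛 I ρ (c : ↥(smZ1 𝓛 ρ)) 0 (fun σ hσ => by
      rw [map_zero, sub_zero]
      exact c.2 σ hσ)
  · rintro _ ⟨c, ⟨m, hm⟩, rfl⟩
    have hb : dd0 ρ m ∈ smZ1 𝓛 ρ := smB1_le_smZ1 hρ ⟨m, rfl⟩
    have hmem : c - ⟨dd0 ρ m, hb⟩ ∈ locurZ0 𝓛 I ρ := by
      intro σ hσ
      show (c : G → V) σ - (ρ σ m - m) = 0
      rw [hm σ hσ, sub_self]
    refine ⟨⟨c - ⟨dd0 ρ m, hb⟩, hmem⟩, ?_⟩
    show smH1π 𝓛 ρ (c - ⟨dd0 ρ m, hb⟩) = smH1π 𝓛 ρ c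
    rw [map_sub, sub_eq_self, Submodule.mkQ_apply, Submodule.Quotient.mk_eq_zero,
      Submodule.mem_comap]
    exact ⟨m, rfl⟩

/-- `ρ φ - 1` on the `I`-invariants -/
def locurN (hI : I.Normal) (φ : G) : ↥(locurInv I ρ) →ₗ[k] ↥(locurInv I ρ) where
  toFun m := ⟨ρ φ (m : V) - m, by
    intro i hi
    have hconj : φ⁻¹ * i * φ ∈ I := by
      have := hI.conj_mem i hi φ⁻¹
      rwa [inv_inv] at this
    have h1 : ρ i (ρ φ (m : V)) = ρ φ (m : V) := by
      have h2 : i * φ = φ * (φ⁻¹ * i * φ) := by group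
      rw [← Module.End.mul_apply, ← map_mul, h2, map_mul, Module.End.mul_apply, m.2 _ hconj]
    rw [map_sub, h1, m.2 i hi]⟩
  map_add' a b := by
    apply Subtype.ext
    show ρ φ ((a : V) + (b : V)) - ((a : V) + (b : V)) = (ρ φ a - a) + (ρ φ b - b)
    rw [map_add]
    abel
  map_smul' a b := by
    apply Subtype.ext
    show ρ φ (a • (b : V)) - a • (b : V) = a • (ρ φ b - b)
    rw [map_smul, smul_sub]

theorem locurN_coe (hI : I.Normal) (φ : G) (m : ↥(locurInv I ρ)) :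
    ((locurN (ρ := ρ) hI φ m : ↥(locurInv I ρ)) : V) = ρ φ (m : V) - m := rfl

variable [FiniteDimensional k V]

/-- the count `dim H¹_ur ≤ dim H⁰` for `G = ⟨φ⟩ · I · U` -/
theorem locur_count (hI : I.Normal) (φ : G)
    (hgen : ∀ U, 𝓛.IsLevel U → ∀ g : G, ∃ (n : ℤ) (i u : G), i ∈ I ∧ u ∈ U ∧ g = φ ^ n * i * u)
    (hρ : IsSmoothRep 𝓛 ρ) :
    FiniteDimensional k ↥(smH1ur 𝓛 I ρ) ∧
      Module.finrank k ↥(smH1ur 𝓛 I ρ) ≤ Module.finrank k ↥(smH0 ρ) := by
  have hinj := locurEv_injective (𝓛 := 𝓛) (I := I) (ρ := ρ) φ hgen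
  have hfdZ : FiniteDimensional k ↥(locurZ0 𝓛 I ρ) :=
    FiniteDimensional.of_injective (locurEv 𝓛 I ρ φ) hinj
  have hrange := locur_range_pi (𝓛 := 𝓛) (I := I) (ρ := ρ) hρ
  refine ⟨by rw [← hrange]; infer_instance, ?_⟩
  -- `Z0` embeds into the `I`-invariants
  have hZle : Module.finrank k ↥(locurZ0 𝓛 I ρ) ≤ Module.finrank k ↥(locurInv I ρ) := by
    refine LinearMap.finrank_le_finrank_of_injective
      (f := LinearMap.codRestrict (locurInv I ρ) (locurEv 𝓛 I ρ φ) (locurEv_mem hI φ)) ?_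
    intro a b hab
    apply hinj
    exact congrArg Subtype.val hab
  -- rank-nullity for the class map
  have hrn := LinearMap.finrank_range_add_finrank_ker (locurPi (𝓛 := 𝓛) (I := I) (ρ := ρ))
  rw [hrange] at hrn
  -- the coboundaries of invariants lie in the kernel, and are at least `rank N` dimensional
  have hDker : LinearMap.range (locurD (𝓛 := 𝓛) (I := I) (ρ := ρ) hρ) ≤
      LinearMap.ker (locurPi (𝓛 := 𝓛) (I := I) (ρ := ρ)) := by
    rintro _ ⟨m, rfl⟩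
    exact LinearMap.mem_ker.2 (locurPi_D hρ m)
  have h1 : Module.finrank k ↥(LinearMap.range (locurD (𝓛 := 𝓛) (I := I) (ρ := ρ) hρ)) ≤
      Module.finrank k ↥(LinearMap.ker (locurPi (𝓛 := 𝓛) (I := I) (ρ := ρ))) :=
    Submodule.finrank_mono hDker
  have h2 : Module.finrank k ↥(LinearMap.range (locurN (ρ := ρ) hI φ)) ≤
      Module.finrank k ↥(LinearMap.range (locurD (𝓛 := 𝓛) (I := I) (ρ := ρ) hρ)) := by
    -- `range N` is the image of `range D` under evaluation at `φ`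
    let e : ↥(LinearMap.range (locurD (𝓛 := 𝓛) (I := I) (ρ := ρ) hρ)) →ₗ[k]
        ↥(locurInv I ρ) :=
      (LinearMap.codRestrict (locurInv I ρ) (locurEv 𝓛 I ρ φ) (locurEv_mem hI φ)).comp
        (LinearMap.range (locurD (𝓛 := 𝓛) (I := I) (ρ := ρ) hρ)).subtype
    have he : LinearMap.range (locurN (ρ := ρ) hI φ) ≤ LinearMap.range e := by
      rintro _ ⟨m, rfl⟩
      refine ⟨⟨locurD hρ m, ⟨m, rfl⟩⟩, ?_⟩
      apply Subtype.ext
      rfl
    exact (Submodule.finrank_mono he).trans (LinearMap.finrank_range_le e)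
  have h3 := LinearMap.finrank_range_add_finrank_ker (locurN (ρ := ρ) hI φ)
  -- the kernel of `N` consists of `G`-invariants
  have h4 : Module.finrank k ↥(LinearMap.ker (locurN (ρ := ρ) hI φ)) ≤
      Module.finrank k ↥(smH0 ρ) := by
    have hmem : ∀ m : ↥(LinearMap.ker (locurN (ρ := ρ) hI φ)),
        ((m : ↥(locurInv I ρ)) : V) ∈ smH0 ρ := by
      intro m
      have hφ : ρ φ ((m : ↥(locurInv I ρ)) : V) = ((m : ↥(locurInv I ρ)) : V) := by
        have := congrArg Subtype.val (LinearMap.mem_ker.1 m.2)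
        rw [locurN_coe] at this
        exact sub_eq_zero.1 this
      obtain ⟨U, hU, hfix⟩ := hρ ((m : ↥(locurInv I ρ)) : V)
      show dd0 ρ ((m : ↥(locurInv I ρ)) : V) = 0
      funext g
      have hg : g ∈ locurStab ρ ((m : ↥(locurInv I ρ)) : V) :=
        locur_eq_top 𝓛 I φ hgen _ hφ (fun i hi => (m : ↥(locurInv I ρ)).2 i hi) U hU
          (fun u hu => hfix u hu) g
      show ρ g ((m : ↥(locurInv I ρ)) : V) - _ = 0
      rw [(mem_locurStab ρ _ g).1 hg, sub_self]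
    refine LinearMap.finrank_le_finrank_of_injective
      (f := LinearMap.codRestrict (smH0 ρ)
        ((locurInv I ρ).subtype.comp (LinearMap.ker (locurN (ρ := ρ) hI φ)).subtype) hmem) ?_
    intro a b hab
    apply Subtype.ext
    apply Subtype.ext
    exact congrArg (fun z : ↥(smH0 ρ) => (z : V)) hab
  omega

end Count

section Main

variable (q : ℕ) [Fact q.Prime] {k : Type} [Field k]
  {V : Type} [AddCommGroup V] [Module k V] [FiniteDimensional k V]

/-- C1: `dim H¹_ur(Γ_q, V) ≤ dim H⁰(Γ_q, V)` -/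
theorem loc_finrank_smH1ur_le (ρ : Representation k (lbGal q) V)
    (hρ : IsSmoothRep (lbLevels q) ρ) :
    FiniteDimensional k ↥(smH1ur (lbLevels q) (locInertia q) ρ) ∧
      Module.finrank k ↥(smH1ur (lbLevels q) (locInertia q) ρ) ≤ Module.finrank k ↥(smH0 ρ) := by
  obtain ⟨φ, hφ⟩ := loc_exists_isFrobLift q
  exact locur_count (locInertia_normal q) φ (fun U hU g => loc_exists_zpow_mul q φ hφ U hU g) hρ

end Main

end Fermat.Agent.S56
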