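/-
S56 / package LOC, leaf C5a: Kummer theory at `p` WITHOUT `ζ_p` in the base field.

For `p` odd, `W` a finite module killed by `p` on which `Gal(ℚ̄_p/ℚ_p)` acts through the mod `p`
cyclotomic character: `|H¹(ℚ_p, W)| ≤ |W|²` (`loc_kummerP_card_le`), and the `finrank` form
`loc_kummerP_finrank_le` for a finite field `k` of characteristic `p`.

Route: `[ℚ_pˣ : ℚ_pˣᵖ] = p²` (`lkp_index_pow`, from `LocalKummerIndex`: no `p`-th root of unity in
`ℚ_p`), and the Kummer injection `H¹(ℚ_p, μ_p) ↪ ℚ_pˣ/p` via Hilbert 90 on a finite Galois layer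
containing `ζ_p`; general `W` by coordinates.  Helper lemmas are prefixed `lkp_`.
-/
import Fermat.Agent.S55.LocalBridgeDefs
import Fermat.Agent.S55.LocalKummerIndex

set_option autoImplicit false
set_option linter.style.haveILetI false
set_option linter.unusedSectionVars false

namespace Fermat.Agent.S56

open Fermat.Agent.S55 IsLocalRing IntermediateField

/-! ### The index of the `p`-th powers in `ℚ_pˣ` -/

section Index

variable (p : ℕ) [Fact p.Prime]

theorem lkp_lfOrd_prime_base : lfOrd p ℚ_[p] ((p : ℕ) : ℚ_[p]) = 1 := by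
  have h := lfOrd_prime_mul_lfAbsInertiaDeg p ℚ_[p]
  rw [Module.finrank_self] at h
  have hpos := lro_lfOrd_prime_pos p ℚ_[p]
  exact Int.eq_one_of_mul_eq_one_right hpos.le (by exact_mod_cast h)

theorem lkp_lfAbsInertiaDeg_base : lfAbsInertiaDeg p ℚ_[p] = 1 := by
  have h := lfOrd_prime_mul_lfAbsInertiaDeg p ℚ_[p]
  rw [lkp_lfOrd_prime_base, Module.finrank_self, one_mul] at h
  exact_mod_cast h

theorem lkp_lfResCard_base : lfResCard p ℚ_[p] = p := by
  rw [lfResCard_eq, lkp_lfAbsInertiaDeg_base, pow_one]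

/-- no non-trivial `p`-th root of unity in `ℤ_p`, `p` odd -/
theorem lkp_units_pow_eq_one (hp2 : p ≠ 2) (u : (lfInt p ℚ_[p])ˣ) (hu : u ^ p = 1) : u = 1 := by
  have hp : p.Prime := Fact.out
  obtain ⟨c, hc, hcv⟩ := lki_exists_span_eq p ℚ_[p] p hp.ne_zero
  rw [lkp_lfOrd_prime_base] at hcv
  have hc1 : c = 1 := by exact_mod_cast hcv
  subst hc1
  have h3 : 3 ≤ p := by
    have := hp.two_le
    omega
  refine lki_pow_injective hp hc (le_refl 1) (by omega) ?_ hu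
  rw [mem_lkiU_iff, pow_one]
  have hcard : Nat.card (ResidueField (lfInt p ℚ_[p])) = p := lkp_lfResCard_base p
  haveI : Finite (ResidueField (lfInt p ℚ_[p])) :=
    Nat.finite_of_card_ne_zero (by rw [hcard]; exact hp.ne_zero)
  letI := Fintype.ofFinite (ResidueField (lfInt p ℚ_[p]))
  have h1 := FiniteField.pow_card (residue (lfInt p ℚ_[p]) (u : lfInt p ℚ_[p]))
  rw [← Nat.card_eq_fintype_card, hcard, ← map_pow, ← Units.val_pow_eq_pow_val, hu,
    Units.val_one, map_one] at h1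
  rw [← residue_eq_zero_iff, map_sub, map_one, ← h1, sub_self]

theorem lkp_index_pow (hp2 : p ≠ 2) :
    (powMonoidHom p : ℚ_[p]ˣ →* ℚ_[p]ˣ).range.index = p ^ 2 := by
  have hp : p.Prime := Fact.out
  haveI : NeZero p := ⟨hp.ne_zero⟩
  rw [lki_index_eq_units_index_mul p ℚ_[p] p]
  obtain ⟨c, hcv, hc⟩ := lki_units_index p ℚ_[p] p
  rw [lkp_lfOrd_prime_base] at hcv
  have hc1 : c = 1 := by exact_mod_cast hcv
  have hker : Nat.card (powMonoidHom p : (lfInt p ℚ_[p])ˣ →* (lfInt p ℚ_[p])ˣ).ker = 1 := by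
    rw [Nat.card_eq_one_iff_unique]
    refine ⟨⟨fun a b => ?_⟩, ⟨1⟩⟩
    apply Subtype.ext
    rw [lkp_units_pow_eq_one p hp2 a.1 a.2, lkp_units_pow_eq_one p hp2 b.1 b.2]
  rw [hc, hker, hc1, lkp_lfResCard_base, one_mul, pow_one, sq]

end Index

/-! ### Powers of a `p`-th root of unity indexed by `ZMod p` -/

section PowVal

variable {p : ℕ} [Fact p.Prime] {M : Type*} [Monoid M] {ζ : M}

theorem lkp_pow_val_add (hζ : ζ ^ p = 1) (x y : ZMod p) :
    ζ ^ (x + y).val = ζ ^ x.val * ζ ^ y.val := by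
  rw [ZMod.val_add, ← pow_eq_pow_mod _ hζ, pow_add]

theorem lkp_pow_val_mul (hζ : ζ ^ p = 1) (x y : ZMod p) :
    ζ ^ (x * y).val = (ζ ^ x.val) ^ y.val := by
  rw [ZMod.val_mul, ← pow_eq_pow_mod _ hζ, pow_mul]

theorem lkp_pow_val_natCast (hζ : ζ ^ p = 1) (n : ℕ) :
    ζ ^ ((n : ZMod p)).val = ζ ^ n := by
  rw [ZMod.val_natCast, ← pow_eq_pow_mod _ hζ]

end PowVal

/-! ### Hilbert 90 at infinite level: Kummer generators of `ω`-cocycles -/

section H90

variable {p : ℕ} [Fact p.Prime]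

/-- a smooth `ω`-cocycle `f` is of the form `g α = ζ^(f g) α` (Hilbert 90 on a finite Galois
layer containing `ζ`) -/
theorem lkp_exists_root {ζ : PadicAlgCl p} (hζ : IsPrimitiveRoot ζ p)
    (χ : lbGal p → ZMod p) (hχ : ∀ g : lbGal p, g ζ = ζ ^ (χ g).val)
    (f : lbGal p → ZMod p) (hf : IsLC₁ (lbLevels p) f)
    (hcoc : ∀ g h : lbGal p, f (g * h) = χ g * f h + f g) :
    ∃ α : PadicAlgCl p, α ≠ 0 ∧ ∀ g : lbGal p, g α = ζ ^ (f g).val * α := by
  have hp : p.Prime := Fact.out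
  obtain ⟨U, ⟨E, hE, rfl⟩, hfU⟩ := hf
  haveI := hE
  have hζint : IsIntegral ℚ_[p] ζ := Algebra.IsIntegral.isIntegral ζ
  haveI : FiniteDimensional ℚ_[p] ℚ_[p]⟮ζ⟯ := IntermediateField.adjoin.finiteDimensional hζint
  obtain ⟨M, hM⟩ : ∃ M : IntermediateField ℚ_[p] (PadicAlgCl p),
      M = IntermediateField.normalClosure ℚ_[p] ↥(E ⊔ ℚ_[p]⟮ζ⟯) (PadicAlgCl p) := ⟨_, rfl⟩
  have hle : E ⊔ ℚ_[p]⟮ζ⟯ ≤ M := hM ▸ IntermediateField.le_normalClosure _
  have hEM : E ≤ M := le_sup_left.trans hle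
  have hζM : ζ ∈ M := hle (le_sup_right (α := IntermediateField ℚ_[p] (PadicAlgCl p))
    (IntermediateField.mem_adjoin_simple_self ℚ_[p] ζ))
  haveI : FiniteDimensional ℚ_[p] M := hM ▸ inferInstance
  haveI : Normal ℚ_[p] M := hM ▸ inferInstance
  -- restriction to the layer
  have hres : ∀ (g : lbGal p) (x : ↥M),
      ((AlgEquiv.restrictNormalHom (F := ℚ_[p]) (K₁ := PadicAlgCl p) ↥M g x : ↥M) : PadicAlgCl p)
        = g (x : PadicAlgCl p) :=
    fun g x => AlgEquiv.restrictNormal_commutes g ↥M x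
  have hsurj : Function.Surjective
      (AlgEquiv.restrictNormalHom (F := ℚ_[p]) (K₁ := PadicAlgCl p) ↥M) :=
    AlgEquiv.restrictNormalHom_surjective (PadicAlgCl p)
  set res := AlgEquiv.restrictNormalHom (F := ℚ_[p]) (K₁ := PadicAlgCl p) ↥M with hresdef
  -- `f` factors through the layer
  have hfac : ∀ g g' : lbGal p, res g = res g' → f g = f g' := by
    intro g g' h
    have hmem : g⁻¹ * g' ∈ E.fixingSubgroup := by
      rw [IntermediateField.mem_fixingSubgroup_iff]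
      intro x hx
      have h1 : g' x = g x := by
        have h2 := hres g' ⟨x, hEM hx⟩
        rw [← h, hres g ⟨x, hEM hx⟩] at h2
        exact h2.symm
      rw [AlgEquiv.mul_apply, h1, ← AlgEquiv.mul_apply, inv_mul_cancel, AlgEquiv.one_apply]
    have h3 := hfU g (g⁻¹ * g') hmem
    rw [mul_inv_cancel_left] at h3
    exact h3.symm
  have hlift : ∀ τ, res (Function.surjInv hsurj τ) = τ := Function.surjInv_eq hsurj
  -- the multiplicative cocycle
  have hζ0 : ζ ≠ 0 := hζ.ne_zero hp.ne_zero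
  have hζM0 : (⟨ζ, hζM⟩ : ↥M) ≠ 0 := fun h => hζ0 (congrArg Subtype.val h)
  set ζM : (↥M)ˣ := Units.mk0 ⟨ζ, hζM⟩ hζM0 with hζMdef
  have hcoe : ∀ n : ℕ, (((ζM ^ n : (↥M)ˣ) : ↥M) : PadicAlgCl p) = ζ ^ n := by
    intro n
    rw [Units.val_pow_eq_pow_val, SubmonoidClass.coe_pow, hζMdef, Units.val_mk0]
  obtain ⟨β, hβ⟩ := groupCohomology.isMulCoboundary₁_of_isMulCocycle₁_of_aut_to_units
    (fun τ : (↥M ≃ₐ[ℚ_[p]] ↥M) => ζM ^ (f (Function.surjInv hsurj τ)).val) (by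
      intro τ τ'
      have h1 : f (Function.surjInv hsurj (τ * τ'))
          = f (Function.surjInv hsurj τ * Function.surjInv hsurj τ') := by
        apply hfac
        rw [hlift, map_mul, hlift, hlift]
      apply Units.ext
      apply Subtype.ext
      beta_reduce
      rw [Units.val_mul, MulMemClass.coe_mul, hcoe, hcoe, AlgEquiv.smul_units_def, Units.coe_map,
        MonoidHom.coe_coe]
      have hτ : ∀ x : ↥M, ((τ x : ↥M) : PadicAlgCl p)
          = (Function.surjInv hsurj τ) (x : PadicAlgCl p) := by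
        intro x
        rw [← hres, hlift]
      rw [hτ, hcoe, map_pow, hχ, h1, hcoc, lkp_pow_val_add hζ.pow_eq_one,
        lkp_pow_val_mul hζ.pow_eq_one])
  refine ⟨((β : ↥M) : PadicAlgCl p), fun h => β.ne_zero (Subtype.ext h), fun g => ?_⟩
  have h1 := hβ (res g)
  rw [div_eq_iff_eq_mul] at h1
  have h2 := congrArg (fun v : (↥M)ˣ => ((v : ↥M) : PadicAlgCl p)) h1
  simp only [AlgEquiv.smul_units_def, Units.coe_map, MonoidHom.coe_coe, Units.val_mul,
    MulMemClass.coe_mul] at h2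
  rw [hres, hcoe] at h2
  rw [h2, hfac _ g (hlift (res g))]

/-- the `p`-th power of a Kummer generator lies in `ℚ_p` -/
theorem lkp_exists_units {ζ : PadicAlgCl p} (hζ : ζ ^ p = 1) (f : lbGal p → ZMod p)
    {α : PadicAlgCl p} (hα0 : α ≠ 0) (hα : ∀ g : lbGal p, g α = ζ ^ (f g).val * α) :
    ∃ x : ℚ_[p]ˣ, algebraMap ℚ_[p] (PadicAlgCl p) (x : ℚ_[p]) = α ^ p := by
  have h1 : α ^ p ∈ Set.range (algebraMap ℚ_[p] (PadicAlgCl p)) := by
    rw [InfiniteGalois.mem_range_algebraMap_iff_fixed]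
    intro g
    rw [map_pow, hα, mul_pow, ← pow_mul, mul_comm (f g).val p, pow_mul, hζ, one_pow, one_mul]
  obtain ⟨x, hx⟩ := h1
  have hx0 : x ≠ 0 := by
    rintro rfl
    rw [map_zero] at hx
    exact hα0 (pow_eq_zero_iff (Fact.out : p.Prime).ne_zero |>.1 hx.symm)
  exact ⟨Units.mk0 x hx0, hx⟩

end H90

/-! ### Injectivity of the Kummer class -/

section Inj

variable {p : ℕ} [Fact p.Prime]

/-- two `ω`-cocycles whose Kummer generators have `p`-th powers in the same class of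
`ℚ_pˣ/ℚ_pˣᵖ` differ by a coboundary -/
theorem lkp_cobound_of_eq {ζ : PadicAlgCl p} (hζ : IsPrimitiveRoot ζ p)
    (χ : lbGal p → ZMod p) (hχ : ∀ g : lbGal p, g ζ = ζ ^ (χ g).val)
    (f f' : lbGal p → ZMod p) {α α' : PadicAlgCl p} (hα0 : α ≠ 0)
    (hα : ∀ g : lbGal p, g α = ζ ^ (f g).val * α)
    (hα' : ∀ g : lbGal p, g α' = ζ ^ (f' g).val * α')
    (x x' y : ℚ_[p]ˣ) (hx : algebraMap ℚ_[p] (PadicAlgCl p) (x : ℚ_[p]) = α ^ p)
    (hx' : algebraMap ℚ_[p] (PadicAlgCl p) (x' : ℚ_[p]) = α' ^ p) (hy : x' = x * y ^ p) :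
    ∃ m : ZMod p, ∀ g : lbGal p, f g - f' g = χ g * m - m := by
  have hp : p.Prime := Fact.out
  haveI : NeZero p := ⟨hp.ne_zero⟩
  set yΩ : PadicAlgCl p := algebraMap ℚ_[p] (PadicAlgCl p) (y : ℚ_[p]) with hyΩ
  have hyΩ0 : yΩ ≠ 0 := by
    rw [hyΩ, Ne, map_eq_zero]
    exact y.ne_zero
  have hαy0 : α * yΩ ≠ 0 := mul_ne_zero hα0 hyΩ0
  have h1 : α' ^ p = (α * yΩ) ^ p := by
    rw [← hx', hy, Units.val_mul, Units.val_pow_eq_pow_val, map_mul, map_pow, hx, mul_pow]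
  have h2 : (α' / (α * yΩ)) ^ p = 1 := by
    rw [div_pow, h1, div_self (pow_ne_zero _ hαy0)]
  obtain ⟨i, -, hi⟩ := hζ.eq_pow_of_pow_eq_one h2
  have h3 : α' = ζ ^ i * (α * yΩ) := by
    rw [hi, div_mul_cancel₀ _ hαy0]
  refine ⟨-(i : ZMod p), fun g => ?_⟩
  have hgy : g yΩ = yΩ := g.commutes _
  have h4 := hα' g
  rw [h3, map_mul, map_mul, map_pow, hχ, hα, hgy] at h4
  have h5 : (ζ ^ (χ g).val) ^ i * ζ ^ (f g).val = ζ ^ (f' g).val * ζ ^ i := by
    apply mul_right_cancel₀ hαy0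
    linear_combination h4
  have h6 : (ζ ^ (χ g).val) ^ p = 1 := by
    rw [← pow_mul, mul_comm, pow_mul, hζ.pow_eq_one, one_pow]
  rw [← lkp_pow_val_natCast (p := p) h6 i, ← lkp_pow_val_mul hζ.pow_eq_one,
    ← lkp_pow_val_add hζ.pow_eq_one, ← lkp_pow_val_natCast (p := p) hζ.pow_eq_one i,
    ← lkp_pow_val_add hζ.pow_eq_one] at h5
  have h7 : χ g * (i : ZMod p) + f g = f' g + (i : ZMod p) :=
    ZMod.val_injective p (hζ.pow_inj (ZMod.val_lt _) (ZMod.val_lt _) h5)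
  linear_combination h7

end Inj

/-! ### The count -/

section Count

theorem loc_kummerP_card_le (p : ℕ) [Fact p.Prime] (hp2 : p ≠ 2)
    {k : Type*} [CommRing k] {W : Type*} [AddCommGroup W] [Module k W] [Finite W]
    (hpW : ∀ w : W, p • w = 0)
    (ρ : Representation k (lbGal p) W)
    (hρ : ∀ (g : lbGal p) (a : ℕ), (∀ ζ : PadicAlgCl p, ζ ^ p = 1 → g ζ = ζ ^ a) →
      ∀ w : W, ρ g w = a • w) :
    Finite (smH1 (lbLevels p) ρ) ∧ Nat.card (smH1 (lbLevels p) ρ) ≤ Nat.card W ^ 2 := by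
  have hp : p.Prime := Fact.out
  haveI : NeZero p := ⟨hp.ne_zero⟩
  haveI : CharZero (PadicAlgCl p) :=
    charZero_of_injective_algebraMap (algebraMap ℚ_[p] (PadicAlgCl p)).injective
  haveI : NeZero ((p : ℕ) : PadicAlgCl p) := ⟨Nat.cast_ne_zero.2 hp.ne_zero⟩
  obtain ⟨ζ, hζ⟩ : ∃ ζ : PadicAlgCl p, IsPrimitiveRoot ζ p :=
    HasEnoughRootsOfUnity.exists_primitiveRoot _ _
  -- the cyclotomic exponents
  have hex : ∀ g : lbGal p, ∃ a : ℕ, g ζ = ζ ^ a := by
    intro g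
    have h1 : (g ζ) ^ p = 1 := by rw [← map_pow, hζ.pow_eq_one, map_one]
    obtain ⟨i, -, hi⟩ := hζ.eq_pow_of_pow_eq_one h1
    exact ⟨i, hi.symm⟩
  choose a ha using hex
  have hall : ∀ (g : lbGal p) (ξ : PadicAlgCl p), ξ ^ p = 1 → g ξ = ξ ^ (a g) := by
    intro g ξ hξ
    obtain ⟨i, -, rfl⟩ := hζ.eq_pow_of_pow_eq_one hξ
    rw [map_pow, ha, ← pow_mul, ← pow_mul, mul_comm]
  have hact : ∀ (g : lbGal p) (w : W), ρ g w = a g • w := fun g => hρ g (a g) (hall g)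
  obtain ⟨χ, hχdef⟩ : ∃ χ : lbGal p → ZMod p, χ = fun g => ((a g : ℕ) : ZMod p) := ⟨_, rfl⟩
  have hχ : ∀ g : lbGal p, g ζ = ζ ^ (χ g).val := fun g => by
    rw [hχdef, lkp_pow_val_natCast hζ.pow_eq_one, ha]
  -- the `ZMod p`-structure on `W` and coordinates
  haveI : Module (ZMod p) W := AddCommGroup.zmodModule hpW
  haveI : Module.Finite (ZMod p) W := Module.Finite.of_finite
  obtain ⟨n, hn⟩ : ∃ n : ℕ, n = Module.finrank (ZMod p) W := ⟨_, rfl⟩
  have b : Module.Basis (Fin n) (ZMod p) W := by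
    rw [hn]
    exact Module.finBasis (ZMod p) W
  have hcardW : Nat.card W = p ^ n := by
    rw [Module.natCard_eq_pow_finrank (K := ZMod p) (V := W), Nat.card_zmod, hn]
  have hfLC : ∀ (c : ↥(smZ1 (lbLevels p) ρ)) (i : Fin n),
      IsLC₁ (lbLevels p) (fun g => b.equivFun ((c : lbGal p → W) g) i) :=
    fun c i => (c.2.2 : IsLC₁ (lbLevels p) (c : lbGal p → W)).comp (fun w => b.equivFun w i)
  have hfcoc : ∀ (c : ↥(smZ1 (lbLevels p) ρ)) (i : Fin n) (g h : lbGal p),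
      b.equivFun ((c : lbGal p → W) (g * h)) i
        = χ g * b.equivFun ((c : lbGal p → W) h) i + b.equivFun ((c : lbGal p → W) g) i := by
    intro c i g h
    have h1 : dd1 ρ (c : lbGal p → W) = 0 := c.2.1
    have h2 : ρ g ((c : lbGal p → W) h) - (c : lbGal p → W) (g * h) + (c : lbGal p → W) g = 0 :=
      congrFun h1 (g, h)
    rw [hact] at h2
    have h3 : (c : lbGal p → W) (g * h) = a g • (c : lbGal p → W) h + (c : lbGal p → W) g := by
      rw [sub_add_eq_add_sub, sub_eq_zero] at h2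
      exact h2.symm
    rw [h3, map_add, map_nsmul, Pi.add_apply, Pi.smul_apply, nsmul_eq_mul, hχdef]
  -- Kummer generators
  have hroot : ∀ (c : ↥(smZ1 (lbLevels p) ρ)) (i : Fin n), ∃ (x : ℚ_[p]ˣ) (α : PadicAlgCl p),
      α ≠ 0 ∧ (∀ g : lbGal p, g α = ζ ^ (b.equivFun ((c : lbGal p → W) g) i).val * α) ∧
        algebraMap ℚ_[p] (PadicAlgCl p) (x : ℚ_[p]) = α ^ p := by
    intro c i
    obtain ⟨α, hα0, hα⟩ := lkp_exists_root hζ χ hχ _ (hfLC c i) (hfcoc c i)
    obtain ⟨x, hx⟩ := lkp_exists_units hζ.pow_eq_one _ hα0 hα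
    exact ⟨x, α, hα0, hα, hx⟩
  choose X A hA0 hA hXA using hroot
  -- the quotient `ℚ_pˣ/p`
  have hindex := lkp_index_pow p hp2
  haveI : (powMonoidHom p : ℚ_[p]ˣ →* ℚ_[p]ˣ).range.FiniteIndex :=
    ⟨by rw [hindex]; exact pow_ne_zero _ hp.ne_zero⟩
  haveI : Finite (ℚ_[p]ˣ ⧸ (powMonoidHom p : ℚ_[p]ˣ →* ℚ_[p]ˣ).range) :=
    Subgroup.finite_quotient_of_finiteIndex
  have hsurjπ : Function.Surjective (smH1π (lbLevels p) ρ) := Submodule.mkQ_surjective _
  obtain ⟨out, hout⟩ : ∃ out : smH1 (lbLevels p) ρ → ↥(smZ1 (lbLevels p) ρ),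
      ∀ h, smH1π (lbLevels p) ρ (out h) = h :=
    ⟨Function.surjInv hsurjπ, Function.surjInv_eq hsurjπ⟩
  -- the injection
  have hinj : Function.Injective (fun (h : smH1 (lbLevels p) ρ) (i : Fin n) =>
      (QuotientGroup.mk (X (out h) i) :
        ℚ_[p]ˣ ⧸ (powMonoidHom p : ℚ_[p]ˣ →* ℚ_[p]ˣ).range)) := by
    intro h h' hhh'
    have hcob : ∀ i : Fin n, ∃ m : ZMod p, ∀ g : lbGal p,
        b.equivFun ((out h : lbGal p → W) g) i
          - b.equivFun ((out h' : lbGal p → W) g) i = χ g * m - m := by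
      intro i
      have h1 := congrFun hhh' i
      rw [QuotientGroup.eq] at h1
      obtain ⟨y, hy⟩ := h1
      rw [powMonoidHom_apply] at hy
      refine lkp_cobound_of_eq hζ χ hχ _ _ (hA0 _ i) (hA _ i) (hA _ i) _ _ y (hXA _ i) (hXA _ i) ?_
      rw [hy, mul_inv_cancel_left]
    choose m hm using hcob
    rw [← hout h, ← hout h']
    refine (Submodule.Quotient.eq _).2 ?_
    rw [Submodule.mem_comap, mem_smB1]
    refine ⟨b.equivFun.symm m, ?_⟩
    funext g
    apply b.equivFun.injective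
    funext i
    show b.equivFun (ρ g (b.equivFun.symm m) - b.equivFun.symm m) i
      = b.equivFun ((out h : lbGal p → W) g - (out h' : lbGal p → W) g) i
    rw [hact, map_sub, map_sub, map_nsmul, LinearEquiv.apply_symm_apply, Pi.sub_apply,
      Pi.sub_apply, Pi.smul_apply, hm i g, nsmul_eq_mul, hχdef]
  refine ⟨Finite.of_injective _ hinj, ?_⟩
  haveI := Finite.of_injective _ hinj
  refine (Nat.card_le_card_of_injective _ hinj).trans ?_
  rw [Nat.card_fun, Nat.card_fin, ← Subgroup.index_eq_card, hindex, hcardW, ← pow_mul, ← pow_mul,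
    mul_comm]

/-- the `finrank` form over a finite field of characteristic `p`, `ω` the mod `p` cyclotomic
character (`hω` as in `loc_ord_finrank_le`): `h¹(ℚ_p, W(ω)) ≤ 2 dim W` -/
theorem loc_kummerP_finrank_le (p : ℕ) [Fact p.Prime] (hp2 : p ≠ 2)
    {k : Type*} [Field k] [CharP k p] [Finite k] {W : Type*} [AddCommGroup W] [Module k W]
    [FiniteDimensional k W]
    (ρ : Representation k (lbGal p) W) (ω : lbGal p →* kˣ)
    (hω : ∀ (g : lbGal p) (a : ℕ), (∀ ζ : PadicAlgCl p, ζ ^ p = 1 → g ζ = ζ ^ a) →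
      ((ω g : kˣ) : k) = (a : k))
    (hρ : ∀ (g : lbGal p) (w : W), ρ g w = ((ω g : kˣ) : k) • w) :
    FiniteDimensional k (smH1 (lbLevels p) ρ) ∧
      Module.finrank k (smH1 (lbLevels p) ρ) ≤ 2 * Module.finrank k W := by
  haveI : Finite W := Module.finite_of_finite k
  have hpW : ∀ w : W, p • w = 0 := fun w => by
    rw [← Nat.cast_smul_eq_nsmul k, CharP.cast_eq_zero, zero_smul]
  obtain ⟨hfin, hcard⟩ := loc_kummerP_card_le p hp2 hpW ρ (fun g a ha w => by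
    rw [hρ, hω g a ha, Nat.cast_smul_eq_nsmul])
  haveI := hfin
  haveI : Module.Finite k (smH1 (lbLevels p) ρ) := Module.Finite.of_finite
  refine ⟨inferInstance, ?_⟩
  rw [Module.natCard_eq_pow_finrank (K := k) (V := smH1 (lbLevels p) ρ),
    Module.natCard_eq_pow_finrank (K := k) (V := W), ← pow_mul] at hcard
  have h1 : 1 < Nat.card k := Finite.one_lt_card
  rw [mul_comm]
  exact (Nat.pow_le_pow_iff_right h1).1 hcard

end Count

end Fermat.Agent.S56
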