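/-
S56 / LOC: the definitions of the strict-ordinary count C5 (`ordLine`, `ordClasses`), moved verbatim
out of `Loc/Spec.lean` so that the leaf file `Loc/OrdCount.lean` can import them.
-/
import Fermat.Agent.S56.Loc.Defs

set_option autoImplicit false

namespace Fermat.Agent.S56

open Fermat.Agent.S55

section Ordinary

variable {k : Type} [Field k] {V : Type} [AddCommGroup V] [Module k V]

/-- the endomorphisms `X` with `X V ⊆ L` and `X L = 0` (`= Hom(V/L, L)`) -/
noncomputable def ordLine (L : Submodule k V) : Submodule k ↥(ad0Space k V) where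
  carrier := {X | LinearMap.range (X : Module.End k V) ≤ L ∧ L ≤ LinearMap.ker (X : Module.End k V)}
  add_mem' := by
    rintro X Y ⟨h1, h2⟩ ⟨h1', h2'⟩
    refine ⟨?_, fun v hv => ?_⟩
    · rintro _ ⟨v, rfl⟩
      exact L.add_mem (h1 ⟨v, rfl⟩) (h1' ⟨v, rfl⟩)
    · rw [LinearMap.mem_ker]
      show (X : Module.End k V) v + (Y : Module.End k V) v = 0
      rw [LinearMap.mem_ker.1 (h2 hv), LinearMap.mem_ker.1 (h2' hv), add_zero]
  zero_mem' := ⟨by rintro _ ⟨v, rfl⟩; exact L.zero_mem, fun v _ => rfl⟩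
  smul_mem' := by
    rintro a X ⟨h1, h2⟩
    refine ⟨?_, fun v hv => ?_⟩
    · rintro _ ⟨v, rfl⟩
      exact L.smul_mem a (h1 ⟨v, rfl⟩)
    · rw [LinearMap.mem_ker]
      show a • (X : Module.End k V) v = 0
      rw [LinearMap.mem_ker.1 (h2 hv), smul_zero]

/-- the classes with a cocycle representative with values in `ordLine L` -/
noncomputable def ordClasses {G : Type*} [Group G] (𝓛 : Levels G) (ρ : Representation k G V)
    (L : Submodule k V) : Submodule k (smH1 𝓛 (ad0Rep ρ)) :=
  Submodule.map (smH1π 𝓛 (ad0Rep ρ))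
    { carrier := {c | ∀ σ, (c : G → ↥(ad0Space k V)) σ ∈ ordLine L}
      add_mem' := fun h h' σ => (ordLine L).add_mem (h σ) (h' σ)
      zero_mem' := fun _ => (ordLine L).zero_mem
      smul_mem' := fun a _ h σ => (ordLine L).smul_mem a (h σ) }

end Ordinary

end Fermat.Agent.S56
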