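/-
S56 / LOC, leaf C5 (row 464, helper22): the strict-ordinary count at `p`:
`dim (classes with a cocycle representative with values in Hom(V/L, L)) ≤ h⁰(ad⁰) + 1`.
By hand (no long exact sequence, no quotient modules): `W₀ = ordLine L` is the `ω`-line, so the
cocycles with values in `W₀` embed into `Z¹(G_p, k(ω))`, of dimension `≤ h¹ + dim B¹ ≤ 2 + 1`
(C5a, `loc_kummerP_finrank_le`); the classes are `Z_o / (Z_o ∩ B¹(ad⁰))` and
`Z_o ∩ B¹(ad⁰) ⊇ d(N)`, `N = {m ∈ ad⁰ | g m - m ∈ W₀}` `⊇ W₀ + k X₀`, `ker d = H⁰(ad⁰)`.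
Helper lemmas are prefixed `locord`.
-/
import Fermat.Agent.S56.Loc.OrdDefs
import Fermat.Agent.S56.Loc.KummerP
import Fermat.Agent.S55.Top.Smooth

set_option autoImplicit false
set_option linter.unusedVariables false
set_option linter.unusedSectionVars false
set_option linter.style.haveILetI false

namespace Fermat.Agent.S56

open Fermat.Agent.S55 Module

/-! ### linear algebra of a line in a plane -/

section Line

variable {k : Type} [Field k] {V : Type} [AddCommGroup V] [Module k V] [FiniteDimensional k V]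

theorem locord_mem_ordLine_iff (L : Submodule k V) (X : ↥(ad0Space k V)) :
    X ∈ ordLine L ↔ LinearMap.range (X : Module.End k V) ≤ L ∧
      L ≤ LinearMap.ker (X : Module.End k V) := Iff.rfl

/-- a basis-free description of a line in a plane: `e₁ ∈ L`, `e₂ ∉ L`, `f` with kernel `L`,
`f e₂ = 1` -/
theorem locord_exists_data (hV : finrank k V = 2) (L : Submodule k V) (hL1 : finrank k ↥L = 1) :
    ∃ (e1 e2 : V) (f : Module.Dual k V), e1 ∈ L ∧ e1 ≠ 0 ∧ e2 ∉ L ∧ f e2 = 1 ∧
      LinearMap.ker f = L := by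
  have hne : L ≠ ⊤ := by
    intro h
    rw [h, finrank_top, hV] at hL1
    omega
  obtain ⟨e2, -, he2⟩ := SetLike.exists_of_lt (lt_top_iff_ne_top.2 hne)
  obtain ⟨f, hfe, hfL⟩ := Submodule.exists_dual_map_eq_bot_of_notMem he2 inferInstance
  obtain ⟨v, hv0, -⟩ := finrank_eq_one_iff'.1 hL1
  have hfL' : ∀ ℓ ∈ L, f ℓ = 0 := by
    intro ℓ hℓ
    have : f ℓ ∈ L.map f := Submodule.mem_map_of_mem hℓ
    rw [hfL, Submodule.mem_bot] at this
    exact this
  set f' : Module.Dual k V := (f e2)⁻¹ • f with hf'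
  have hf'e : f' e2 = 1 := by
    rw [hf', LinearMap.smul_apply, smul_eq_mul, inv_mul_cancel₀ hfe]
  have hf'0 : f' ≠ 0 := by
    intro h
    rw [h, LinearMap.zero_apply] at hf'e
    exact zero_ne_one hf'e
  have hle : L ≤ LinearMap.ker f' := by
    intro ℓ hℓ
    rw [LinearMap.mem_ker, hf', LinearMap.smul_apply, hfL' ℓ hℓ, smul_zero]
  have hfr : finrank k ↥(LinearMap.ker f') = 1 := by
    have := Module.Dual.finrank_ker_add_one_of_ne_zero hf'0
    omega
  refine ⟨(v : V), e2, f', v.2, fun h => hv0 (Subtype.ext h), he2, hf'e, ?_⟩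
  exact (Submodule.eq_of_le_of_finrank_eq hle (by rw [hL1, hfr])).symm

/-- `ordLine L = Hom(V/L, L)` has dimension `≤ 1` -/
theorem locord_finrank_ordLine_le (hV : finrank k V = 2) (L : Submodule k V)
    (hL1 : finrank k ↥L = 1) : finrank k ↥(ordLine L) ≤ 1 := by
  obtain ⟨e1, e2, f, he1, he10, he2, hfe, hker⟩ := locord_exists_data hV L hL1
  haveI : FiniteDimensional k ↥L := inferInstance
  let ev : ↥(ordLine L) →ₗ[k] ↥L :=
    { toFun := fun X => ⟨((X : ↥(ad0Space k V)) : Module.End k V) e2,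
        ((locord_mem_ordLine_iff L X.1).1 X.2).1 ⟨e2, rfl⟩⟩
      map_add' := fun X Y => rfl
      map_smul' := fun a X => rfl }
  have hinj : Function.Injective ev := by
    rw [injective_iff_map_eq_zero]
    intro X hX
    have hX0 : ((X : ↥(ad0Space k V)) : Module.End k V) e2 = 0 := congrArg Subtype.val hX
    apply Subtype.ext
    apply Subtype.ext
    apply LinearMap.ext
    intro v
    have hv : v - f v • e2 ∈ L := by
      rw [← hker, LinearMap.mem_ker, map_sub, map_smul, hfe, smul_eq_mul, mul_one, sub_self]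
    have h1 := LinearMap.mem_ker.1 (((locord_mem_ordLine_iff L X.1).1 X.2).2 hv)
    rw [map_sub, map_smul, hX0, smul_zero, sub_zero] at h1
    rw [h1]
    rfl
  have := LinearMap.finrank_le_finrank_of_injective hinj
  rwa [hL1] at this

/-- the two independent endomorphisms: `X₁ ∈ ordLine L` nonzero and `X₀` acting as `+1` on `L` and
as `-1` on `V/L` -/
theorem locord_exists_pair (hV : finrank k V = 2) (L : Submodule k V) (hL1 : finrank k ↥L = 1) :
    ∃ X1 X0 : ↥(ad0Space k V), X1 ∈ ordLine L ∧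
      (∀ ℓ ∈ L, (X0 : Module.End k V) ℓ = ℓ) ∧ (∀ v : V, (X0 : Module.End k V) v + v ∈ L) ∧
      ∀ s t : k, s • X1 + t • X0 = 0 → s = 0 ∧ t = 0 := by
  obtain ⟨e1, e2, f, he1, he10, he2, hfe, hker⟩ := locord_exists_data hV L hL1
  have hfe1 : f e1 = 0 := by
    have : e1 ∈ LinearMap.ker f := hker ▸ he1
    exact LinearMap.mem_ker.1 this
  have hdec : ∀ v : V, v - f v • e2 ∈ L := fun v => by
    rw [← hker, LinearMap.mem_ker, map_sub, map_smul, hfe, smul_eq_mul, mul_one, sub_self]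
  -- `X₁ v = f v • e₁`
  have hX1tr : LinearMap.trace k V (f.smulRight e1) = 0 := by
    rw [LinearMap.trace_smulRight, hfe1]
  -- `X₀ v = v - 2 f v • e₂`
  have hX0tr : LinearMap.trace k V (LinearMap.id - (2 : k) • f.smulRight e2) = 0 := by
    rw [map_sub, map_smul, LinearMap.trace_smulRight, LinearMap.trace_id, hV, hfe, smul_eq_mul,
      mul_one]
    norm_num
  refine ⟨⟨f.smulRight e1, (mem_ad0Space _).2 hX1tr⟩,
    ⟨LinearMap.id - (2 : k) • f.smulRight e2, (mem_ad0Space _).2 hX0tr⟩, ?_, ?_, ?_, ?_⟩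
  · rw [locord_mem_ordLine_iff]
    constructor
    · rintro _ ⟨v, rfl⟩
      show (f.smulRight e1) v ∈ L
      rw [LinearMap.smulRight_apply]
      exact L.smul_mem _ he1
    · intro ℓ hℓ
      rw [LinearMap.mem_ker]
      show (f.smulRight e1) ℓ = 0
      have : f ℓ = 0 := LinearMap.mem_ker.1 (hker ▸ hℓ)
      rw [LinearMap.smulRight_apply, this, zero_smul]
  · intro ℓ hℓ
    have : f ℓ = 0 := LinearMap.mem_ker.1 (hker ▸ hℓ)
    show ((LinearMap.id - (2 : k) • f.smulRight e2 : Module.End k V)) ℓ = ℓ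
    rw [LinearMap.sub_apply, LinearMap.smul_apply, LinearMap.smulRight_apply, this, zero_smul,
      smul_zero, sub_zero]
    rfl
  · intro v
    show ((LinearMap.id - (2 : k) • f.smulRight e2 : Module.End k V)) v + v ∈ L
    rw [LinearMap.sub_apply, LinearMap.smul_apply, LinearMap.smulRight_apply, LinearMap.id_apply]
    have h1 : v - (2 : k) • f v • e2 + v = (2 : k) • (v - f v • e2) := by
      rw [smul_sub, two_smul k v]
      abel
    rw [h1]
    exact L.smul_mem _ (hdec v)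
  · intro s t hst
    have h0 : ((s • (⟨f.smulRight e1, (mem_ad0Space _).2 hX1tr⟩ : ↥(ad0Space k V)) +
        t • (⟨LinearMap.id - (2 : k) • f.smulRight e2, (mem_ad0Space _).2 hX0tr⟩ :
          ↥(ad0Space k V)) : ↥(ad0Space k V)) : Module.End k V) = 0 := by
      rw [hst]
      rfl
    have h1 := LinearMap.congr_fun h0 e1
    have h2 := LinearMap.congr_fun h0 e2
    simp only [Submodule.coe_add, Submodule.coe_smul, LinearMap.add_apply, LinearMap.smul_apply,
      LinearMap.smulRight_apply, LinearMap.sub_apply, LinearMap.id_apply, hfe1, hfe, zero_smul,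
      smul_zero, sub_zero, zero_add, one_smul, LinearMap.zero_apply] at h1 h2
    have ht : t = 0 := by
      rcases smul_eq_zero.1 h1 with h | h
      · exact h
      · exact absurd h he10
    rw [ht, zero_smul, add_zero] at h2
    have hs : s = 0 := by
      rcases smul_eq_zero.1 h2 with h | h
      · exact h
      · exact absurd h he10
    exact ⟨hs, ht⟩

end Line

/-! ### the group action -/

section Group

variable {k : Type} [Field k] {V : Type} [AddCommGroup V] [Module k V] [FiniteDimensional k V]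
  {G : Type*} [Group G] (𝓛 : Levels G) (ρ : Representation k G V) (L : Submodule k V)
  (ω d : G →* kˣ)
  (hL : ∀ g, ∀ v ∈ L, ρ g v = (((ω g * d g : kˣ) : kˣ) : k) • v)
  (hQ : ∀ g v, ρ g v - ((d g : kˣ) : k) • v ∈ L)

theorem locord_rho_mul_inv (g : G) (v : V) : ρ g (ρ g⁻¹ v) = v := by
  rw [← Module.End.mul_apply, ← map_mul, mul_inv_cancel, map_one, Module.End.one_apply]

include hL in
theorem locord_rho_mem (g : G) {v : V} (hv : v ∈ L) : ρ g v ∈ L := by
  rw [hL g v hv]
  exact L.smul_mem _ hv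

include hL hQ in
/-- (K): `G` acts on `ordLine L = Hom(V/L, L)` through `ω` -/
theorem locord_conj_eq (g : G) (X : ↥(ad0Space k V)) (hX : X ∈ ordLine L) :
    ad0Rep ρ g X = ((ω g : kˣ) : k) • X := by
  obtain ⟨hXr, hXk⟩ := (locord_mem_ordLine_iff L X).1 hX
  apply Subtype.ext
  apply LinearMap.ext
  intro v
  show ρ g ((X : Module.End k V) (ρ g⁻¹ v)) = ((ω g : kˣ) : k) • (X : Module.End k V) v
  have h1 : (X : Module.End k V) (ρ g⁻¹ v) = ((d g⁻¹ : kˣ) : k) • (X : Module.End k V) v := by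
    have := LinearMap.mem_ker.1 (hXk (hQ g⁻¹ v))
    rw [map_sub, map_smul, sub_eq_zero] at this
    exact this
  have h2 : ρ g ((X : Module.End k V) v) =
      (((ω g * d g : kˣ) : kˣ) : k) • (X : Module.End k V) v := hL g _ (hXr ⟨v, rfl⟩)
  rw [h1, map_smul, h2, smul_smul, ← Units.val_mul]
  congr 2
  rw [map_inv, mul_comm (ω g) (d g), ← mul_assoc, inv_mul_cancel, one_mul]

/-- the cocycles with values in `ordLine L` -/
def locordZ : Submodule k ↥(smZ1 𝓛 (ad0Rep ρ)) where
  carrier := {c | ∀ σ, (c : G → ↥(ad0Space k V)) σ ∈ ordLine L}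
  add_mem' := fun h h' σ => (ordLine L).add_mem (h σ) (h' σ)
  zero_mem' := fun _ => (ordLine L).zero_mem
  smul_mem' := fun a _ h σ => (ordLine L).smul_mem a (h σ)

theorem ordClasses_eq_map : ordClasses 𝓛 ρ L = (locordZ 𝓛 ρ L).map (smH1π 𝓛 (ad0Rep ρ)) := rfl

/-- the elements of `ad⁰` which are invariant modulo `ordLine L` -/
def locordN : Submodule k ↥(ad0Space k V) where
  carrier := {m | ∀ g, ad0Rep ρ g m - m ∈ ordLine L}
  add_mem' := by
    intro m m' h h' g
    have : ad0Rep ρ g (m + m') - (m + m') = (ad0Rep ρ g m - m) + (ad0Rep ρ g m' - m') := by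
      rw [map_add]
      abel
    rw [this]
    exact (ordLine L).add_mem (h g) (h' g)
  zero_mem' := fun g => by
    rw [map_zero, sub_zero]
    exact (ordLine L).zero_mem
  smul_mem' := by
    intro a m h g
    have : ad0Rep ρ g (a • m) - a • m = a • (ad0Rep ρ g m - m) := by
      rw [map_smul, smul_sub]
    rw [this]
    exact (ordLine L).smul_mem a (h g)

include hL hQ in
theorem locord_ordLine_le_N : ordLine L ≤ locordN ρ L := by
  intro X hX g
  rw [locord_conj_eq ρ L ω d hL hQ g X hX]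
  have : ((ω g : kˣ) : k) • X - X = (((ω g : kˣ) : k) - 1) • X := by
    module
  rw [this]
  exact (ordLine L).smul_mem _ hX

include hL in
theorem locord_X0_mem_N (X0 : ↥(ad0Space k V))
    (h1 : ∀ ℓ ∈ L, (X0 : Module.End k V) ℓ = ℓ) (h2 : ∀ v : V, (X0 : Module.End k V) v + v ∈ L) :
    X0 ∈ locordN ρ L := by
  intro g
  rw [locord_mem_ordLine_iff]
  constructor
  · rintro _ ⟨v, rfl⟩
    show ρ g ((X0 : Module.End k V) (ρ g⁻¹ v)) - (X0 : Module.End k V) v ∈ L
    have e : ρ g ((X0 : Module.End k V) (ρ g⁻¹ v)) - (X0 : Module.End k V) v =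
        ρ g ((X0 : Module.End k V) (ρ g⁻¹ v) + ρ g⁻¹ v) - ((X0 : Module.End k V) v + v) := by
      rw [map_add, locord_rho_mul_inv]
      abel
    rw [e]
    exact L.sub_mem (locord_rho_mem ρ L ω d hL g (h2 _)) (h2 v)
  · intro ℓ hℓ
    rw [LinearMap.mem_ker]
    show ρ g ((X0 : Module.End k V) (ρ g⁻¹ ℓ)) - (X0 : Module.End k V) ℓ = 0
    rw [h1 _ (locord_rho_mem ρ L ω d hL g⁻¹ hℓ), locord_rho_mul_inv, h1 ℓ hℓ, sub_self]

include hL hQ in
/-- `dim N ≥ 2` -/
theorem locord_two_le_finrank_N (hV : finrank k V = 2) (hL1 : finrank k ↥L = 1) :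
    2 ≤ finrank k ↥(locordN ρ L) := by
  obtain ⟨X1, X0, hX1, h1, h2, hind⟩ := locord_exists_pair hV L hL1
  have hX1N : X1 ∈ locordN ρ L := locord_ordLine_le_N ρ L ω d hL hQ hX1
  have hX0N : X0 ∈ locordN ρ L := locord_X0_mem_N ρ L ω d hL X0 h1 h2
  have hli : LinearIndependent k ![(⟨X1, hX1N⟩ : ↥(locordN ρ L)), ⟨X0, hX0N⟩] := by
    refine (LinearIndependent.pair_iff (R := k) (M := ↥(locordN ρ L))
      (x := (⟨X1, hX1N⟩ : ↥(locordN ρ L))) (y := ⟨X0, hX0N⟩)).2 ?_
    intro s t hst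
    apply hind s t
    have := congrArg Subtype.val hst
    exact this
  have := hli.fintype_card_le_finrank
  simpa using this

end Group

/-! ### the count -/

section Count

variable {k : Type} [Field k] {V : Type} [AddCommGroup V] [Module k V] [FiniteDimensional k V]
  {G : Type*} [Group G] (𝓛 : Levels G) (ρ : Representation k G V) (L : Submodule k V)
  (ω d : G →* kˣ)
  (hL : ∀ g, ∀ v ∈ L, ρ g v = (((ω g * d g : kˣ) : kˣ) : k) • v)
  (hQ : ∀ g v, ρ g v - ((d g : kˣ) : k) • v ∈ L)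

/-- the `ω`-line as a representation -/
noncomputable def locordRep : Representation k G ↥(ordLine L) :=
  twRep (V := ↥(ordLine L)) ω 1

theorem locordRep_apply (g : G) (w : ↥(ordLine L)) :
    locordRep L ω g w = ((ω g : kˣ) : k) • w := rfl

/-- smoothness of `ad⁰` -/
theorem locord_ad0_isSmooth (hρ : IsSmoothRep 𝓛 ρ) : IsSmoothRep 𝓛 (ad0Rep ρ) := by
  obtain ⟨U, hU, -, htriv⟩ := hρ.exists_level_trivial
  intro X
  refine ⟨U, hU, fun s hs => ?_⟩
  apply Subtype.ext
  show ρ s * (X : Module.End k V) * ρ s⁻¹ = (X : Module.End k V)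
  rw [htriv s hs, htriv s⁻¹ (U.inv_mem hs), one_mul, mul_one]

include hL hQ in
/-- a cocycle with values in `ordLine L` is a cocycle of the `ω`-line -/
theorem locord_restrict_mem (c : ↥(locordZ 𝓛 ρ L)) :
    (fun g => (⟨((c : ↥(smZ1 𝓛 (ad0Rep ρ))) : G → ↥(ad0Space k V)) g, c.2 g⟩ : ↥(ordLine L))) ∈
      smZ1 (k := k) (V := ↥(ordLine L)) 𝓛 (locordRep L ω) := by
  obtain ⟨hc1, hc2⟩ := (mem_smZ1 𝓛 (ad0Rep ρ) _).1 (c : ↥(smZ1 𝓛 (ad0Rep ρ))).2
  rw [mem_smZ1]
  constructor
  · funext ⟨g, h⟩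
    rw [dd1_apply, Pi.zero_apply]
    apply Subtype.ext
    have h1 := congrFun hc1 (g, h)
    rw [dd1_apply, Pi.zero_apply, locord_conj_eq ρ L ω d hL hQ g _ (c.2 h)] at h1
    exact h1
  · obtain ⟨U, hU, hc⟩ := hc2
    exact ⟨U, hU, fun g s hs => Subtype.ext (hc g s hs)⟩

/-- the embedding of the cocycles with values in `ordLine L` into the cocycles of the `ω`-line -/
noncomputable def locordPhi :
    ↥(locordZ 𝓛 ρ L) →ₗ[k] ↥(smZ1 (k := k) (V := ↥(ordLine L)) 𝓛 (locordRep L ω)) where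
  toFun c := ⟨_, locord_restrict_mem 𝓛 ρ L ω d hL hQ c⟩
  map_add' _ _ := rfl
  map_smul' _ _ := rfl

theorem locordPhi_injective : Function.Injective (locordPhi 𝓛 ρ L ω d hL hQ) := by
  intro c c' h
  apply Subtype.ext
  apply Subtype.ext
  funext g
  have h1 := congrFun (congrArg Subtype.val h) g
  exact congrArg Subtype.val h1

/-- `dim Z¹(G, W) ≤ dim H¹(G, W) + dim W` -/
theorem locord_finrank_smZ1_le {W : Type} [AddCommGroup W] [Module k W] [FiniteDimensional k W]
    (ρW : Representation k G W) [FiniteDimensional k (smH1 𝓛 ρW)] :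
    FiniteDimensional k ↥(smZ1 𝓛 ρW) ∧
      finrank k ↥(smZ1 𝓛 ρW) ≤ finrank k (smH1 𝓛 ρW) + finrank k W := by
  set ℬ : Submodule k ↥(smZ1 𝓛 ρW) := (smB1 ρW).comap (smZ1 𝓛 ρW).subtype with hℬ
  let ι : ↥ℬ →ₗ[k] ↥(LinearMap.range (dd0 ρW)) :=
    { toFun := fun b => ⟨((b : ↥(smZ1 𝓛 ρW)) : G → W), b.2⟩
      map_add' := fun _ _ => rfl
      map_smul' := fun _ _ => rfl }
  have hι : Function.Injective ι := by
    intro b b' h
    apply Subtype.ext
    apply Subtype.ext
    exact congrArg (fun x : ↥(LinearMap.range (dd0 ρW)) => (x : G → W)) h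
  haveI : FiniteDimensional k ↥ℬ := FiniteDimensional.of_injective ι hι
  have h1 : finrank k ↥ℬ ≤ finrank k W :=
    (LinearMap.finrank_le_finrank_of_injective hι).trans (LinearMap.finrank_range_le _)
  haveI : Module.Finite k (↥(smZ1 𝓛 ρW) ⧸ ℬ) := inferInstanceAs (Module.Finite k (smH1 𝓛 ρW))
  haveI : FiniteDimensional k ↥(smZ1 𝓛 ρW) := Module.Finite.of_submodule_quotient ℬ
  refine ⟨inferInstance, ?_⟩
  have h2 := Submodule.finrank_quotient_add_finrank ℬ
  have h3 : finrank k (↥(smZ1 𝓛 ρW) ⧸ ℬ) = finrank k (smH1 𝓛 ρW) := rfl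
  omega

set_option maxSynthPendingDepth 3 in
include hL hQ in
/-- the abstract form of C5 -/
theorem locord_finrank_le_of (hρ : IsSmoothRep 𝓛 ρ) (hV : finrank k V = 2)
    (hL1 : finrank k ↥L = 1)
    (hH1 : FiniteDimensional k (smH1 (k := k) (V := ↥(ordLine L)) 𝓛 (locordRep L ω)) ∧
      finrank k (smH1 (k := k) (V := ↥(ordLine L)) 𝓛 (locordRep L ω)) ≤ 2 * finrank k ↥(ordLine L)) :
    FiniteDimensional k ↥(ordClasses 𝓛 ρ L) ∧
      finrank k ↥(ordClasses 𝓛 ρ L) ≤ finrank k ↥(smH0 (ad0Rep ρ)) + 1 := by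
  obtain ⟨hfinH, hleH⟩ := hH1
  haveI := hfinH
  have hW1 : finrank k ↥(ordLine L) ≤ 1 := locord_finrank_ordLine_le hV L hL1
  obtain ⟨hfinZ, hleZ⟩ := locord_finrank_smZ1_le (k := k) (W := ↥(ordLine L)) 𝓛 (locordRep L ω)
  haveI := hfinZ
  -- `Z_o` is finite-dimensional of dimension `≤ 3`
  haveI hfinZo : FiniteDimensional k ↥(locordZ 𝓛 ρ L) :=
    FiniteDimensional.of_injective _ (locordPhi_injective 𝓛 ρ L ω d hL hQ)
  have hZo : finrank k ↥(locordZ 𝓛 ρ L) ≤ 3 := by
    have := LinearMap.finrank_le_finrank_of_injective (locordPhi_injective 𝓛 ρ L ω d hL hQ)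
    omega
  -- the class map on `Z_o`
  set π' : ↥(locordZ 𝓛 ρ L) →ₗ[k] smH1 𝓛 (ad0Rep ρ) :=
    (smH1π 𝓛 (ad0Rep ρ)).comp (locordZ 𝓛 ρ L).subtype with hπ'
  have hrange : ordClasses 𝓛 ρ L = LinearMap.range π' := by
    rw [ordClasses_eq_map, hπ', LinearMap.range_comp, Submodule.range_subtype]
  have hrn := LinearMap.finrank_range_add_finrank_ker π'
  -- the coboundary map on `N`
  have hsm := locord_ad0_isSmooth 𝓛 ρ hρ
  let D : ↥(locordN ρ L) →ₗ[k] ↥(locordZ 𝓛 ρ L) :=
    { toFun := fun m => ⟨⟨dd0 (ad0Rep ρ) (m : ↥(ad0Space k V)),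
        smB1_le_smZ1 hsm ⟨_, rfl⟩⟩, fun σ => m.2 σ⟩
      map_add' := fun m m' => by
        apply Subtype.ext
        apply Subtype.ext
        exact map_add (dd0 (ad0Rep ρ)) _ _
      map_smul' := fun a m => by
        apply Subtype.ext
        apply Subtype.ext
        exact map_smul (dd0 (ad0Rep ρ)) _ _ }
  have hDrange : LinearMap.range D ≤ LinearMap.ker π' := by
    rintro _ ⟨m, rfl⟩
    rw [LinearMap.mem_ker]
    show smH1π 𝓛 (ad0Rep ρ) _ = 0
    rw [smH1π_eq_zero_iff]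
    exact ⟨_, rfl⟩
  have hDker : finrank k ↥(LinearMap.ker D) ≤ finrank k ↥(smH0 (ad0Rep ρ)) := by
    let j : ↥(LinearMap.ker D) →ₗ[k] ↥(smH0 (ad0Rep ρ)) :=
      { toFun := fun m => ⟨((m : ↥(locordN ρ L)) : ↥(ad0Space k V)), by
          have h1 := LinearMap.mem_ker.1 m.2
          have h2 := congrArg (fun c : ↥(locordZ 𝓛 ρ L) =>
            ((c : ↥(smZ1 𝓛 (ad0Rep ρ))) : G → ↥(ad0Space k V))) h1
          exact LinearMap.mem_ker.2 h2⟩
        map_add' := fun _ _ => rfl
        map_smul' := fun _ _ => rfl }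
    have hj : Function.Injective j := by
      intro m m' h
      apply Subtype.ext
      apply Subtype.ext
      exact congrArg (fun x : ↥(smH0 (ad0Rep ρ)) => (x : ↥(ad0Space k V))) h
    exact LinearMap.finrank_le_finrank_of_injective hj
  have hrnD := LinearMap.finrank_range_add_finrank_ker D
  have hN := locord_two_le_finrank_N ρ L ω d hL hQ hV hL1
  have hmono : finrank k ↥(LinearMap.range D) ≤ finrank k ↥(LinearMap.ker π') :=
    Submodule.finrank_mono hDrange
  rw [hrange]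
  refine ⟨inferInstance, ?_⟩
  omega

end Count


/-! ### the leaf C5 -/

section Ordinary

variable (p : ℕ) [Fact p.Prime] {k : Type} [Field k] [CharP k p] [Finite k]
  {V : Type} [AddCommGroup V] [Module k V] [FiniteDimensional k V]

/-- C5: the strict-ordinary classes at `p`: `ρ̄|_{G_p} ~ (ω d, *; 0, d)` on the line `L`,
`ω` the mod `p` cyclotomic character -/
theorem loc_ord_finrank_le (hp2 : p ≠ 2) (hV : Module.finrank k V = 2)
    (ρ : Representation k (lbGal p) V) (hρ : IsSmoothRep (lbLevels p) ρ)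
    (L : Submodule k V) (hL1 : Module.finrank k ↥L = 1)
    (ω d : lbGal p →* kˣ)
    (hω : ∀ (g : lbGal p) (a : ℕ), (∀ ζ : PadicAlgCl p, ζ ^ p = 1 → g ζ = ζ ^ a) →
      ((ω g : kˣ) : k) = (a : k))
    (hL : ∀ g, ∀ v ∈ L, ρ g v = (((ω g * d g : kˣ) : kˣ) : k) • v)
    (hQ : ∀ g v, ρ g v - ((d g : kˣ) : k) • v ∈ L) :
    FiniteDimensional k ↥(ordClasses (lbLevels p) ρ L) ∧
      Module.finrank k ↥(ordClasses (lbLevels p) ρ L) ≤
        Module.finrank k ↥(smH0 (ad0Rep ρ)) + 1 := by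
  have h := loc_kummerP_finrank_le p hp2 (k := k) (W := ↥(ordLine L)) (locordRep L ω) ω hω
    (locordRep_apply L ω)
  exact locord_finrank_le_of (k := k) (V := V) (lbLevels p) ρ L ω d hL hQ hρ hV hL1 h

end Ordinary

end Fermat.Agent.S56
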