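/-
S56 / LOC leaf C2 (row 370, helper8): Taylor–Wiles primes, `q ≡ 1 mod p`, image of order prime
to `p`: every smooth cocycle is cohomologous to a homomorphism with values in the invariants
(`loc_tw_exists_rep`) and `h¹ ≤ 2 h⁰` (`loc_tw_finrank_le`).  Statements VERBATIM those of
`loc_tw_exists_rep`, `loc_tw_finrank_le` of `Loc/Spec.lean`.
-/
import Fermat.Agent.S56.Loc.Defs
import Fermat.Agent.S55.LocalBridgeSpec
import Fermat.Agent.S55.LocalUnram

set_option autoImplicit false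
set_option linter.unusedSectionVars false
set_option linter.style.haveILetI false

namespace Fermat.Agent.S56

open Fermat.Agent.S55 Polynomial IsLocalRing

section Zeta

variable (q : ℕ) [Fact q.Prime] (p : ℕ) [Fact p.Prime]

/-- `ζ_p ∈ ℚ_q` when `q ≡ 1 mod p` (Teichmüller lift of a generator of the residue field). -/
theorem loctw_exists_zeta (hq1 : p ∣ q - 1) : ∃ ζ : ℚ_[q], IsPrimitiveRoot ζ p := by
  haveI : Finite (ResidueField (lfInt q ℚ_[q])) := inferInstance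
  obtain ⟨u, hu⟩ := IsCyclic.exists_generator (α := (ResidueField (lfInt q ℚ_[q]))ˣ)
  obtain ⟨z, hz1, hz2⟩ := lf_exists_root_of_unity_lift q ℚ_[q] u
  have hord : orderOf u = lfResCard q ℚ_[q] - 1 := by
    rw [orderOf_eq_card_of_forall_mem_zpowers hu, Nat.card_units]
    rfl
  have hprim : IsPrimitiveRoot (z : ℚ_[q]) (lfResCard q ℚ_[q] - 1) := by
    rw [IsPrimitiveRoot.iff_def]
    refine ⟨?_, fun d hd => ?_⟩
    · have := congrArg (fun w : lfInt q ℚ_[q] => (w : ℚ_[q])) hz1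
      simpa using this
    · rw [← hord]
      apply orderOf_dvd_of_pow_eq_one
      apply Units.ext
      rw [Units.val_pow_eq_pow_val, ← hz2, ← map_pow, Units.val_one]
      have hzd : z ^ d = 1 := Subtype.ext (by simpa using hd)
      rw [hzd, map_one]
  have hdvd : p ∣ lfResCard q ℚ_[q] - 1 := by
    rw [lfResCard_eq]
    refine hq1.trans ?_
    exact Nat.sub_one_dvd_pow_sub_one q (lfAbsInertiaDeg q ℚ_[q])
  obtain ⟨a, ha⟩ := hdvd
  have hpos : 0 < lfResCard q ℚ_[q] - 1 := Nat.pos_of_ne_zero (lu_lfResCard_sub_one_ne_zero q ℚ_[q])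
  exact ⟨(z : ℚ_[q]) ^ a, hprim.pow hpos (by rw [ha, mul_comm])⟩

end Zeta

section Index

variable (q : ℕ) [Fact q.Prime] (p : ℕ) [Fact p.Prime]
  (E : IntermediateField ℚ_[q] (PadicAlgCl q)) [FiniteDimensional ℚ_[q] E]

/-- The inclusion `ℚ_qˣ → Eˣ`. -/
noncomputable def loctwIncl : ℚ_[q]ˣ →* (↥E)ˣ :=
  Units.map ((algebraMap ℚ_[q] ↥E : ℚ_[q] →+* ↥E) : ℚ_[q] →* ↥E)

/-- Norm argument: an element of `ℚ_q` which is a `p`-th power in `E`, `p ∤ [E:ℚ_q]`, is a `p`-th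
power in `ℚ_q`. -/
theorem loctw_pow_of_incl_pow (hE : ¬ p ∣ Module.finrank ℚ_[q] ↥E) (a : ℚ_[q]ˣ) (b : (↥E)ˣ)
    (hab : loctwIncl q E a = b ^ p) : ∃ c : ℚ_[q]ˣ, c ^ p = a := by
  set n := Module.finrank ℚ_[q] ↥E with hn
  have hcop : Nat.Coprime n p :=
    ((Nat.Prime.coprime_iff_not_dvd (Fact.out : p.Prime)).2 hE).symm
  set N : (↥E)ˣ →* ℚ_[q]ˣ := Units.map (Algebra.norm ℚ_[q] : ↥E →* ℚ_[q]) with hN
  have h1 : N (loctwIncl q E a) = a ^ n := by
    apply Units.ext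
    rw [Units.val_pow_eq_pow_val]
    exact Algebra.norm_algebraMap (a : ℚ_[q])
  have h2 : a ^ n = (N b) ^ p := by rw [← h1, hab, map_pow]
  have h3 := Nat.gcd_eq_gcd_ab n p
  rw [hcop] at h3
  refine ⟨(N b) ^ (Nat.gcdA n p) * a ^ (Nat.gcdB n p), ?_⟩
  have h4 : a = a ^ ((n : ℤ) * Nat.gcdA n p + (p : ℤ) * Nat.gcdB n p) := by
    rw [← h3]; simp
  have e1 : ∀ (x : ℚ_[q]ˣ) (A : ℤ), (x ^ A) ^ p = (x ^ p) ^ A := fun x A => by
    rw [← zpow_natCast, ← zpow_mul, mul_comm, zpow_mul, zpow_natCast]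
  rw [mul_pow, e1, e1, ← h2]
  conv_rhs => rw [h4]
  rw [zpow_add, zpow_mul, zpow_mul, zpow_natCast, zpow_natCast]

/-- Counting: `ℚ_qˣ/p → Eˣ/p` is onto when `ζ_p ∈ ℚ_q`, `q ≠ p`, `p ∤ [E:ℚ_q]`. -/
theorem loctw_exists_incl_mul_pow (hqp : q ≠ p) (ζ : ℚ_[q]) (hζ : IsPrimitiveRoot ζ p)
    (hE : ¬ p ∣ Module.finrank ℚ_[q] ↥E) (a : (↥E)ˣ) :
    ∃ (a₀ : ℚ_[q]ˣ) (b : (↥E)ˣ), a = loctwIncl q E a₀ * b ^ p := by
  set P : Subgroup (↥E)ˣ := (powMonoidHom p : (↥E)ˣ →* (↥E)ˣ).range with hP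
  set P₀ : Subgroup ℚ_[q]ˣ := (powMonoidHom p : ℚ_[q]ˣ →* ℚ_[q]ˣ).range with hP₀
  set R : Subgroup (↥E)ˣ := (loctwIncl q E).range with hR
  have hζE : IsPrimitiveRoot (algebraMap ℚ_[q] ↥E ζ) p :=
    hζ.map_of_injective (algebraMap ℚ_[q] ↥E).injective
  have hiP : P.index = p ^ 2 := lf_index_pow_of_ne q ↥E p _ hζE hqp
  have hiP₀ : P₀.index = p ^ 2 := lf_index_pow_of_ne q ℚ_[q] p ζ hζ hqp
  have hcomap : P.comap (loctwIncl q E) = P₀ := by
    ext x
    rw [Subgroup.mem_comap]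
    constructor
    · rintro ⟨b, hb⟩
      obtain ⟨c, hc⟩ := loctw_pow_of_incl_pow q p E hE x b hb.symm
      exact ⟨c, hc⟩
    · rintro ⟨c, rfl⟩
      exact ⟨loctwIncl q E c, (map_pow _ _ _).symm⟩
  have h1 : P.relIndex R = p ^ 2 := by
    rw [← hiP₀, ← hcomap, Subgroup.index_comap]
  have h2 : P.relIndex (R ⊔ P) = p ^ 2 := by
    rw [Subgroup.relIndex_sup_right, h1]
  have h3 : P.relIndex (R ⊔ P) * (R ⊔ P).index = P.index :=
    Subgroup.relIndex_mul_index le_sup_right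
  rw [h2, hiP] at h3
  have hp2 : 0 < p ^ 2 := pow_pos (Fact.out : p.Prime).pos 2
  have h4 : (R ⊔ P).index = 1 := by
    have : p ^ 2 * (R ⊔ P).index = p ^ 2 * 1 := by rw [h3, mul_one]
    exact Nat.eq_of_mul_eq_mul_left hp2 this
  rw [Subgroup.index_eq_one] at h4
  have ha : a ∈ R ⊔ P := h4 ▸ Subgroup.mem_top a
  rw [Subgroup.mem_sup] at ha
  obtain ⟨y, ⟨a₀, rfl⟩, z, ⟨b, rfl⟩, hyz⟩ := ha
  exact ⟨a₀, b, hyz.symm⟩

end Index

section Conj

variable (q : ℕ) [Fact q.Prime] (p : ℕ) [Fact p.Prime]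
  (E : IntermediateField ℚ_[q] (PadicAlgCl q)) [FiniteDimensional ℚ_[q] E]

/-- the trivial representation is a `μ_p`-representation when `ζ ∈ E` -/
theorem loctw_isMuRep_one {ζ : PadicAlgCl q} (hζE : ζ ∈ E) :
    IsMuRep (p := p) ζ E.fixingSubgroup
      (1 : Representation (ZMod p) ↥E.fixingSubgroup (ZMod p)) := by
  intro σ x
  rw [map_pow, lbk_fix_of_mem E hζE σ]
  rfl

/-- smooth homomorphisms `U → 𝔽_p`, `U = Gal(ℚ̄_q/E)`, are invariant under conjugation by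
`Gal(ℚ̄_q/ℚ_q)` when `ζ_p ∈ ℚ_q`, `q ≠ p`, `p ∤ [E:ℚ_q]`. -/
theorem loctw_conj_invariant (hqp : q ≠ p) (ζ : ℚ_[q]) (hζ : IsPrimitiveRoot ζ p)
    (hE : ¬ p ∣ Module.finrank ℚ_[q] ↥E) (hn : E.fixingSubgroup.Normal)
    (f : ↥E.fixingSubgroup → ZMod p)
    (hf : f ∈ smZ1 ((lbLevels q).sub E.fixingSubgroup)
      (1 : Representation (ZMod p) ↥E.fixingSubgroup (ZMod p)))
    (g : lbGal q) (τ : ↥E.fixingSubgroup) :
    f ⟨g * (τ : lbGal q) * g⁻¹, hn.conj_mem (τ : lbGal q) τ.2 g⟩ = f τ := by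
  set ζ' : PadicAlgCl q := algebraMap ℚ_[q] (PadicAlgCl q) ζ with hζ'def
  have hζ' : IsPrimitiveRoot ζ' p := hζ.map_of_injective (algebraMap ℚ_[q] (PadicAlgCl q)).injective
  have hζE : ζ' ∈ E := E.algebraMap_mem ζ
  have hρ := loctw_isMuRep_one q p E hζE
  obtain ⟨a, rfl⟩ := lbKumFun_surjective hζ' E hζE 1 hρ f hf
  obtain ⟨a₀, b, rfl⟩ := loctw_exists_incl_mul_pow q p E hqp ζ hζ hE a
  rw [lbKumFun_mul hζ' E hζE]
  have hb : lbKumFun (p := p) ζ' E.fixingSubgroup ((((b ^ p : (↥E)ˣ) : (↥E)ˣ) : ↥E) : PadicAlgCl q)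
      = 0 := (lbKumFun_eq_zero_iff hζ' E hζE (b ^ p)).mpr ⟨b, rfl⟩
  rw [hb, add_zero]
  set α := lbRoot p ((((loctwIncl q E a₀ : (↥E)ˣ) : ↥E) : PadicAlgCl q)) with hα
  have hαp : α ^ p = (((loctwIncl q E a₀ : (↥E)ˣ) : ↥E) : PadicAlgCl q) := lbRoot_pow (p := p) _
  have hval : (((loctwIncl q E a₀ : (↥E)ˣ) : ↥E) : PadicAlgCl q) =
      algebraMap ℚ_[q] (PadicAlgCl q) (a₀ : ℚ_[q]) := rfl
  have hβp : (g⁻¹ α) ^ p = (((loctwIncl q E a₀ : (↥E)ˣ) : ↥E) : PadicAlgCl q) := by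
    rw [← map_pow, hαp, hval, AlgEquiv.commutes]
  rw [lbk_kumFun_eq_iff hζ' E hζE (loctwIncl q E a₀) α hαp]
  have h1 : ((⟨g * (τ : lbGal q) * g⁻¹, hn.conj_mem (τ : lbGal q) τ.2 g⟩ : ↥E.fixingSubgroup) :
      lbGal q) α = g ((τ : lbGal q) (g⁻¹ α)) := rfl
  rw [h1, lbKumFun_spec hζ' E hζE (loctwIncl q E a₀) (g⁻¹ α) hβp τ, map_mul, map_pow,
    hζ'def, AlgEquiv.commutes, ← AlgEquiv.mul_apply, mul_inv_cancel, AlgEquiv.one_apply]

/-- there are `p²` smooth homomorphisms `U → 𝔽_p` -/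
theorem loctw_card_hom (hqp : q ≠ p) (ζ : ℚ_[q]) (hζ : IsPrimitiveRoot ζ p) :
    Nat.card ↥(smZ1 ((lbLevels q).sub E.fixingSubgroup)
      (1 : Representation (ZMod p) ↥E.fixingSubgroup (ZMod p))) = p ^ 2 := by
  set ζ' : PadicAlgCl q := algebraMap ℚ_[q] (PadicAlgCl q) ζ with hζ'def
  have hζ' : IsPrimitiveRoot ζ' p := hζ.map_of_injective (algebraMap ℚ_[q] (PadicAlgCl q)).injective
  have hζE : ζ' ∈ E := E.algebraMap_mem ζ
  have hρ := loctw_isMuRep_one q p E hζE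
  have hζE' : IsPrimitiveRoot (algebraMap ℚ_[q] ↥E ζ) p :=
    hζ.map_of_injective (algebraMap ℚ_[q] ↥E).injective
  rw [lb_smZ1_card hζ' E hζE 1 hρ]
  exact lf_index_pow_of_ne q ↥E p _ hζE' hqp

end Conj

section Average

variable {k : Type} [Field k] {G : Type} [Group G] {V : Type} [AddCommGroup V] [Module k V]

theorem loctw_cocycle_mul (ρ : Representation k G V) (c : G → V) (hc : dd1 ρ c = 0) (g h : G) :
    c (g * h) = c g + ρ g (c h) := by
  have h0 : ρ g (c h) - c (g * h) + c g = 0 := by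
    have := congrFun hc (g, h)
    rwa [dd1_apply] at this
  have : c (g * h) = c g + ρ g (c h) - (ρ g (c h) - c (g * h) + c g) := by abel
  rw [this, h0, sub_zero]

theorem loctw_mem_smH0_iff (ρ : Representation k G V) (v : V) :
    v ∈ smH0 ρ ↔ ∀ g, ρ g v = v := by
  unfold smH0
  rw [LinearMap.mem_ker]
  constructor
  · intro h g
    have := congrFun h g
    rw [dd0_apply] at this
    exact sub_eq_zero.mp this
  · intro h
    funext g
    rw [dd0_apply, h g, sub_self]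
    rfl

/-- Averaging over `G/U`, `[G:U]` invertible in `k`: a cocycle mapping `U` into a submodule `W`
of the invariants is cohomologous to a `W`-valued one. -/
theorem loctw_average (ρ : Representation k G V) (U : Subgroup G)
    [U.FiniteIndex] (hn : ((U.index : ℕ) : k) ≠ 0) (c : G → V) (hc : dd1 ρ c = 0)
    (W : Submodule k V) (hW : W ≤ smH0 ρ) (hcU : ∀ u ∈ U, c u ∈ W) :
    ∃ m : V, ∀ g, c g - (ρ g m - m) ∈ W := by
  classical
  letI : Fintype (G ⧸ U) := Subgroup.fintypeQuotientOfFiniteIndex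
  set S : V := ∑ x : G ⧸ U, c x.out with hS
  refine ⟨-(((U.index : ℕ) : k)⁻¹ • S), fun g => ?_⟩
  have hterm : ∀ x : G ⧸ U, ρ g (c x.out) - c ((g • x).out) + c g ∈ W := by
    intro x
    have h1 : ((g * x.out : G) : G ⧸ U) = g • x := by
      conv_rhs => rw [← QuotientGroup.out_eq' x]
      rfl
    have h2 : (((g • x).out : G) : G ⧸ U) = g • x := QuotientGroup.out_eq' _
    have h3 : ((g • x).out)⁻¹ * (g * x.out) ∈ U := QuotientGroup.eq.mp (h2.trans h1.symm)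
    set u := ((g • x).out)⁻¹ * (g * x.out) with hu
    have h4 : g * x.out = (g • x).out * u := by rw [hu, mul_inv_cancel_left]
    have h5 : c (g * x.out) = c g + ρ g (c x.out) := loctw_cocycle_mul ρ c hc _ _
    have h6 : c ((g • x).out * u) = c ((g • x).out) + c u := by
      rw [loctw_cocycle_mul ρ c hc, (loctw_mem_smH0_iff ρ _).mp (hW (hcU u h3))]
    have h7 : ρ g (c x.out) - c ((g • x).out) + c g = c u := by
      rw [h4, h6] at h5
      have : ρ g (c x.out) = c ((g • x).out) + c u - c g := by rw [h5]; abel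
      rw [this]; abel
    rw [h7]
    exact hcU u h3
  have hsum : ρ g S - S + ((U.index : ℕ) : k) • c g ∈ W := by
    have h1 := W.sum_mem (t := Finset.univ) (fun x _ => hterm x)
    have h2 : ∑ x : G ⧸ U, c ((g • x).out) = S :=
      Equiv.sum_comp (MulAction.toPerm g) (fun x : G ⧸ U => c x.out)
    have h3 : ∑ x : G ⧸ U, (ρ g (c x.out) - c ((g • x).out) + c g) =
        ρ g S - S + ((U.index : ℕ) : k) • c g := by
      rw [Finset.sum_add_distrib, Finset.sum_sub_distrib, h2, ← map_sum, Finset.sum_const,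
        Finset.card_univ, Nat.cast_smul_eq_nsmul, Subgroup.index, Nat.card_eq_fintype_card]
    rwa [h3] at h1
  have hfin : c g - (ρ g (-(((U.index : ℕ) : k)⁻¹ • S)) - -(((U.index : ℕ) : k)⁻¹ • S)) =
      ((U.index : ℕ) : k)⁻¹ • (ρ g S - S + ((U.index : ℕ) : k) • c g) := by
    rw [smul_add, smul_smul, inv_mul_cancel₀ hn, one_smul, map_neg, map_smul, smul_sub]
    abel
  rw [hfin]
  exact W.smul_mem _ hsum

/-- a cocycle vanishes at `1` -/
theorem loctw_cocycle_one (ρ : Representation k G V) (c : G → V) (hc : dd1 ρ c = 0) : c 1 = 0 := by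
  have h := loctw_cocycle_mul ρ c hc 1 1
  rw [mul_one, map_one, Module.End.one_apply] at h
  have : c 1 = c 1 + c 1 - c 1 := by abel
  rw [this, ← h, sub_self]

/-- conjugation formula: `c (g u g⁻¹) = g • c u` when `ρ u = 1` -/
theorem loctw_cocycle_conj (ρ : Representation k G V) (c : G → V) (hc : dd1 ρ c = 0) (g u : G)
    (hu : ρ u = 1) : c (g * u * g⁻¹) = ρ g (c u) := by
  have h1 := loctw_cocycle_mul ρ c hc g g⁻¹
  rw [mul_inv_cancel, loctw_cocycle_one ρ c hc] at h1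
  rw [loctw_cocycle_mul ρ c hc (g * u) g⁻¹, loctw_cocycle_mul ρ c hc g u, map_mul, hu, mul_one]
  have : c g + (ρ g) (c u) + (ρ g) (c g⁻¹) = ρ g (c u) + (c g + (ρ g) (c g⁻¹)) := by abel
  rw [this, ← h1, add_zero]

end Average

section Coord

theorem loctw_exists_addEquiv_aux (p : ℕ) [Fact p.Prime] (W : Type) [AddCommGroup W] [Finite W]
    [Module (ZMod p) W] : ∃ N : ℕ, Nonempty (W ≃+ (Fin N → ZMod p)) := by
  haveI hf : Module.Finite (ZMod p) W := Module.Finite.of_finite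
  exact ⟨Module.finrank (ZMod p) W, ⟨(Module.finBasis (ZMod p) W).equivFun.toAddEquiv⟩⟩

/-- a finite elementary abelian `p`-group is `𝔽_p^N` -/
theorem loctw_exists_addEquiv (p : ℕ) [Fact p.Prime] (W : Type) [AddCommGroup W] [Finite W]
    (h : ∀ w : W, p • w = 0) : ∃ N : ℕ, Nonempty (W ≃+ (Fin N → ZMod p)) := by
  letI : Module (ZMod p) W := AddCommGroup.zmodModule h
  exact loctw_exists_addEquiv_aux p W

theorem loctw_card_of_addEquiv (p : ℕ) [Fact p.Prime] {W : Type} [AddCommGroup W] {N : ℕ}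
    (e : W ≃+ (Fin N → ZMod p)) : Nat.card W = p ^ N := by
  rw [Nat.card_congr e.toEquiv, Nat.card_fun, Nat.card_zmod, Nat.card_fin]

end Coord

section Main

variable (q : ℕ) [Fact q.Prime] {k : Type} [Field k]
  {V : Type} [AddCommGroup V] [Module k V] [FiniteDimensional k V]

variable (p : ℕ) [Fact p.Prime] [CharP k p] [Finite k]

omit [FiniteDimensional k V] [Fact p.Prime] [Finite k] in
theorem loctw_nsmul_eq_zero (hk : CharP k p) (v : V) : p • v = 0 := by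
  rw [← Nat.cast_smul_eq_nsmul k, CharP.cast_eq_zero, zero_smul]

/-- glue: level-constant additive functions on `U` are smooth cocycles for the trivial
representation on `𝔽_p` -/
theorem loctw_mem_smZ1_one (U : Subgroup (lbGal q)) (f : ↥U → ZMod p)
    (hadd : ∀ σ τ : ↥U, f (σ * τ) = f σ + f τ)
    (hlc : ∃ U', (lbLevels q).IsLevel U' ∧ ∀ g s : ↥U, (s : lbGal q) ∈ U' → f (g * s) = f g) :
    f ∈ smZ1 ((lbLevels q).sub U) (1 : Representation (ZMod p) ↥U (ZMod p)) := by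
  rw [mem_smZ1]
  constructor
  · funext ⟨σ, τ⟩
    rw [dd1_apply, hadd]
    simp
  · obtain ⟨U', hU', h⟩ := hlc
    exact ⟨U'.comap U.subtype, ⟨U', hU', rfl⟩, fun g s hs => h g s hs⟩

/-- the restriction of a smooth cocycle to `U` has values in the invariants -/
theorem loctw_res_mem_smH0 (hqp : q ≠ p) (ζ : ℚ_[q]) (hζ : IsPrimitiveRoot ζ p)
    (ρ : Representation k (lbGal q) V)
    (E : IntermediateField ℚ_[q] (PadicAlgCl q)) [FiniteDimensional ℚ_[q] E]
    (hn : E.fixingSubgroup.Normal) (hρU : ∀ s ∈ E.fixingSubgroup, ρ s = 1)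
    (hidx : ¬ p ∣ E.fixingSubgroup.index)
    (c : lbGal q → V) (hc : c ∈ smZ1 (lbLevels q) ρ) (u : lbGal q) (hu : u ∈ E.fixingSubgroup) :
    c u ∈ smH0 ρ := by
  have hc1 : dd1 ρ c = 0 := ((mem_smZ1 _ ρ c).mp hc).1
  rw [loctw_mem_smH0_iff]
  intro g
  rw [← loctw_cocycle_conj ρ c hc1 g u (hρU u hu)]
  haveI : Finite V := Module.finite_of_finite k
  obtain ⟨N, ⟨e⟩⟩ := loctw_exists_addEquiv p V (loctw_nsmul_eq_zero p (inferInstance : CharP k p))
  apply e.injective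
  funext i
  set f : ↥E.fixingSubgroup → ZMod p := fun τ => e (c (τ : lbGal q)) i with hf
  have hfmem : f ∈ smZ1 ((lbLevels q).sub E.fixingSubgroup)
      (1 : Representation (ZMod p) ↥E.fixingSubgroup (ZMod p)) := by
    apply loctw_mem_smZ1_one
    · intro σ τ
      show e (c ((σ : lbGal q) * (τ : lbGal q))) i = _
      rw [loctw_cocycle_mul ρ c hc1, hρU _ σ.2, Module.End.one_apply, map_add]
      rfl
    · obtain ⟨U', hU', h⟩ := ((mem_smZ1 _ ρ c).mp hc).2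
      refine ⟨U', hU', fun g s hs => ?_⟩
      show e (c ((g : lbGal q) * (s : lbGal q))) i = _
      rw [h _ _ hs]
  have hE : ¬ p ∣ Module.finrank ℚ_[q] ↥E := by
    rwa [IntermediateField.finrank_eq_fixingSubgroup_index]
  exact loctw_conj_invariant q p E hqp ζ hζ hE hn f hfmem g ⟨u, hu⟩

/-- C2a: `q ≡ 1 mod p`, image of order prime to `p`: every cocycle is cohomologous to a
homomorphism with values in the invariants -/
theorem loc_tw_exists_rep (hqp : q ≠ p) (hq1 : p ∣ q - 1) (ρ : Representation k (lbGal q) V)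
    (hρ : IsSmoothRep (lbLevels q) ρ)
    (hprime : ∃ U, (lbLevels q).IsLevel U ∧ U.Normal ∧ (∀ s ∈ U, ρ s = 1) ∧ ¬ p ∣ U.index)
    (c : lbGal q → V) (hc : c ∈ smZ1 (lbLevels q) ρ) :
    ∃ m : V, ∀ σ, c σ - (ρ σ m - m) ∈ smH0 ρ := by
  obtain ⟨ζ, hζ⟩ := loctw_exists_zeta q p hq1
  obtain ⟨U, ⟨E, hE, rfl⟩, hn, hρU, hidx⟩ := hprime
  haveI := hE
  haveI := (lbLevels q).finiteIndex _ ⟨E, hE, rfl⟩
  have hnk : ((E.fixingSubgroup.index : ℕ) : k) ≠ 0 := by
    rw [Ne, CharP.cast_eq_zero_iff k p]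
    exact hidx
  exact loctw_average ρ E.fixingSubgroup hnk c ((mem_smZ1 _ ρ c).mp hc).1 (smH0 ρ) le_rfl
    (fun u hu => loctw_res_mem_smH0 q p hqp ζ hζ ρ E hn hρU hidx c hc u hu)

/-- C2b: `h¹ ≤ 2 h⁰` under the same hypotheses -/
theorem loc_tw_finrank_le (hqp : q ≠ p) (hq1 : p ∣ q - 1) (ρ : Representation k (lbGal q) V)
    (hρ : IsSmoothRep (lbLevels q) ρ)
    (hprime : ∃ U, (lbLevels q).IsLevel U ∧ U.Normal ∧ (∀ s ∈ U, ρ s = 1) ∧ ¬ p ∣ U.index) :
    FiniteDimensional k (smH1 (lbLevels q) ρ) ∧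
      Module.finrank k (smH1 (lbLevels q) ρ) ≤ 2 * Module.finrank k ↥(smH0 ρ) := by
  obtain ⟨ζ, hζ⟩ := loctw_exists_zeta q p hq1
  obtain ⟨U, ⟨E, hE, rfl⟩, hn, hρU, hidx⟩ := hprime
  haveI := hE
  haveI := (lbLevels q).finiteIndex _ ⟨E, hE, rfl⟩
  have hnk : ((E.fixingSubgroup.index : ℕ) : k) ≠ 0 := by
    rw [Ne, CharP.cast_eq_zero_iff k p]
    exact hidx
  haveI : Finite V := Module.finite_of_finite k
  obtain ⟨N, ⟨e⟩⟩ := loctw_exists_addEquiv p ↥(smH0 ρ)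
    (fun w => loctw_nsmul_eq_zero p (inferInstance : CharP k p) w)
  have hZcard := loctw_card_hom q p E hqp ζ hζ
  haveI hZfin : Finite ↥(smZ1 ((lbLevels q).sub E.fixingSubgroup)
      (1 : Representation (ZMod p) ↥E.fixingSubgroup (ZMod p))) := by
    apply Nat.finite_of_card_ne_zero
    rw [hZcard]
    exact pow_ne_zero _ (Fact.out : p.Prime).ne_zero
  have hmem : ∀ (c : ↥(smZ1 (lbLevels q) ρ)) (u : ↥E.fixingSubgroup),
      (c : lbGal q → V) (u : lbGal q) ∈ smH0 ρ := fun c u =>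
    loctw_res_mem_smH0 q p hqp ζ hζ ρ E hn hρU hidx c.1 c.2 u u.2
  have hΨmem : ∀ (c : ↥(smZ1 (lbLevels q) ρ)) (i : Fin N),
      (fun u : ↥E.fixingSubgroup => e ⟨(c : lbGal q → V) (u : lbGal q), hmem c u⟩ i) ∈
        smZ1 ((lbLevels q).sub E.fixingSubgroup)
          (1 : Representation (ZMod p) ↥E.fixingSubgroup (ZMod p)) := by
    intro c i
    have hc1 : dd1 ρ (c : lbGal q → V) = 0 := ((mem_smZ1 _ ρ _).mp c.2).1
    apply loctw_mem_smZ1_one
    · intro σ τ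
      have h1 : (⟨(c : lbGal q → V) ((σ * τ : ↥E.fixingSubgroup) : lbGal q), hmem c (σ * τ)⟩ :
          ↥(smH0 ρ)) = ⟨(c : lbGal q → V) (σ : lbGal q), hmem c σ⟩ +
            ⟨(c : lbGal q → V) (τ : lbGal q), hmem c τ⟩ := by
        apply Subtype.ext
        show (c : lbGal q → V) ((σ : lbGal q) * (τ : lbGal q)) = _
        rw [loctw_cocycle_mul ρ _ hc1, hρU _ σ.2, Module.End.one_apply]
        rfl
      show e _ i = e _ i + e _ i
      rw [h1, map_add]
      rfl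
    · obtain ⟨U', hU', h⟩ := ((mem_smZ1 _ ρ _).mp c.2).2
      refine ⟨U', hU', fun g s hs => ?_⟩
      have h1 : (⟨(c : lbGal q → V) ((g * s : ↥E.fixingSubgroup) : lbGal q), hmem c (g * s)⟩ :
          ↥(smH0 ρ)) = ⟨(c : lbGal q → V) (g : lbGal q), hmem c g⟩ := by
        apply Subtype.ext
        show (c : lbGal q → V) ((g : lbGal q) * (s : lbGal q)) = _
        rw [h _ _ hs]
      show e _ i = e _ i
      rw [h1]
  set Ψ : ↥(smZ1 (lbLevels q) ρ) → (Fin N → ↥(smZ1 ((lbLevels q).sub E.fixingSubgroup)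
      (1 : Representation (ZMod p) ↥E.fixingSubgroup (ZMod p)))) :=
    fun c i => ⟨_, hΨmem c i⟩ with hΨ
  have hkey : ∀ c c' : ↥(smZ1 (lbLevels q) ρ), Ψ c = Ψ c' →
      smH1π (lbLevels q) ρ c = smH1π (lbLevels q) ρ c' := by
    intro c c' h
    rw [← sub_eq_zero, ← map_sub, smH1π_eq_zero_iff, mem_smB1]
    have hU0 : ∀ u ∈ E.fixingSubgroup, ((c - c' : ↥(smZ1 (lbLevels q) ρ)) : lbGal q → V) u = 0 := by
      intro u hu
      have h1 : (⟨(c : lbGal q → V) u, hmem c ⟨u, hu⟩⟩ : ↥(smH0 ρ)) =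
          ⟨(c' : lbGal q → V) u, hmem c' ⟨u, hu⟩⟩ := by
        apply e.injective
        funext i
        exact congrFun (congrArg Subtype.val (congrFun h i)) ⟨u, hu⟩
      have h2 : (c : lbGal q → V) u = (c' : lbGal q → V) u := congrArg Subtype.val h1
      show (c : lbGal q → V) u - (c' : lbGal q → V) u = 0
      rw [h2, sub_self]
    obtain ⟨m, hm⟩ := loctw_average ρ E.fixingSubgroup hnk
      ((c - c' : ↥(smZ1 (lbLevels q) ρ)) : lbGal q → V)
      ((mem_smZ1 _ ρ _).mp (c - c').2).1 ⊥ bot_le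
      (fun u hu => by rw [hU0 u hu]; exact zero_mem _)
    refine ⟨m, ?_⟩
    funext g
    have := hm g
    rw [Submodule.mem_bot, sub_eq_zero] at this
    rw [dd0_apply, this]
  have hsurj : Function.Surjective (smH1π (lbLevels q) ρ) := Submodule.mkQ_surjective _
  have hinj : Function.Injective (fun x : smH1 (lbLevels q) ρ => Ψ (Function.surjInv hsurj x)) := by
    intro x y hxy
    have := hkey _ _ hxy
    rwa [Function.surjInv_eq hsurj, Function.surjInv_eq hsurj] at this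
  haveI hfinH : Finite (smH1 (lbLevels q) ρ) := Finite.of_injective _ hinj
  haveI hfd : FiniteDimensional k (smH1 (lbLevels q) ρ) := Module.Finite.of_finite
  refine ⟨hfd, ?_⟩
  have hcard1 : Nat.card (smH1 (lbLevels q) ρ) ≤ (p ^ 2) ^ N := by
    have := Nat.card_le_card_of_injective _ hinj
    rwa [Nat.card_fun, hZcard, Nat.card_fin] at this
  have hcardW : Nat.card ↥(smH0 ρ) = p ^ N := loctw_card_of_addEquiv p e
  have h1 : Nat.card (smH1 (lbLevels q) ρ) = Nat.card k ^ Module.finrank k (smH1 (lbLevels q) ρ) :=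
    Module.natCard_eq_pow_finrank
  have h2 : Nat.card ↥(smH0 ρ) = Nat.card k ^ Module.finrank k ↥(smH0 ρ) :=
    Module.natCard_eq_pow_finrank
  have h3 : Nat.card k ^ Module.finrank k (smH1 (lbLevels q) ρ) ≤
      Nat.card k ^ (2 * Module.finrank k ↥(smH0 ρ)) := by
    rw [← h1, mul_comm, pow_mul, ← h2, hcardW, ← pow_mul, mul_comm, pow_mul]
    exact hcard1
  exact (Nat.pow_le_pow_iff_right Finite.one_lt_card).mp h3

end Main

end Fermat.Agent.S56
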