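/-
S56 / package LOC (owner helper22): LOCAL INPUTS of the Taylor–Wiles inequality, in the S55
smooth-cochain language for the local Galois group `lbGal q = Gal(ℚ̄_q/ℚ_q)` with the levels
`lbLevels q` (`= levelsAll.comap (primeLocalToGlobal q)` by `lg_locSysS_lev`), so that every
statement applies verbatim to `(locSysS S).rep ρ v = ρ.comp (primeLocalToGlobal v)`.
Definitions: `Loc/Defs.lean` (`adRep`, `ad0Rep`, `twRep`, `smH1ur`, `locInertia`, `IsFrobLift`).

STRUCTURE of `Gal(ℚ̄_q/ℚ_q)` (S-leaves)
* S1 `locInertia_normal` (PROVED in `Defs`), S2 `loc_exists_isFrobLift`,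
* S3 `loc_exists_zpow_mul`   : `Γ = ⟨φ⟩ · I · U` for every level `U` (unramified quotient procyclic),
* S4 `loc_exists_inertia_lift`: `I → I(E/ℚ_q)` is onto (an automorphism of a finite Galois `E/ℚ_q`
     acting trivially on the residue field of `E` lifts to `locInertia q`),
* S5 `loc_tame_isCyclic`     : the image of `I` in a finite quotient is cyclic if it is a `p`-group,
     `p ≠ q` (tame inertia).
COUNTS (C-leaves), `k` a finite field of characteristic `p`
* C1 `loc_finrank_smH1ur_le` : `dim H¹_ur ≤ dim H⁰`  (any `q`, any finite-dimensional smooth `ρ`),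
* C2 `loc_tw_exists_rep`, `loc_tw_finrank_le` : `q ≡ 1 (p)`, image of order prime to `p`:
     every class has a representative with values in `V^Γ`; `h¹ ≤ 2 h⁰`,
* C3 `loc_tw_cupH11_nondeg_right` : same hypotheses: the cup pairing `H¹(V) × H¹(W) → H²(k(χ))`
     has trivial right kernel (local duality at Taylor–Wiles primes),
* C4 `loc_unip_exists_cobound`: `q ≠ p`, `ρ̄|I` unipotent and non-trivial: a cocycle `c` of `ad⁰ ρ̄`
     such that `(1 + εc) ρ̄` is unipotent on `I` is a coboundary on `I` (minimal primes),
* C5 `loc_ord_finrank_le`    : `q = p`: the strict-ordinary classes (cocycles with values in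
     `Hom(V/L, L)`) have dimension `≤ h⁰(ad⁰) + 1`,
* C6 `ad0_centralizer_proportional`, `loc_tw_prime_to_p` : linear algebra at Taylor–Wiles primes.
-/
import Fermat.Agent.S56.Loc.Defs
import Fermat.Agent.S56.Loc.Ur
import Fermat.Agent.S56.Loc.Lift
import Fermat.Agent.S56.Loc.TwCount
import Fermat.Agent.S56.Loc.OrdDefs
import Fermat.Agent.S56.Loc.OrdCount
import Fermat.Agent.S55.LocalBridgeSpec
import Fermat.Agent.S55.Top.Dev

set_option autoImplicit false

namespace Fermat.Agent.S56

open Fermat.Agent.S55 Polynomial

/-! ### Structure of the local Galois group -/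

section Structure

variable (q : ℕ) [Fact q.Prime]

-- S2 `loc_exists_isFrobLift` (and S0 `locInertia_eq_fixingSubgroup`) are PROVED in `Loc/Ur.lean` (row 366)

-- S3 `loc_exists_zpow_mul` and S4 `loc_exists_inertia_lift` are PROVED in `Loc/Lift.lean` (row 367)

-- S5 `loc_tame_isCyclic` is PROVED in `Loc/Tame.lean` (row 368, helper28)

end Structure

/-! ### Counts -/

section Counts

variable (q : ℕ) [Fact q.Prime] {k : Type} [Field k]
  {V : Type} [AddCommGroup V] [Module k V] [FiniteDimensional k V]

-- C1 `loc_finrank_smH1ur_le` is PROVED in `Loc/UrCount.lean` (row 369, helper17)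

variable (p : ℕ) [Fact p.Prime] [CharP k p] [Finite k]

-- C2 `loc_tw_exists_rep`, `loc_tw_finrank_le` are PROVED in `Loc/TwCount.lean` (row 370, helper8)
-- C3 `loc_tw_cupH11_nondeg_right` : `Loc/TwDual.lean` (row 371, helper17; imports this file for C2)
-- C4 `loc_unip_exists_cobound`     : `Loc/Unip.lean` + `Loc/UnipCore.lean` (row 372, helper10)
-- C6 `ad0_centralizer_proportional`, `loc_tw_prime_to_p` : `Loc/TwLin.lean` (row 373, helper4)

end Counts

/-! ### The ordinary condition at `p` -/

-- C5 `loc_ord_finrank_le` is PROVED in `Loc/OrdCount.lean` (row 464, helper22); definitions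
-- `ordLine`, `ordClasses` in `Loc/OrdDefs.lean`. This file is now stub-free.

end Fermat.Agent.S56
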