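/-
S56 / package LOC, leaf C3 (row 371, helper17): `loc_tw_cupH11_nondeg_right` VERBATIM from
`Loc/Spec.lean` (helper22, ee164b5): local duality at Taylor-Wiles primes `q ≡ 1 (p)`, image of
order prime to `p`: the cup pairing `H¹(Γ_q, V) × H¹(Γ_q, W) → H²(Γ_q, k(χ))` has trivial right kernel.

Proof.  `ζ_p ∈ ℚ_q` (Hensel: `loctd_exists_zeta`), so `χ = 1`.  By C2 (`loc_tw_exists_rep`, black
box) a class `y` of `W` is represented by a homomorphism `c'` with values in `W^Γ`.  If `c' τ₀ ≠ 0`,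
averaging over `Γ/U` gives `v ∈ V^Γ` with `β v (c' τ₀) ≠ 0` (`loctd_exists_invariant`); a
`ZMod p`-linear functional `l` of `k` with `l (β v (c' τ₀)) ≠ 0` gives a non-zero smooth homomorphism
`ψ₁ = l ∘ β v ∘ c' : Γ → ZMod p`.  For every smooth homomorphism `f : Γ → ZMod p` the class of
`σ ↦ f σ • v` cups to zero with `y`; applying `l` shows that `f ∪ ψ₁` is a smooth coboundary.  By
local Kummer duality for the full local group (`loctd_duality`, from `lbInv_cup_nondegenerate_right`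
with `E = ⊥`), `ψ₁ = 0`: contradiction.

DEV STUB: `Loc/SpecNoC3.lean` (= `Loc/Spec.lean` minus C3) provides the black box C2; at integration
replace that import by the file proving `loc_tw_exists_rep`.  Helper names: prefix `loctd_`.
-/
import Fermat.Agent.S56.Loc.Spec
import Fermat.Agent.S55.LocalBridgeCrit

set_option autoImplicit false
set_option linter.style.haveILetI false
set_option linter.unusedSectionVars false
set_option linter.unusedVariables false

namespace Fermat.Agent.S56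

open Fermat.Agent.S55 Polynomial

/-! ### `ζ_p ∈ ℚ_q` for `p ∣ q - 1` -/

theorem loctd_norm_lt_one_iff (q : ℕ) [Fact q.Prime] (x : ℤ_[q]) :
    ‖x‖ < 1 ↔ PadicInt.toZMod x = 0 := by
  rw [← PadicInt.mem_nonunits, ← IsLocalRing.mem_maximalIdeal, ← PadicInt.ker_toZMod,
    RingHom.mem_ker]

/-- a primitive `p`-th root of unity in `ℤ_q` for `p ∣ q - 1` (Hensel) -/
theorem loctd_exists_primitiveRoot_padicInt (q : ℕ) [Fact q.Prime] (p : ℕ) [Fact p.Prime]
    (hqp : q ≠ p) (hq1 : p ∣ q - 1) : ∃ z : ℤ_[q], IsPrimitiveRoot z p := by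
  classical
  have hp : p.Prime := Fact.out
  have hq : q.Prime := Fact.out
  -- an element of order `p` in `(ZMod q)ˣ`
  have hcard : p ∣ Nat.card (ZMod q)ˣ := by
    rw [Nat.card_eq_fintype_card, ZMod.card_units_eq_totient, Nat.totient_prime hq]
    exact hq1
  obtain ⟨u, hu⟩ := exists_prime_orderOf_dvd_card' p hcard
  have hup : ((u : (ZMod q)ˣ) : ZMod q) ^ p = 1 := by
    rw [← Units.val_pow_eq_pow_val, ← hu, pow_orderOf_eq_one, Units.val_one]
  have hu1 : ((u : (ZMod q)ˣ) : ZMod q) ≠ 1 := by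
    intro h
    have : u = 1 := Units.ext h
    rw [this, orderOf_one] at hu
    exact hp.ne_one hu.symm
  -- lift to `ℤ_q`
  set a : ℤ_[q] := ((u : ZMod q).val : ℤ_[q]) with ha
  have haz : PadicInt.toZMod a = (u : ZMod q) := by
    rw [ha, map_natCast, ZMod.natCast_zmod_val]
  have hpq : ((p : ℕ) : ZMod q) ≠ 0 := by
    intro h
    rw [ZMod.natCast_eq_zero_iff] at h
    exact hqp ((Nat.prime_dvd_prime_iff_eq hq hp).1 h)
  set F : Polynomial ℤ_[q] := Polynomial.X ^ p - 1 with hF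
  have hFa : Polynomial.aeval a F = a ^ p - 1 := by
    rw [hF]; simp
  have hF'a : Polynomial.aeval a (Polynomial.derivative F) = (p : ℤ_[q]) * a ^ (p - 1) := by
    rw [hF, Polynomial.derivative_sub, Polynomial.derivative_one, sub_zero,
      Polynomial.derivative_X_pow, Polynomial.aeval_mul, map_pow, Polynomial.aeval_X,
      Polynomial.aeval_C]
    simp
  have h1 : ‖Polynomial.aeval a F‖ < 1 := by
    rw [hFa, loctd_norm_lt_one_iff, map_sub, map_pow, haz, hup, map_one, sub_self]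
  have h2 : ‖Polynomial.aeval a (Polynomial.derivative F)‖ = 1 := by
    rw [hF'a]
    have h3 : ¬ ‖(p : ℤ_[q]) * a ^ (p - 1)‖ < 1 := by
      rw [loctd_norm_lt_one_iff, map_mul, map_pow, haz, map_natCast]
      exact mul_ne_zero hpq (pow_ne_zero _ (Units.ne_zero u))
    exact le_antisymm (PadicInt.norm_le_one _) (not_lt.1 h3)
  have hnorm : ‖Polynomial.aeval a F‖ < ‖Polynomial.aeval a (Polynomial.derivative F)‖ ^ 2 := by
    rw [h2, one_pow]; exact h1
  obtain ⟨z, hz0, hza, -, -⟩ := hensels_lemma hnorm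
  rw [h2] at hza
  have hzp : z ^ p = 1 := by
    have : Polynomial.aeval z F = z ^ p - 1 := by rw [hF]; simp
    rw [this, sub_eq_zero] at hz0
    exact hz0
  have hz1 : z ≠ 1 := by
    rintro rfl
    rw [loctd_norm_lt_one_iff, map_sub, map_one, haz, sub_eq_zero] at hza
    exact hu1 hza.symm
  refine ⟨z, ?_⟩
  have := orderOf_eq_prime hzp hz1
  rw [← this]
  exact IsPrimitiveRoot.orderOf z

/-- a primitive `p`-th root of unity of `ℚ̄_q` lying in `ℚ_q`, for `p ∣ q - 1` -/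
theorem loctd_exists_zeta (q : ℕ) [Fact q.Prime] (p : ℕ) [Fact p.Prime]
    (hqp : q ≠ p) (hq1 : p ∣ q - 1) :
    ∃ ζ : PadicAlgCl q, IsPrimitiveRoot ζ p ∧
      ζ ∈ (⊥ : IntermediateField ℚ_[q] (PadicAlgCl q)) ∧ ∀ σ : lbGal q, σ ζ = ζ := by
  obtain ⟨z, hz⟩ := loctd_exists_primitiveRoot_padicInt q p hqp hq1
  have h1 : IsPrimitiveRoot ((z : ℤ_[q]) : ℚ_[q]) p :=
    hz.map_of_injective (f := PadicInt.Coe.ringHom) Subtype.coe_injective
  have h2 : IsPrimitiveRoot (algebraMap ℚ_[q] (PadicAlgCl q) ((z : ℤ_[q]) : ℚ_[q])) p :=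
    h1.map_of_injective (algebraMap ℚ_[q] (PadicAlgCl q)).injective
  exact ⟨_, h2, IntermediateField.algebraMap_mem _ _, fun σ => σ.commutes _⟩

/-! ### local duality for the full local group, trivial coefficients -/

/-- local duality at `q ≡ 1 (p)` for the full local Galois group, trivial coefficients `ZMod p`:
a smooth homomorphism `ψ` whose cup products with all smooth homomorphisms are smooth
coboundaries vanishes -/
theorem loctd_duality (q : ℕ) [Fact q.Prime] (p : ℕ) [Fact p.Prime] (hqp : q ≠ p)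
    (hq1 : p ∣ q - 1) (ψ : lbGal q → ZMod p)
    (hψ : ψ ∈ smZ1 (lbLevels q) (1 : Representation (ZMod p) (lbGal q) (ZMod p)))
    (h : ∀ f ∈ smZ1 (lbLevels q) (1 : Representation (ZMod p) (lbGal q) (ZMod p)),
      ∃ x : lbGal q → ZMod p, IsLC₁ (lbLevels q) x ∧
        ∀ σ τ, f σ * ψ τ = x τ - x (σ * τ) + x σ) : ψ = 0 := by
  obtain ⟨ζ, hζ, hζE, hfix⟩ := loctd_exists_zeta q p hqp hq1
  set E : IntermediateField ℚ_[q] (PadicAlgCl q) := ⊥ with hE
  have hmem : ∀ σ : lbGal q, σ ∈ E.fixingSubgroup := fun σ => by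
    rw [hE, IntermediateField.fixingSubgroup_bot]; exact Subgroup.mem_top σ
  set ρ : Representation (ZMod p) ↥E.fixingSubgroup (ZMod p) :=
    (1 : Representation (ZMod p) (lbGal q) (ZMod p)).comp E.fixingSubgroup.subtype with hρdef
  have hρ : IsMuRep ζ E.fixingSubgroup ρ := fun σ x => by
    show (σ : lbGal q) (ζ ^ x.val) = ζ ^ x.val
    rw [map_pow, hfix]
  have hcont := Levels.continuous_comap (lbLevels q) E.fixingSubgroup.subtype
  have hg : (fun σ : ↥E.fixingSubgroup => ψ (σ : lbGal q)) ∈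
      smZ1 ((lbLevels q).sub E.fixingSubgroup) ρ :=
    (smZ1res (1 : Representation (ZMod p) (lbGal q) (ZMod p)) hcont ⟨ψ, hψ⟩).2
  have h0 := lbInv_cup_nondegenerate_right hζ E hζE ρ hρ _ hg (fun f hf => by
    -- extend `f` to the whole group
    have hF : (fun σ : lbGal q => f ⟨σ, hmem σ⟩) ∈
        smZ1 (lbLevels q) (1 : Representation (ZMod p) (lbGal q) (ZMod p)) := by
      obtain ⟨hf1, U', ⟨U, hU, rfl⟩, hf2⟩ := (mem_smZ1 _ _ f).1 hf
      refine (mem_smZ1 _ _ _).2 ⟨?_, U, hU, fun g s hs => ?_⟩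
      · funext s
        have h1 := congrFun hf1 (⟨s.1, hmem s.1⟩, ⟨s.2, hmem s.2⟩)
        obtain ⟨s1, s2⟩ := s
        rw [dd1_apply] at h1 ⊢
        exact h1
      · exact hf2 ⟨g, hmem g⟩ ⟨s, hmem s⟩ hs
    obtain ⟨x, hx, hxe⟩ := h _ hF
    have hzero : smH2π ((lbLevels q).sub E.fixingSubgroup) ρ
        ⟨_, lb_cup_mem_smZ2 hζ E hζE ρ hρ f _ hf hg⟩ = 0 := by
      refine (smH2π_eq_zero_iff _ ρ _).2 ?_
      refine (mem_smB2 _ ρ _).2 ⟨fun σ => x (σ : lbGal q), IsLC₁.comp_hom _ hcont hx, ?_⟩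
      funext s
      obtain ⟨s1, s2⟩ := s
      rw [dd1_apply]
      exact (hxe (s1 : lbGal q) (s2 : lbGal q)).symm
    rw [hzero, map_zero])
  funext σ
  exact congrFun h0 ⟨σ, hmem σ⟩

/-! ### averaging and functionals -/

/-- averaging over a finite quotient of order invertible in `k`: an invariant vector pairing
non-trivially with a given invariant vector -/
theorem loctd_exists_invariant {k : Type*} [Field k] {G : Type*} [Group G]
    {V W : Type*} [AddCommGroup V] [Module k V] [AddCommGroup W] [Module k W]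
    (ρV : Representation k G V) (ρW : Representation k G W) (β : V →ₗ[k] W →ₗ[k] k)
    (hβ : ∀ g v w, β (ρV g v) (ρW g w) = β v w)
    (U : Subgroup G) [U.Normal] [U.FiniteIndex] (hU : ∀ s ∈ U, ρV s = 1)
    (hidx : ((U.index : ℕ) : k) ≠ 0)
    (w₀ : W) (hw₀ : ∀ g, ρW g w₀ = w₀) (v₁ : V) (hv₁ : β v₁ w₀ ≠ 0) :
    ∃ v : V, (∀ g, ρV g v = v) ∧ β v w₀ ≠ 0 := by
  classical
  haveI : Finite (G ⧸ U) := Subgroup.finite_quotient_of_finiteIndex
  haveI : Fintype (G ⧸ U) := Fintype.ofFinite _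
  let ρ' : G ⧸ U →* (V →ₗ[k] V) := QuotientGroup.lift U ρV (fun s hs => hU s hs)
  have hρ' : ∀ g : G, ρ' (g : G ⧸ U) = ρV g := fun g => rfl
  refine ⟨∑ x : G ⧸ U, ρ' x v₁, fun g => ?_, ?_⟩
  · rw [map_sum]
    have h1 : ∀ x : G ⧸ U, ρV g (ρ' x v₁) = ρ' ((g : G ⧸ U) * x) v₁ := by
      intro x
      rw [map_mul, hρ']
      rfl
    rw [Finset.sum_congr rfl (fun x _ => h1 x)]
    exact Fintype.sum_bijective _ (Group.mulLeft_bijective (g : G ⧸ U)) _ _ (fun _ => rfl)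
  · rw [map_sum, LinearMap.sum_apply]
    have h2 : ∀ x : G ⧸ U, β (ρ' x v₁) w₀ = β v₁ w₀ := by
      intro x
      induction x using QuotientGroup.induction_on with
      | H g =>
        rw [hρ']
        conv_lhs => rw [← hw₀ g]
        exact hβ g v₁ w₀
    rw [Finset.sum_congr rfl (fun x _ => h2 x), Finset.sum_const, Finset.card_univ,
      nsmul_eq_mul, ← Nat.card_eq_fintype_card, ← Subgroup.index_eq_card]
    exact mul_ne_zero hidx hv₁

/-- a `ZMod p`-linear functional on a field of characteristic `p` not vanishing at `x ≠ 0` -/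
theorem loctd_exists_functional (p : ℕ) [Fact p.Prime] (k : Type*) [Field k] [CharP k p]
    (x : k) (hx : x ≠ 0) :
    letI : Algebra (ZMod p) k := ZMod.algebra k p
    ∃ l : k →ₗ[ZMod p] ZMod p, l x ≠ 0 := by
  letI : Algebra (ZMod p) k := ZMod.algebra k p
  by_contra hcon
  refine hx ((Module.forall_dual_apply_eq_zero_iff (ZMod p) x).1 (fun l => ?_))
  by_contra hl
  exact hcon ⟨l, hl⟩

/-! ### the leaf -/

section Counts

variable (q : ℕ) [Fact q.Prime] {k : Type} [Field k]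
  {V : Type} [AddCommGroup V] [Module k V] [FiniteDimensional k V]

variable (p : ℕ) [Fact p.Prime] [CharP k p] [Finite k]

/-- C3: local duality at Taylor–Wiles primes (right kernel of the cup pairing is trivial) -/
theorem loc_tw_cupH11_nondeg_right (hqp : q ≠ p) (hq1 : p ∣ q - 1)
    {W : Type} [AddCommGroup W] [Module k W] [FiniteDimensional k W]
    (ρV : Representation k (lbGal q) V) (ρW : Representation k (lbGal q) W)
    (χ : lbGal q →* kˣ)
    (hχ : ∀ (g : lbGal q) (a : ℕ), (∀ ζ : PadicAlgCl q, ζ ^ p = 1 → g ζ = ζ ^ a) →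
      ((χ g : kˣ) : k) = (a : k))
    (β : V →ₗ[k] W →ₗ[k] k)
    (P : PairingData (lbLevels q) ρV ρW (chiRep χ) β)
    (hβl : ∀ v, (∀ w, β v w = 0) → v = 0) (hβr : ∀ w, (∀ v, β v w = 0) → w = 0)
    (hprimeV : ∃ U, (lbLevels q).IsLevel U ∧ U.Normal ∧ (∀ s ∈ U, ρV s = 1) ∧ ¬ p ∣ U.index)
    (hprimeW : ∃ U, (lbLevels q).IsLevel U ∧ U.Normal ∧ (∀ s ∈ U, ρW s = 1) ∧ ¬ p ∣ U.index)
    (y : smH1 (lbLevels q) ρW) (hy : ∀ x : smH1 (lbLevels q) ρV, cupH11 P x y = 0) : y = 0 := by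
  classical
  obtain ⟨ζ, hζ, -, hfix⟩ := loctd_exists_zeta q p hqp hq1
  -- `χ` is trivial
  have hχ1 : ∀ g : lbGal q, ((χ g : kˣ) : k) = 1 := by
    intro g
    have h1 := hχ g 1 (fun ξ hξ => by
      obtain ⟨i, -, rfl⟩ := hζ.eq_pow_of_pow_eq_one hξ
      rw [map_pow, hfix, pow_one])
    rw [h1, Nat.cast_one]
  have hβ' : ∀ g v w, β (ρV g v) (ρW g w) = β v w := by
    intro g v w
    rw [P.equiv g v w, chiRep_apply, hχ1, one_mul]
  obtain ⟨⟨c, hc⟩, rfl⟩ := Submodule.mkQ_surjective _ y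
  obtain ⟨m, hm⟩ := loc_tw_exists_rep q p hqp hq1 ρW P.smW hprimeW c hc
  by_contra hne
  -- the representative with values in the invariants
  set c' : lbGal q → W := c - dd0 ρW m with hc'def
  have hc' : c' ∈ smZ1 (lbLevels q) ρW :=
    (smZ1 (lbLevels q) ρW).sub_mem hc (smB1_le_smZ1 P.smW ⟨m, rfl⟩)
  have hcls : Submodule.mkQ _ (⟨c, hc⟩ : ↥(smZ1 (lbLevels q) ρW)) =
      smH1π (lbLevels q) ρW ⟨c', hc'⟩ := by
    refine (Submodule.Quotient.eq _).2 ?_
    refine ⟨m, ?_⟩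
    show dd0 ρW m = c - c'
    rw [hc'def, sub_sub_cancel]
  have hinv : ∀ σ g, ρW g (c' σ) = c' σ := by
    intro σ g
    have h1 : dd0 ρW (c' σ) = 0 := LinearMap.mem_ker.1 (hm σ)
    have h2 := congrFun h1 g
    rw [dd0_apply] at h2
    exact sub_eq_zero.1 h2
  have hadd : ∀ σ τ, c' (σ * τ) = c' σ + c' τ := by
    intro σ τ
    have h1 : dd1 ρW c' = 0 := LinearMap.mem_ker.1 hc'.1
    have h2 := congrFun h1 (σ, τ)
    rw [dd1_apply, hinv] at h2
    have h3 : c' τ - c' (σ * τ) + c' σ = 0 := h2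
    rw [sub_add_eq_add_sub, sub_eq_zero] at h3
    rw [← h3, add_comm]
  -- `c' ≠ 0`
  have hc'0 : c' ≠ 0 := by
    intro h0
    apply hne
    rw [hcls]
    have : (⟨c', hc'⟩ : ↥(smZ1 (lbLevels q) ρW)) = 0 := Subtype.ext h0
    rw [this, map_zero]
  obtain ⟨τ₀, hτ₀⟩ := Function.ne_iff.1 hc'0
  have hw₀ : c' τ₀ ≠ 0 := hτ₀
  -- a vector pairing non-trivially with `c' τ₀`
  have hv₁ : ∃ v₁, β v₁ (c' τ₀) ≠ 0 := by
    by_contra hcon
    apply hw₀
    apply hβr
    intro v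
    by_contra hv
    exact hcon ⟨v, hv⟩
  obtain ⟨v₁, hv₁⟩ := hv₁
  obtain ⟨U, hU, hUn, hUt, hUp⟩ := hprimeV
  haveI := hUn
  haveI := (lbLevels q).finiteIndex U hU
  have hidx : ((U.index : ℕ) : k) ≠ 0 := by
    rw [Ne, CharP.cast_eq_zero_iff k p]
    exact hUp
  obtain ⟨v, hv, hvw⟩ := loctd_exists_invariant ρV ρW β hβ' U hUt hidx (c' τ₀)
    (fun g => hinv τ₀ g) v₁ hv₁
  -- the functional
  letI : Algebra (ZMod p) k := ZMod.algebra k p
  obtain ⟨l, hl⟩ := loctd_exists_functional p k (β v (c' τ₀)) hvw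
  set ψ₁ : lbGal q → ZMod p := fun τ => l (β v (c' τ)) with hψ₁
  have hψ₁mem : ψ₁ ∈ smZ1 (lbLevels q) (1 : Representation (ZMod p) (lbGal q) (ZMod p)) := by
    refine (mem_smZ1 _ _ _).2 ⟨?_, hc'.2.comp (fun w => l (β v w))⟩
    funext s
    obtain ⟨σ, τ⟩ := s
    rw [dd1_apply]
    show l (β v (c' τ)) - l (β v (c' (σ * τ))) + l (β v (c' σ)) = 0
    rw [hadd, map_add, map_add]
    abel
  have hψ₁0 : ψ₁ ≠ 0 := fun h0 => hl (congrFun h0 τ₀)
  apply hψ₁0
  refine loctd_duality q p hqp hq1 ψ₁ hψ₁mem (fun f hf => ?_)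
  -- the class `x` attached to `f`
  have hfadd : ∀ σ τ, f (σ * τ) = f σ + f τ := by
    intro σ τ
    have h1 : dd1 (1 : Representation (ZMod p) (lbGal q) (ZMod p)) f = 0 :=
      LinearMap.mem_ker.1 hf.1
    have h2 := congrFun h1 (σ, τ)
    rw [dd1_apply] at h2
    have h3 : f τ - f (σ * τ) + f σ = 0 := h2
    rw [sub_add_eq_add_sub, sub_eq_zero] at h3
    rw [← h3, add_comm]
  set a : lbGal q → V := fun σ => (algebraMap (ZMod p) k (f σ)) • v with hadef
  have ha : a ∈ smZ1 (lbLevels q) ρV := by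
    refine (mem_smZ1 _ _ _).2 ⟨?_, hf.2.comp (fun z => (algebraMap (ZMod p) k z) • v)⟩
    funext s
    obtain ⟨σ, τ⟩ := s
    rw [dd1_apply]
    show ρV σ ((algebraMap (ZMod p) k (f τ)) • v) - (algebraMap (ZMod p) k (f (σ * τ))) • v +
      (algebraMap (ZMod p) k (f σ)) • v = 0
    rw [map_smul, hv, hfadd, map_add, add_smul]
    abel
  have h1 := hy (smH1π (lbLevels q) ρV ⟨a, ha⟩)
  rw [hcls] at h1
  have hmem : cup11 β ρW a c' ∈ smZ2 (lbLevels q) (chiRep χ) :=
    crita_cup11_mem P ⟨a, ha⟩ ⟨c', hc'⟩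
  rw [cupH11_mk P ⟨a, ha⟩ ⟨c', hc'⟩ hmem] at h1
  obtain ⟨x₀, hx₀, hx₀e⟩ := (mem_smB2 _ _ _).1 ((smH2π_eq_zero_iff _ _ _).1 h1)
  refine ⟨fun σ => l (x₀ σ), hx₀.comp (fun z => l z), fun σ τ => ?_⟩
  have h2 : dd1 (chiRep χ) x₀ (σ, τ) = cup11 β ρW a c' (σ, τ) := congrFun hx₀e (σ, τ)
  rw [dd1_apply, cup11_apply, chiRep_apply, hχ1, one_mul, hinv] at h2
  have h3 : β (a σ) (c' τ) = (f σ) • β v (c' τ) := by
    rw [hadef]
    show β ((algebraMap (ZMod p) k (f σ)) • v) (c' τ) = _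
    rw [map_smul, LinearMap.smul_apply, smul_eq_mul, Algebra.smul_def]
  rw [h3] at h2
  show f σ * l (β v (c' τ)) = l (x₀ τ) - l (x₀ (σ * τ)) + l (x₀ σ)
  rw [← smul_eq_mul, ← map_smul, ← h2, map_add, map_sub]

end Counts

end Fermat.Agent.S56
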