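/-
S56 / package LOC, leaf C6 (helper4): linear algebra at Taylor-Wiles primes.
Statements `ad0_centralizer_proportional`, `loc_tw_prime_to_p` VERBATIM from `Loc/Spec.lean`
(helper22 ee164b5).  Black box: S3 `loc_exists_zpow_mul` (via the stub `Loc/SpecStructure.lean`
= `Loc/Spec.lean` cut to its section Structure).  Helper names are prefixed `twlin_`.
-/
import Fermat.Agent.S56.Loc.Lift
import Fermat.Agent.S55.LocalBridgeGalois

set_option autoImplicit false
set_option linter.unusedSectionVars false
set_option linter.unusedVariables false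

namespace Fermat.Agent.S56

open Fermat.Agent.S55 Polynomial

section TwLinAux

variable {k : Type} [Field k] {V : Type} [AddCommGroup V] [Module k V] [FiniteDimensional k V]

/-- a basis of eigenvectors for an endomorphism of a plane with two distinct eigenvalues. -/
theorem twlin_exists_eigenbasis (hV : Module.finrank k V = 2) (f : Module.End k V) (a b : k)
    (hab : a ≠ b) (hf : LinearMap.charpoly f = (X - C a) * (X - C b)) :
    ∃ e : Module.Basis (Fin 2) k V, f (e 0) = a • e 0 ∧ f (e 1) = b • e 1 := by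
  have ha : f.HasEigenvalue a := by
    rw [Module.End.hasEigenvalue_iff_isRoot_charpoly, hf]
    simp
  have hb : f.HasEigenvalue b := by
    rw [Module.End.hasEigenvalue_iff_isRoot_charpoly, hf]
    simp
  obtain ⟨v, hv⟩ := ha.exists_hasEigenvector
  obtain ⟨w, hw⟩ := hb.exists_hasEigenvector
  have hfv : f v = a • v := hv.apply_eq_smul
  have hfw : f w = b • w := hw.apply_eq_smul
  have hli : LinearIndependent k ![v, w] := by
    rw [LinearIndependent.pair_iff]
    intro s t hst
    have h1 : f (s • v + t • w) = 0 := by rw [hst, map_zero]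
    rw [map_add, map_smul, map_smul, hfv, hfw] at h1
    -- `a • (s v + t w) = 0` too
    have h2 : a • (s • v + t • w) = 0 := by rw [hst, smul_zero]
    have h3 : (t * (b - a)) • w = 0 := by
      have : (t * (b - a)) • w = (s • a • v + t • b • w) - a • (s • v + t • w) := by
        simp only [smul_add, smul_smul, sub_smul, mul_sub]
        rw [mul_comm a s, mul_comm a t]
        abel
      rw [this, h1, h2, sub_zero]
    have ht : t = 0 := by
      rcases smul_eq_zero.mp h3 with h | h
      · rcases mul_eq_zero.mp h with h | h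
        · exact h
        · exact absurd (sub_eq_zero.mp h).symm hab
      · exact absurd h hw.2
    rw [ht, zero_smul, add_zero] at hst
    rcases smul_eq_zero.mp hst with h | h
    · exact ⟨h, ht⟩
    · exact absurd h hv.2
  have hcard : Fintype.card (Fin 2) = Module.finrank k V := by rw [hV]; rfl
  refine ⟨basisOfLinearIndependentOfCardEqFinrank hli hcard, ?_, ?_⟩
  · rw [coe_basisOfLinearIndependentOfCardEqFinrank]
    exact hfv
  · rw [coe_basisOfLinearIndependentOfCardEqFinrank]
    exact hfw

/-- an endomorphism commuting with `f` is diagonal in an eigenbasis of `f` (distinct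
eigenvalues). -/
theorem twlin_diag_of_commute (f : Module.End k V) (a b : k) (hab : a ≠ b)
    (e : Module.Basis (Fin 2) k V) (he0 : f (e 0) = a • e 0) (he1 : f (e 1) = b • e 1)
    (x : Module.End k V) (hx : f * x = x * f) :
    ∃ α β : k, x (e 0) = α • e 0 ∧ x (e 1) = β • e 1 := by
  have hrepr : ∀ v : V, v = e.repr v 0 • e 0 + e.repr v 1 • e 1 := by
    intro v
    conv_lhs => rw [← e.sum_repr v]
    rw [Fin.sum_univ_two]
  have hfx : ∀ v : V, f (x v) = x (f v) := fun v => by
    have := congrArg (fun g : Module.End k V => g v) hx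
    simpa using this
  -- `x (e 0)` is an `a`-eigenvector, `x (e 1)` a `b`-eigenvector
  have h0 : f (x (e 0)) = a • x (e 0) := by rw [hfx, he0, map_smul]
  have h1 : f (x (e 1)) = b • x (e 1) := by rw [hfx, he1, map_smul]
  have key : ∀ (c : k) (v : V), f v = c • v →
      ((a - c) * e.repr v 0) • e 0 + ((b - c) * e.repr v 1) • e 1 = 0 := by
    intro c v hv
    have h2 : f v = (a * e.repr v 0) • e 0 + (b * e.repr v 1) • e 1 := by
      conv_lhs => rw [hrepr v]
      rw [map_add, map_smul, map_smul, he0, he1, smul_smul, smul_smul, mul_comm a, mul_comm b]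
    have h3 : c • v = (c * e.repr v 0) • e 0 + (c * e.repr v 1) • e 1 := by
      conv_lhs => rw [hrepr v]
      rw [smul_add, smul_smul, smul_smul]
    have h4 : f v - c • v = 0 := by rw [hv, sub_self]
    rw [h2, h3] at h4
    rw [← h4]
    simp only [sub_mul, sub_smul]
    abel
  have hli := e.linearIndependent
  have hcoef : ∀ s t : k, s • e 0 + t • e 1 = 0 → s = 0 ∧ t = 0 := by
    intro s t hst
    have h5 := Fintype.linearIndependent_iff.mp hli ![s, t] (by
      rw [Fin.sum_univ_two]; simpa using hst)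
    exact ⟨by simpa using h5 0, by simpa using h5 1⟩
  refine ⟨e.repr (x (e 0)) 0, e.repr (x (e 1)) 1, ?_, ?_⟩
  · have h6 := (hcoef _ _ (key a _ h0)).2
    have h7 : e.repr (x (e 0)) 1 = 0 := by
      rcases mul_eq_zero.mp h6 with h | h
      · exact absurd (sub_eq_zero.mp h).symm hab
      · exact h
    conv_lhs => rw [hrepr (x (e 0))]
    rw [h7, zero_smul, add_zero]
  · have h6 := (hcoef _ _ (key b _ h1)).1
    have h7 : e.repr (x (e 1)) 0 = 0 := by
      rcases mul_eq_zero.mp h6 with h | h
      · exact absurd (sub_eq_zero.mp h) hab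
      · exact h
    conv_lhs => rw [hrepr (x (e 1))]
    rw [h7, zero_smul, zero_add]

/-- the trace of a diagonal endomorphism. -/
theorem twlin_trace_diag (e : Module.Basis (Fin 2) k V) (x : Module.End k V) (α β : k)
    (h0 : x (e 0) = α • e 0) (h1 : x (e 1) = β • e 1) :
    LinearMap.trace k V x = α + β := by
  rw [LinearMap.trace_eq_matrix_trace k e, Matrix.trace_fin_two, LinearMap.toMatrix_apply,
    LinearMap.toMatrix_apply, h0, h1, map_smul, map_smul]
  simp

theorem twlin_pow_apply (f : Module.End k V) (v : V) (c : k) (h : f v = c • v) (n : ℕ) :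
    (f ^ n) v = c ^ n • v := by
  induction n with
  | zero => simp
  | succ n ih =>
    rw [pow_succ, Module.End.mul_apply, h, map_smul, ih, smul_smul, pow_succ, mul_comm]

/-- `p` does not divide `|k| - 1`. -/
theorem twlin_not_dvd_card_sub_one (p : ℕ) [Fact p.Prime] [CharP k p] [Fintype k] :
    ¬ p ∣ Fintype.card k - 1 := by
  obtain ⟨n, -, hn⟩ := FiniteField.card k p
  intro hdvd
  have hp : p.Prime := Fact.out
  have h1 : p ∣ Fintype.card k := by
    rw [hn]
    exact dvd_pow_self p n.ne_zero
  have hpos : 1 ≤ Fintype.card k := Fintype.card_pos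
  have h2 : p ∣ Fintype.card k - (Fintype.card k - 1) := Nat.dvd_sub h1 hdvd
  have h3 : Fintype.card k - (Fintype.card k - 1) = 1 := by omega
  rw [h3] at h2
  exact hp.one_lt.ne' (Nat.dvd_one.mp h2)

end TwLinAux

/-! ### Counts (leaf C6) -/

section Counts

variable (q : ℕ) [Fact q.Prime] {k : Type} [Field k]
  {V : Type} [AddCommGroup V] [Module k V] [FiniteDimensional k V]

variable (p : ℕ) [Fact p.Prime] [CharP k p] [Finite k]

/-- C6a: a regular semisimple element has a one-dimensional centraliser in `ad⁰`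
(PORTABLE FORM: any two trace-zero endomorphisms commuting with `f` are proportional). -/
theorem ad0_centralizer_proportional (hV : Module.finrank k V = 2) (f : Module.End k V) (a b : k)
    (hab : a ≠ b) (hf : LinearMap.charpoly f = (X - C a) * (X - C b))
    (x y : Module.End k V) (hx0 : LinearMap.trace k V x = 0) (hy0 : LinearMap.trace k V y = 0)
    (hx : f * x = x * f) (hy : f * y = y * f) (hxne : x ≠ 0) : ∃ t : k, y = t • x := by
  obtain ⟨e, he0, he1⟩ := twlin_exists_eigenbasis hV f a b hab hf
  obtain ⟨α, β, hxα, hxβ⟩ := twlin_diag_of_commute f a b hab e he0 he1 x hx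
  obtain ⟨γ, δ, hyγ, hyδ⟩ := twlin_diag_of_commute f a b hab e he0 he1 y hy
  have h1 := twlin_trace_diag e x α β hxα hxβ
  have h2 := twlin_trace_diag e y γ δ hyγ hyδ
  rw [hx0] at h1
  rw [hy0] at h2
  have hβ : β = -α := by linear_combination -h1
  have hδ : δ = -γ := by linear_combination -h2
  have hα : α ≠ 0 := by
    intro h0
    apply hxne
    apply e.ext
    intro i
    fin_cases i
    · simp only [Fin.zero_eta, LinearMap.zero_apply]
      rw [hxα, h0, zero_smul]
    · simp only [Fin.mk_one, LinearMap.zero_apply]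
      rw [hxβ, hβ, h0, neg_zero, zero_smul]
  refine ⟨γ / α, ?_⟩
  apply e.ext
  intro i
  fin_cases i
  · simp only [Fin.zero_eta, LinearMap.smul_apply]
    rw [hyγ, hxα, smul_smul, div_mul_cancel₀ _ hα]
  · simp only [Fin.mk_one, LinearMap.smul_apply]
    rw [hyδ, hxβ, hδ, hβ, smul_smul, mul_neg, div_mul_cancel₀ _ hα]

/-- C6b: unramified with a Frobenius of distinct eigenvalues in `k` ⟹ image of order prime
to `p` -/
theorem loc_tw_prime_to_p (hV : Module.finrank k V = 2)
    (ρ : Representation k (lbGal q) V) (hρ : IsSmoothRep (lbLevels q) ρ)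
    (hur : ∀ σ ∈ locInertia q, ρ σ = 1) (φ : lbGal q) (hφ : IsFrobLift q φ) (a b : k)
    (hab : a ≠ b) (hg : LinearMap.charpoly (ρ φ) = (X - C a) * (X - C b)) :
    ∃ U, (lbLevels q).IsLevel U ∧ U.Normal ∧ (∀ s ∈ U, ρ s = 1) ∧ ¬ p ∣ U.index := by
  classical
  have hfin : Fintype k := Fintype.ofFinite k
  obtain ⟨e, he0, he1⟩ := twlin_exists_eigenbasis hV (ρ φ) a b hab hg
  -- a level acting trivially
  obtain ⟨U₁, hU₁, hU₁e⟩ := hρ (e 0)
  obtain ⟨U₂, hU₂, hU₂e⟩ := hρ (e 1)
  obtain ⟨U₀, hU₀, hU₀le⟩ := (lbLevels q).exists_le_inf U₁ U₂ hU₁ hU₂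
  have hU₀triv : ∀ s ∈ U₀, ρ s = 1 := by
    intro s hs
    apply e.ext
    intro i
    fin_cases i
    · exact hU₁e s (hU₀le hs).1
    · exact hU₂e s (hU₀le hs).2
  have hkerlevel : (lbLevels q).IsLevel (MonoidHom.ker ρ) := by
    have hopen : (lbLevels q).IsOpen (MonoidHom.ker ρ) :=
      ⟨U₀, hU₀, fun s hs => MonoidHom.mem_ker.mpr (hU₀triv s hs)⟩
    exact (lb_isOpen_iff q _).mp hopen
  have hnormal : (MonoidHom.ker ρ).Normal := MonoidHom.normal_ker ρ
  refine ⟨MonoidHom.ker ρ, hkerlevel, hnormal, fun s hs => MonoidHom.mem_ker.mp hs, ?_⟩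
  -- the eigenvalues are nonzero
  have hinv : ∀ v : V, ρ φ v = 0 → v = 0 := by
    intro v hv
    have h1 : ρ φ⁻¹ (ρ φ v) = v := by
      rw [← Module.End.mul_apply, ← map_mul, inv_mul_cancel, map_one, Module.End.one_apply]
    rw [← h1, hv, map_zero]
  have ha0 : a ≠ 0 := by
    rintro rfl
    rw [zero_smul] at he0
    exact e.ne_zero 0 (hinv _ he0)
  have hb0 : b ≠ 0 := by
    rintro rfl
    rw [zero_smul] at he1
    exact e.ne_zero 1 (hinv _ he1)
  -- `ρ φ ^ (|k| - 1) = 1`
  have hpow : ρ φ ^ (Fintype.card k - 1) = 1 := by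
    apply e.ext
    intro i
    fin_cases i
    · simp only [Fin.zero_eta, Module.End.one_apply]
      rw [twlin_pow_apply (ρ φ) (e 0) a he0, FiniteField.pow_card_sub_one_eq_one a ha0, one_smul]
    · simp only [Fin.mk_one, Module.End.one_apply]
      rw [twlin_pow_apply (ρ φ) (e 1) b he1, FiniteField.pow_card_sub_one_eq_one b hb0, one_smul]
  -- the quotient by the kernel is generated by the class of `φ`
  have hgen : ∀ x : lbGal q ⧸ MonoidHom.ker ρ,
      x ∈ Subgroup.zpowers (QuotientGroup.mk φ : lbGal q ⧸ MonoidHom.ker ρ) := by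
    intro x
    obtain ⟨g, rfl⟩ := QuotientGroup.mk_surjective x
    obtain ⟨n, i, u, hi, hu, rfl⟩ := loc_exists_zpow_mul q φ hφ U₀ hU₀ g
    have hi' : (QuotientGroup.mk i : lbGal q ⧸ MonoidHom.ker ρ) = 1 :=
      (QuotientGroup.eq_one_iff i).mpr (MonoidHom.mem_ker.mpr (hur i hi))
    have hu' : (QuotientGroup.mk u : lbGal q ⧸ MonoidHom.ker ρ) = 1 :=
      (QuotientGroup.eq_one_iff u).mpr (MonoidHom.mem_ker.mpr (hU₀triv u hu))
    refine ⟨n, ?_⟩
    simp only [QuotientGroup.mk_mul, QuotientGroup.mk_zpow, hi', hu', mul_one]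
  have hcard : orderOf (QuotientGroup.mk φ : lbGal q ⧸ MonoidHom.ker ρ)
      = Nat.card (lbGal q ⧸ MonoidHom.ker ρ) := orderOf_eq_card_of_forall_mem_zpowers hgen
  have hdvd : orderOf (QuotientGroup.mk φ : lbGal q ⧸ MonoidHom.ker ρ)
      ∣ Fintype.card k - 1 := by
    apply orderOf_dvd_of_pow_eq_one
    rw [← QuotientGroup.mk_pow, QuotientGroup.eq_one_iff, MonoidHom.mem_ker, map_pow, hpow]
  intro hp
  apply twlin_not_dvd_card_sub_one (k := k) p
  refine dvd_trans hp ?_
  rw [Subgroup.index_eq_card, ← hcard]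
  exact hdvd

end Counts

end Fermat.Agent.S56
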