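/-
S56 / LOC: everything that is proved (import this file to get the whole package LOC).
-/
import Fermat.Agent.S56.Loc.Lift
import Fermat.Agent.S56.Loc.Tame
import Fermat.Agent.S56.Loc.UrCount
import Fermat.Agent.S56.Loc.TwLin
import Fermat.Agent.S56.Loc.Unip
import Fermat.Agent.S56.Loc.TwCount
import Fermat.Agent.S56.Loc.TwDual
import Fermat.Agent.S56.Loc.KummerP
import Fermat.Agent.S56.Loc.OrdCount
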